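import Fermat.Agent.DS.G1.PrimVec
import Mathlib.Algebra.Polynomial.Derivative
import Mathlib.Algebra.Polynomial.Degree.Lemmas
import Mathlib.Data.Complex.Basic
import Mathlib.Tactic.ComputeDegree

/-!
# The universal curves with a point of order `4` or `5`

In the coordinate `b = -D³/W`, where `D = P(z) - P(2z)` and `W = P'(z)²`, the invariants are
`c₄(b) = E₄ μ²` and `c₆(b) = -E₆ μ³` with `μ = D²/W`.
-/

set_option autoImplicit false

noncomputable section

open Polynomial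

namespace Fermat.Agent.DS.G1

instance decidablePredIsPrim {r : ℕ} [NeZero r] : DecidablePred (IsPrim (M := r)) := fun v =>
  decidable_of_iff (∃ x y, x * v 0 + y * v 1 = 1) Iff.rfl

/-- A representative modulo sign. -/
def IsHalf {r : ℕ} (w : PrimVec r) : Prop :=
  (0 < (w.1 0).val ∧ 2 * (w.1 0).val < r) ∨
    (((w.1 0).val = 0 ∨ 2 * (w.1 0).val = r) ∧ 0 < (w.1 1).val ∧ 2 * (w.1 1).val < r)

instance decidablePredIsHalf {r : ℕ} : DecidablePred (IsHalf (r := r)) := fun _ =>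
  inferInstanceAs (Decidable (_ ∨ _))

/-- The primitive vectors up to sign. -/
def halfSet (r : ℕ) [NeZero r] : Finset (PrimVec r) := Finset.univ.filter IsHalf

/-- The polynomial data of the universal curve at level `r`. -/
structure RData (r : ℕ) [NeZero r] where
  C4 : ℤ[X]
  C6 : ℤ[X]
  D0 : ℤ[X]
  mExp : ℕ
  kappa : ℤ
  eExp : ℕ
  sq : C6 ^ 2 = C4 ^ 3 - 1728 * D0
  deriv_id : 3 * derivative C4 * D0 - C4 * derivative D0 = C kappa * X ^ mExp * C6
  X_dvd : X ∣ D0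
  bezout : ∃ U V : ℤ[X], U * C4 ^ 3 + V * D0 = C ((r : ℤ) ^ eExp)
  kappa_dvd : kappa ∣ (r : ℤ) ^ eExp
  lead4_dvd : C4.leadingCoeff ∣ (r : ℤ) ^ eExp
  lead6_dvd : C6.leadingCoeff ∣ (r : ℤ) ^ eExp
  deg_lt : D0.natDegree < (C4 ^ 3).natDegree
  card_half : (halfSet r).card = (C4 ^ 3).natDegree
  half_pm : ∀ w : PrimVec r, ∃! u, u ∈ halfSet r ∧ (w.1 = u.1 ∨ w.1 = -u.1)
  curve : ∀ P A W D : ℂ, D ≠ 0 → W ≠ 0 → 12 * P * W = 4 * D * W + A ^ 2 →
    (r = 4 → A * D = W) → (r = 5 → A * D - W = D ^ 3) →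
    C4.eval₂ (Int.castRingHom ℂ) (-D ^ 3 / W) = 12 * (12 * P ^ 2 - 2 * A) * (D ^ 2 / W) ^ 2 ∧
      C6.eval₂ (Int.castRingHom ℂ) (-D ^ 3 / W) =
        216 * (4 * P ^ 3 - (12 * P ^ 2 - 2 * A) * P - W) * (D ^ 2 / W) ^ 3

theorem half_pm_four (w : PrimVec 4) :
    ∃! u, u ∈ halfSet 4 ∧ (w.1 = u.1 ∨ w.1 = -u.1) := by
  have h : ∀ w : PrimVec 4, ∃ u : PrimVec 4, (IsHalf u ∧ (w.1 = u.1 ∨ w.1 = -u.1)) ∧
      ∀ y : PrimVec 4, IsHalf y ∧ (w.1 = y.1 ∨ w.1 = -y.1) → y = u := by decide +kernel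
  obtain ⟨u, hu, hun⟩ := h w
  exact ⟨u, by simpa [halfSet] using hu, fun y hy => hun y (by simpa [halfSet] using hy)⟩

theorem half_pm_five (w : PrimVec 5) :
    ∃! u, u ∈ halfSet 5 ∧ (w.1 = u.1 ∨ w.1 = -u.1) := by
  have h : ∀ w : PrimVec 5, ∃ u : PrimVec 5, (IsHalf u ∧ (w.1 = u.1 ∨ w.1 = -u.1)) ∧
      ∀ y : PrimVec 5, IsHalf y ∧ (w.1 = y.1 ∨ w.1 = -y.1) → y = u := by decide +kernel
  obtain ⟨u, hu, hun⟩ := h w
  exact ⟨u, by simpa [halfSet] using hu, fun y hy => hun y (by simpa [halfSet] using hy)⟩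

/-- The curve with a point of order `4`. -/
def rDataFour : RData 4 where
  C4 := 16 * X ^ 2 + 16 * X + 1
  C6 := 64 * X ^ 3 - 120 * X ^ 2 - 24 * X - 1
  D0 := 16 * X ^ 5 + X ^ 4
  mExp := 3
  kappa := 4
  eExp := 3
  sq := by ring
  deriv_id := by
    simp only [derivative_add, derivative_mul, derivative_ofNat, derivative_X_pow, derivative_X,
      derivative_one, map_natCast, map_ofNat]
    ring
  X_dvd := ⟨16 * X ^ 4 + X ^ 3, by ring⟩
  bezout := ⟨64 * (267186176 * X ^ 4 - 37888 * X ^ 3 + 1488 * X ^ 2 - 48 * X + 1),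
    64 * (-68399661056 * X ^ 5 - 200914305024 * X ^ 4 - 205438058496 * X ^ 3
      - 81179869184 * X ^ 2 - 8540594176 * X - 266324480), by
    rw [show ((4 : ℕ) : ℤ) ^ 3 = 64 by norm_num, map_ofNat]
    ring⟩
  kappa_dvd := ⟨16, by norm_num⟩
  lead4_dvd := by
    have h : (16 * X ^ 2 + 16 * X + 1 : ℤ[X]).natDegree = 2 := by compute_degree!
    rw [leadingCoeff, h]
    exact ⟨4, by simp [coeff_one, coeff_X]⟩
  lead6_dvd := by
    have h : (64 * X ^ 3 - 120 * X ^ 2 - 24 * X - 1 : ℤ[X]).natDegree = 3 := by compute_degree!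
    rw [leadingCoeff, h]
    exact ⟨1, by simp [coeff_one, coeff_X]⟩
  deg_lt := by
    have h : (16 * X ^ 2 + 16 * X + 1 : ℤ[X]).natDegree = 2 := by compute_degree!
    have h' : (16 * X ^ 5 + X ^ 4 : ℤ[X]).natDegree = 5 := by compute_degree!
    rw [natDegree_pow, h, h']
    norm_num
  card_half := by
    have h : (16 * X ^ 2 + 16 * X + 1 : ℤ[X]).natDegree = 2 := by compute_degree!
    rw [natDegree_pow, h]
    decide +kernel
  half_pm := half_pm_four
  curve P A W D hD hW hP h4 _ := by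
    obtain rfl : A = W / D := by rw [eq_div_iff hD, h4 rfl]
    obtain rfl : P = (4 * D * W + (W / D) ^ 2) / (12 * W) := by
      rw [eq_div_iff (mul_ne_zero (by norm_num) hW)]
      linear_combination hP
    simp only [eval₂_add, eval₂_sub, eval₂_mul, eval₂_X_pow, eval₂_X, eval₂_one, eval₂_ofNat]
    constructor <;> (field_simp; ring)

/-- The curve with a point of order `5`. -/
def rDataFive : RData 5 where
  C4 := X ^ 4 - 12 * X ^ 3 + 14 * X ^ 2 + 12 * X + 1
  C6 := -X ^ 6 + 18 * X ^ 5 - 75 * X ^ 4 - 75 * X ^ 2 - 18 * X - 1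
  D0 := X ^ 7 - 11 * X ^ 6 - X ^ 5
  mExp := 4
  kappa := -5
  eExp := 3
  sq := by ring
  deriv_id := by
    simp only [derivative_add, derivative_sub, derivative_mul, derivative_ofNat,
      derivative_X_pow, derivative_X, derivative_one, map_natCast, map_ofNat, map_neg]
    ring
  X_dvd := ⟨X ^ 6 - 11 * X ^ 5 - X ^ 4, by ring⟩
  bezout := ⟨27844083739 * X ^ 6 - 308798423059 * X ^ 5 + 31250625 * X ^ 4 - 1903500 * X ^ 3
      + 102750 * X ^ 2 - 4500 * X + 125,
    -27844083739 * X ^ 11 + 1004900516534 * X ^ 10 - 13288808574900 * X ^ 9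
      + 76378611743900 * X ^ 8 - 167694286669025 * X ^ 7 + 41199696580054 * X ^ 6
      + 230283070795901 * X ^ 5 - 46850011572575 * X ^ 4 - 156571073125925 * X ^ 3
      - 61045073987325 * X ^ 2 - 7687072525736 * X - 308324105059, by
    rw [show ((5 : ℕ) : ℤ) ^ 3 = 125 by norm_num, map_ofNat]
    ring⟩
  kappa_dvd := ⟨-25, by norm_num⟩
  lead4_dvd := by
    have h : (X ^ 4 - 12 * X ^ 3 + 14 * X ^ 2 + 12 * X + 1 : ℤ[X]).natDegree = 4 := by
      compute_degree!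
    rw [leadingCoeff, h]
    exact ⟨125, by simp [coeff_one, coeff_X]⟩
  lead6_dvd := by
    have h : (-X ^ 6 + 18 * X ^ 5 - 75 * X ^ 4 - 75 * X ^ 2 - 18 * X - 1 : ℤ[X]).natDegree = 6 := by
      compute_degree!
    rw [leadingCoeff, h]
    exact ⟨-125, by simp [coeff_one, coeff_X]⟩
  deg_lt := by
    have h : (X ^ 4 - 12 * X ^ 3 + 14 * X ^ 2 + 12 * X + 1 : ℤ[X]).natDegree = 4 := by
      compute_degree!
    have h' : (X ^ 7 - 11 * X ^ 6 - X ^ 5 : ℤ[X]).natDegree = 7 := by compute_degree!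
    rw [natDegree_pow, h, h']
    norm_num
  card_half := by
    have h : (X ^ 4 - 12 * X ^ 3 + 14 * X ^ 2 + 12 * X + 1 : ℤ[X]).natDegree = 4 := by
      compute_degree!
    rw [natDegree_pow, h]
    decide +kernel
  half_pm := half_pm_five
  curve P A W D hD hW hP _ h5 := by
    obtain rfl : A = (W + D ^ 3) / D := by
      rw [eq_div_iff hD]
      linear_combination h5 rfl
    obtain rfl : P = (4 * D * W + ((W + D ^ 3) / D) ^ 2) / (12 * W) := by
      rw [eq_div_iff (mul_ne_zero (by norm_num) hW)]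
      linear_combination hP
    simp only [eval₂_add, eval₂_sub, eval₂_neg, eval₂_mul, eval₂_X_pow, eval₂_X, eval₂_one,
      eval₂_ofNat]
    constructor <;> (field_simp; ring)

end Fermat.Agent.DS.G1
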