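import Fermat.Agent.DS.G1.WPExp
import Fermat.Agent.MF.JExpansion
import Fermat.Prelude.Def_ModularCurve_X0ModL

/-!
# Integral series: `j`, and the invariants in the equation of `P - 1/12`
-/

set_option autoImplicit false

noncomputable section

open UpperHalfPlane HahnSeries
open scoped Manifold

namespace Fermat.Agent.DS.G1

open Fermat.Agent.Igusa ModularCurve

local notation "𝕢" => Function.Periodic.qParam
local notation "castC" => Int.castRingHom ℂ

variable {N : ℕ} [NeZero N]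

/-- Series with coefficients in `ℤ`. -/
def serZ : Subring (LaurentSeries ℂ) := (coeffMap castC).range

theorem serZ_le_serIn (S : Subring ℂ) : serZ ≤ serIn S := by
  rintro _ ⟨t, rfl⟩
  exact mem_serIn.mpr fun n => by simp

theorem coeffMap_eq_self_of_mem_serZ {s : LaurentSeries ℂ} (hs : s ∈ serZ) (σ : ℂ →+* ℂ) :
    coeffMap σ s = s := by
  obtain ⟨t, rfl⟩ := hs
  rw [coeffMap_coeffMap, RingHom.ext_int (σ.comp castC) castC]

theorem qExpand_mem_serZ {s : LaurentSeries ℂ} (hs : s ∈ serZ) (n : ℕ) [NeZero n] :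
    qExpand ℂ n s ∈ serZ := by
  obtain ⟨t, rfl⟩ := hs
  exact ⟨qExpand ℤ n t, coeffMap_qExpand _ n t⟩

theorem famExp_jFam_mem_serZ {M : ℕ} (v : PrimVec M) :
    famExp v (jFam M N) ∈ serZ := by
  rw [famExp_jFam]
  exact qExpand_mem_serZ ⟨jqModC ℤ, coeffMap_jqModC _⟩ N

/-- A function with an integral series in `exp (2πiτ)`, as a member of `expFun N`. -/
def intFun (N : ℕ) [NeZero N] (f : ℍ → ℂ) (p : PowerSeries ℤ) (h : HasPSum 1 f (p.map castC)) :
    expFun N :=
  ⟨f, mem_expFun_of_hasExp (mdiff_of_hasPSum h)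
    ((show HasExp 1 f (ofPowerSeries ℤ ℂ (p.map castC)) from ⟨0, p.map castC, by simp,
      by simpa using h⟩).comp (fun τ => τ) (1 : ℂˣ) N (h' := N) fun τ => by
        rw [Units.val_one, one_mul]
        simpa using qParam_level_up (a := 1) (NeZero.ne N) one_ne_zero (one_dvd N) τ)⟩

@[simp] theorem coe_intFun (f : ℍ → ℂ) (p : PowerSeries ℤ) (h : HasPSum 1 f (p.map castC)) :
    (intFun N f p h : ℍ → ℂ) = f := rfl

theorem expan_intFun_mem_serZ (f : ℍ → ℂ) (p : PowerSeries ℤ) (h : HasPSum 1 f (p.map castC)) :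
    expan N (intFun N f p h) ∈ serZ := by
  have h2 := (show HasExp 1 f (ofPowerSeries ℤ ℂ (p.map castC)) from ⟨0, p.map castC, by simp,
      by simpa using h⟩).comp (fun τ => τ) (1 : ℂˣ) N (h' := N) fun τ => by
        rw [Units.val_one, one_mul]
        simpa using qParam_level_up (a := 1) (NeZero.ne N) one_ne_zero (one_dvd N) τ
  rw [expan_eq (f := intFun N f p h) h2, qScale_one, RingHom.id_apply]
  exact qExpand_mem_serZ ⟨ofPowerSeries ℤ ℤ p, coeffMap_ofPowerSeries _ p⟩ N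

/-- `(1 - E₄)/12`, an integral series. -/
def h2Ser : PowerSeries ℤ := PowerSeries.mk fun n => -20 * ∑ d ∈ n.divisors, (d : ℤ) ^ 3

/-- `(1 - 3E₄ + 2E₆)/432`, an integral series. -/
def h3Ser : PowerSeries ℤ :=
  PowerSeries.mk fun n => -((∑ d ∈ n.divisors, (5 * (d : ℤ) ^ 3 + 7 * (d : ℤ) ^ 5)) / 3)

theorem three_dvd_sum_divisors (n : ℕ) :
    (3 : ℤ) ∣ ∑ d ∈ n.divisors, (5 * (d : ℤ) ^ 3 + 7 * (d : ℤ) ^ 5) := by
  refine Finset.dvd_sum fun d _ => ?_
  rw [show (3 : ℤ) = ((3 : ℕ) : ℤ) from rfl, ← ZMod.intCast_zmod_eq_zero_iff_dvd _ 3]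
  push_cast
  generalize (d : ZMod 3) = x
  revert x
  decide

theorem hasPSum_h2 :
    HasPSum 1 (fun τ => (1 - ModularForm.E₄ τ) / 12) (h2Ser.map castC) := fun τ => by
  have h4 := MF.hasSum_of_mem_qFunctions MF.mem_qFunctions_E4 τ
  rw [MF.qExpansion_E4] at h4
  have h1 : HasSum (fun n : ℕ => (if n = 0 then (1 : ℂ) else 0)) 1 := hasSum_ite_eq 0 1
  simpa only [Nat.cast_one] using ((h1.sub h4).div_const 12).congr_fun fun n => by
    simp only [h2Ser, ModularCurve.eisenstein4, PowerSeries.coeff_map, PowerSeries.coeff_mk,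
      eq_intCast]
    rcases eq_or_ne n 0 with rfl | hn
    · simp
    · simp only [hn, if_false]
      push_cast
      ring

theorem hasPSum_h3 :
    HasPSum 1 (fun τ => (1 - 3 * ModularForm.E₄ τ + 2 * ModularForm.E₆ τ) / 432)
      (h3Ser.map castC) := fun τ => by
  have h4 := MF.hasSum_of_mem_qFunctions MF.mem_qFunctions_E4 τ
  have h6 := MF.hasSum_of_mem_qFunctions MF.mem_qFunctions_E6 τ
  rw [MF.qExpansion_E4] at h4
  rw [MF.qExpansion_E6] at h6
  have h1 : HasSum (fun n : ℕ => (if n = 0 then (1 : ℂ) else 0)) 1 := hasSum_ite_eq 0 1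
  simpa only [Nat.cast_one] using
    (((h1.sub (h4.mul_left 3)).add (h6.mul_left 2)).div_const 432).congr_fun fun n => by
    simp only [h3Ser, ModularCurve.eisenstein4, MF.eisenstein6, PowerSeries.coeff_map,
      PowerSeries.coeff_mk, eq_intCast]
    rcases eq_or_ne n 0 with rfl | hn
    · norm_num
    · simp only [hn, if_false]
      obtain ⟨k, hk⟩ := three_dvd_sum_divisors n
      rw [hk, Int.mul_ediv_cancel_left k (by norm_num)]
      have hk' := congrArg (Int.cast : ℤ → ℂ) hk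
      rw [Finset.sum_add_distrib, ← Finset.mul_sum, ← Finset.mul_sum] at hk'
      push_cast at hk' ⊢
      linear_combination (𝕢 (1 : ℝ) τ ^ n / 3) * hk'

/-- `(1 - E₄)/12` as a member of `expFun N`. -/
def h2Fun (N : ℕ) [NeZero N] : expFun N := intFun N _ h2Ser hasPSum_h2

/-- `(1 - 3E₄ + 2E₆)/432` as a member of `expFun N`. -/
def h3Fun (N : ℕ) [NeZero N] : expFun N := intFun N _ h3Ser hasPSum_h3

end Fermat.Agent.DS.G1
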