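import Fermat.Agent.DS.G1.Fam
import Mathlib.Algebra.Polynomial.Derivative
import Mathlib.Algebra.Polynomial.AlgebraMap

/-!
# Auxiliary coordinates at level `r` and level `N`

`BaseSys r N` packages a Hauptmodul `b` of level `r` and a function `theta` of level `N` separating
the fibres over level `r`, with their integrality and Galois behaviour at all cusps.
-/

set_option autoImplicit false

noncomputable section

open UpperHalfPlane
open scoped Polynomial

namespace Fermat.Agent.DS.G1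

open ModularCurve

variable {M N : ℕ} [NeZero N]

/-- The primitive root of unity `exp (2πi/N)`. -/
def zetaN (N : ℕ) : ℂ := Complex.exp (2 * Real.pi * Complex.I / N)

/-- The ring generated by `1/N` and `exp (2πi/N)`. -/
def zetaRing (N : ℕ) : Subring ℂ := Subring.closure {zetaN N, (N : ℂ)⁻¹}

theorem zetaRing_le {S : Subring ℂ} (h1 : zetaN N ∈ S) (h2 : (N : ℂ)⁻¹ ∈ S) : zetaRing N ≤ S :=
  Subring.closure_le.mpr fun _ hx => by rcases hx with rfl | rfl <;> assumption

/-- `σ ζ = ζ ^ s`. -/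
def ActsBy (σ : ℂ →+* ℂ) (s : (ZMod N)ˣ) : Prop := σ (zetaN N) = zetaN N ^ (s : ZMod N).val

/-- `Y` is the conjugate of `X` by `σ`, where `σ ζ_M = ζ_M ^ s`. -/
def IsConj (σ : ℂ →+* ℂ) (s : (ZMod M)ˣ) (X Y : Fam M N) : Prop :=
  ∀ v : PrimVec M, famExp (twist s v) Y = coeffMap σ (famExp v X)

/-- The two series have difference invertible among series with coefficients in `S`. -/
def UnitDiff (S : Subring ℂ) (x y : LaurentSeries ℂ) : Prop :=
  ∃ u ∈ serIn S, (x - y) * u = 1

/-- Coordinates at an auxiliary level `r`. -/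
structure BaseSys (r N : ℕ) [NeZero N] where
  hr : r ∣ N
  three_le : 3 ≤ r
  /-- The coordinate at level `r`. -/
  b : Fam r N
  /-- The separating function. -/
  theta : Fam N N
  /-- `c₄` of the universal curve. -/
  C4 : ℤ[X]
  /-- `c₆` of the universal curve. -/
  C6 : ℤ[X]
  /-- The discriminant of the universal curve. -/
  D0 : ℤ[X]
  /-- The exponent in the derivative identity. -/
  mExp : ℕ
  /-- The constant in the derivative identity. -/
  kappa : ℤ
  /-- An exponent of `r`. -/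
  eExp : ℕ
  /-- Representatives modulo sign. -/
  half : Finset (PrimVec r)
  sq : C6 ^ 2 = C4 ^ 3 - 1728 * D0
  deriv_id : 3 * Polynomial.derivative C4 * D0 - C4 * Polynomial.derivative D0 =
    Polynomial.C kappa * Polynomial.X ^ mExp * C6
  X_dvd : Polynomial.X ∣ D0
  bezout : ∃ U V : ℤ[X], U * C4 ^ 3 + V * D0 = Polynomial.C ((r : ℤ) ^ eExp)
  kappa_dvd : kappa ∣ (r : ℤ) ^ eExp
  lead4_dvd : C4.leadingCoeff ∣ (r : ℤ) ^ eExp
  lead6_dvd : C6.leadingCoeff ∣ (r : ℤ) ^ eExp
  deg_lt : D0.natDegree < (C4 ^ 3).natDegree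
  roots : ∀ τ : ℍ,
    (C4 ^ 3).map (Int.castRingHom ℂ) - Polynomial.C (MF.kleinJ τ) * D0.map (Int.castRingHom ℂ) =
      Polynomial.C (((C4 ^ 3).leadingCoeff : ℤ) : ℂ) *
        ∏ w ∈ half, (Polynomial.X - Polynomial.C (b.1 w τ))
  half_pm : ∀ w : PrimVec r, ∃! u, u ∈ half ∧ (w.1 = u.1 ∨ w.1 = -u.1)
  b_mem : b ∈ intFam r N (zetaRing N)
  theta_mem : theta ∈ intFam N N (zetaRing N)
  b_conj : ∀ (σ : ℂ →+* ℂ) (s : (ZMod N)ˣ), ActsBy σ s →
    IsConj σ (Units.map (ZMod.castHom hr (ZMod r)).toMonoidHom s) b b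
  theta_conj : ∀ (σ : ℂ →+* ℂ) (s : (ZMod N)ˣ), ActsBy σ s → IsConj σ s theta theta
  theta_unitDiff : ∀ v v' : PrimVec N, v ≠ v' → primRed hr v = primRed hr v' →
    UnitDiff (zetaRing N) (famExp v theta) (famExp v' theta)
  theta_ne : ∀ v v' : PrimVec N, v ≠ v' → primRed hr v = primRed hr v' →
    ∀ τ, theta.1 v τ ≠ theta.1 v' τ

end Fermat.Agent.DS.G1
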