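import Fermat.Agent.DS.G1.BaseRoots
import Fermat.Agent.DS.G1.BaseSys

/-!
# Existence of the auxiliary coordinates for `r = 4, 5`
-/

set_option autoImplicit false
set_option linter.unusedSectionVars false

noncomputable section

open Polynomial

namespace Fermat.Agent.DS.G1

open ModularCurve

/-- An element with inverse in a subring, which is a root of a polynomial over the subring with
unit leading coefficient, lies in the subring. -/
theorem mem_of_root {A : Type*} [CommRing A] {T : Subring A} {P : T[X]} {n : ℕ} (hn : n ≠ 0)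
    (hdeg : P.natDegree ≤ n) {u : A} (hu : u ∈ T) (hlead : (P.coeff n : A) * u = 1) {β s : A}
    (hs : s ∈ T) (hβ : β * s = 1) (hP : P.eval₂ T.subtype β = 0) : β ∈ T := by
  obtain ⟨m, rfl⟩ : ∃ m, n = m + 1 := ⟨n - 1, (Nat.succ_pred_eq_of_ne_zero hn).symm⟩
  rw [eval₂_eq_sum_range' T.subtype (show P.natDegree < m + 1 + 1 by omega)] at hP
  have h := congrArg (fun x => x * s ^ m * u) hP
  simp only [Finset.sum_range_succ _ (m + 1), add_mul, Finset.sum_mul, zero_mul,
    Subring.subtype_apply] at h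
  have hlast : (P.coeff (m + 1) : A) * β ^ (m + 1) * s ^ m * u = β := by
    calc (P.coeff (m + 1) : A) * β ^ (m + 1) * s ^ m * u
        = ((P.coeff (m + 1) : A) * u) * β * (β * s) ^ m := by ring
      _ = β := by rw [hlead, hβ]; ring
  rw [hlast] at h
  rw [eq_neg_of_add_eq_zero_right h]
  refine neg_mem (sum_mem fun i hi => ?_)
  have hi' : i ≤ m := by simpa [Finset.mem_range, Nat.lt_succ_iff] using hi
  have e : (P.coeff i : A) * β ^ i * s ^ m = P.coeff i * s ^ (m - i) := by
    calc (P.coeff i : A) * β ^ i * s ^ m = P.coeff i * β ^ i * s ^ (i + (m - i)) := by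
          rw [Nat.add_sub_cancel' hi']
      _ = P.coeff i * (β * s) ^ i * s ^ (m - i) := by ring
      _ = _ := by rw [hβ, one_pow, mul_one]
  rw [e]
  exact mul_mem (mul_mem (SetLike.coe_mem _) (pow_mem hs _)) hu

variable {r N : ℕ} [NeZero r] [NeZero N] (R : RData r) (h : r ∣ N) (hr : r = 4 ∨ r = 5)

include h in
theorem inv_level_mem : (r : ℂ)⁻¹ ∈ zetaRing N := by
  have : (r : ℂ)⁻¹ = ((N / r : ℕ) : ℂ) * (N : ℂ)⁻¹ := by
    refine inv_eq_of_mul_eq_one_right ?_
    rw [← mul_assoc, ← Nat.cast_mul, Nat.mul_div_cancel' h,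
      mul_inv_cancel₀ (Nat.cast_ne_zero.mpr (NeZero.ne N))]
  rw [this]
  exact mul_mem (natCast_mem _ _) inv_natCast_mem

include h in
theorem exists_inv_lead :
    ∃ c ∈ zetaRing N, (((R.C4 ^ 3).leadingCoeff : ℤ) : ℂ) * c = 1 := by
  obtain ⟨d, hd⟩ := R.lead4_dvd
  refine ⟨((d : ℂ) * ((r : ℂ)⁻¹) ^ R.eExp) ^ 3,
    pow_mem (mul_mem (intCast_mem _ d) (pow_mem (inv_level_mem h) _)) 3, ?_⟩
  have hd' : (R.C4.leadingCoeff : ℂ) * d = (r : ℂ) ^ R.eExp := by exact_mod_cast hd.symm
  rw [leadingCoeff_pow, Int.cast_pow, ← mul_pow, ← mul_assoc, hd', ← mul_pow,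
    mul_inv_cancel₀ (Nat.cast_ne_zero.mpr (NeZero.ne r)), one_pow, one_pow]

include R in
theorem bFam_mem : bFam h (four_le_of_or hr) ∈ intFam r N (zetaRing N) := by
  rw [mem_intFam]
  intro w
  set T := serIn (zetaRing N)
  obtain ⟨s, hs, hβ⟩ := exists_inv_bFam h (four_le_of_or hr) w
  have hjT : famExp w (jFam r N) ∈ T := serZ_le_serIn _ (famExp_jFam_mem_serZ w)
  obtain ⟨c, hc, hLc⟩ := exists_inv_lead R h
  let P : T[X] := (R.C4 ^ 3).map (Int.castRingHom T) -
    C ⟨_, hjT⟩ * R.D0.map (Int.castRingHom T)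
  have hdeg : P.natDegree ≤ (R.C4 ^ 3).natDegree :=
    (natDegree_sub_le _ _).trans (max_le natDegree_map_le ((natDegree_C_mul_le _ _).trans
      (natDegree_map_le.trans R.deg_lt.le)))
  refine mem_serIn.mp (mem_of_root (P := P) (n := (R.C4 ^ 3).natDegree)
    (by have := R.deg_lt; omega) hdeg (u := HahnSeries.C c) ?_ ?_ hs hβ ?_)
  · exact mem_serIn.mpr fun n => by
      rw [HahnSeries.C_apply, HahnSeries.coeff_single]
      split_ifs
      exacts [hc, zero_mem _]
  · rw [coeff_sub, coeff_C_mul, coeff_map, coeff_map,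
      coeff_eq_zero_of_natDegree_lt R.deg_lt, map_zero, mul_zero, sub_zero, eq_intCast,
      Subring.coe_intCast, ← map_intCast (HahnSeries.C : ℂ →+* LaurentSeries ℂ), ← map_mul,
      coeff_natDegree, hLc, map_one]
  · rw [eval₂_sub, eval₂_mul, eval₂_C, eval₂_map, eval₂_map]
    have hf : T.subtype.comp (Int.castRingHom T) =
        (expan N).comp (Int.castRingHom (expFun N)) := RingHom.ext_int _ _
    rw [hf]
    show eval₂ _ (expan N (famAt w (bFam h (four_le_of_or hr)))) _ -
      expan N (famAt w (jFam r N)) *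
        eval₂ _ (expan N (famAt w (bFam h (four_le_of_or hr)))) _ = 0
    rw [← hom_eval₂, ← hom_eval₂, ← map_mul, ← map_sub]
    convert map_zero (expan N)
    refine Subtype.ext (funext fun τ => ?_)
    rw [← expEval_apply τ, ← expEval_apply τ, map_zero]
    rw [map_sub, map_mul, hom_eval₂, hom_eval₂,
      RingHom.ext_int ((expEval N τ).comp (Int.castRingHom _)) (Int.castRingHom ℂ)]
    exact eval_bFam_eq_zero R h hr w τ

/-- The coordinates attached to the data of a universal curve. -/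
def baseSysOfData : BaseSys r N where
  hr := h
  three_le := by omega
  b := bFam h (four_le_of_or hr)
  theta := thetaFam h (four_le_of_or hr)
  C4 := R.C4
  C6 := R.C6
  D0 := R.D0
  mExp := R.mExp
  kappa := R.kappa
  eExp := R.eExp
  half := halfSet r
  sq := R.sq
  deriv_id := R.deriv_id
  X_dvd := R.X_dvd
  bezout := R.bezout
  kappa_dvd := R.kappa_dvd
  lead4_dvd := R.lead4_dvd
  lead6_dvd := R.lead6_dvd
  deg_lt := R.deg_lt
  roots := bFam_roots R h hr
  half_pm := R.half_pm
  b_mem := bFam_mem R h hr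
  theta_mem := thetaFam_mem h (four_le_of_or hr)
  b_conj := bFam_conj h (four_le_of_or hr)
  theta_conj := thetaFam_conj h (four_le_of_or hr)
  theta_unitDiff := thetaFam_unitDiff h (four_le_of_or hr)
  theta_ne := thetaFam_ne h (four_le_of_or hr)

/-- Coordinates exist for `r ∈ {4, 5}` dividing `N`. -/
theorem exists_baseSys {r N : ℕ} [NeZero N] (hr : r = 4 ∨ r = 5) (h : r ∣ N) :
    Nonempty (BaseSys r N) := by
  rcases hr with rfl | rfl
  · exact ⟨baseSysOfData rDataFour h (.inl rfl)⟩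
  · exact ⟨baseSysOfData rDataFive h (.inr rfl)⟩

end Fermat.Agent.DS.G1
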