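import Fermat.Agent.MF.Cosets.Index
import Mathlib.NumberTheory.ModularForms.CongruenceSubgroups

/-!
# Primitive vectors modulo `M` with the right action of `SL(2, ℤ)`
-/

set_option autoImplicit false

noncomputable section

namespace Fermat.Agent.DS.G1

open CongruenceSubgroup Matrix
open scoped MatrixGroups

variable {M N : ℕ}

/-- `v` generates the unit ideal. -/
def IsPrim (v : Fin 2 → ZMod M) : Prop := IsCoprime (v 0) (v 1)

/-- Primitive row vectors modulo `M`; they index the translates of a function on `Γ₁(M)`. -/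
abbrev PrimVec (M : ℕ) : Type := {v : Fin 2 → ZMod M // IsPrim v}

instance [NeZero M] : Finite (PrimVec M) := Subtype.finite

/-- Reduction of an integral matrix. -/
abbrev redSL (M : ℕ) (γ : SL(2, ℤ)) : SL(2, ZMod M) :=
  SpecialLinearGroup.map (Int.castRingHom (ZMod M)) γ

theorem isPrim_vecMul {v : Fin 2 → ZMod M} (hv : IsPrim v) (g : SL(2, ZMod M)) :
    IsPrim (v ᵥ* (g : Matrix (Fin 2) (Fin 2) (ZMod M))) := by
  obtain ⟨x, y, hxy⟩ := hv
  have hd : g 0 0 * g 1 1 - g 0 1 * g 1 0 = 1 := by rw [← det_fin_two]; exact g.det_coe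
  refine ⟨x * g 1 1 - y * g 0 1, y * g 0 0 - x * g 1 0, ?_⟩
  simp only [vecMul, dotProduct, Fin.sum_univ_two]
  linear_combination (g 0 0 * g 1 1 - g 0 1 * g 1 0) * hxy + hd

/-- `v ↦ v γ`. -/
def rowMul (v : PrimVec M) (γ : SL(2, ℤ)) : PrimVec M :=
  ⟨v.1 ᵥ* (redSL M γ : Matrix (Fin 2) (Fin 2) (ZMod M)), isPrim_vecMul v.2 _⟩

theorem rowMul_apply (v : PrimVec M) (γ : SL(2, ℤ)) (i : Fin 2) :
    (rowMul v γ).1 i = v.1 0 * ((γ 0 i : ℤ) : ZMod M) + v.1 1 * ((γ 1 i : ℤ) : ZMod M) := by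
  simp [rowMul, vecMul, dotProduct, Fin.sum_univ_two]

@[simp] theorem rowMul_one (v : PrimVec M) : rowMul v 1 = v := by
  ext i
  fin_cases i <;> simp [rowMul_apply]

theorem rowMul_mul (v : PrimVec M) (γ δ : SL(2, ℤ)) :
    rowMul v (γ * δ) = rowMul (rowMul v γ) δ :=
  Subtype.ext (by simp [rowMul, vecMul_vecMul, map_mul])

theorem rowMul_injective (γ : SL(2, ℤ)) :
    Function.Injective fun v : PrimVec M => rowMul v γ := fun v w h => by
  simpa [← rowMul_mul] using congrArg (fun x => rowMul x γ⁻¹) h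

theorem rowMul_bijective (γ : SL(2, ℤ)) :
    Function.Bijective fun v : PrimVec M => rowMul v γ :=
  ⟨rowMul_injective γ, fun v => ⟨rowMul v γ⁻¹, by simp [← rowMul_mul]⟩⟩

theorem rowMul_T_zpow (v : PrimVec M) (n : ℤ) :
    (rowMul v (ModularGroup.T ^ n)).1 = ![v.1 0, v.1 1 + (n : ZMod M) * v.1 0] := by
  funext i
  fin_cases i <;> simp [rowMul_apply, ModularGroup.coe_T_zpow] <;> ring

theorem rowMul_neg (v : PrimVec M) (γ : SL(2, ℤ)) :
    (rowMul v (-γ)).1 = -(rowMul v γ).1 := by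
  funext i
  simp [rowMul_apply]
  ring

/-- The vector `(0, 1)`; its stabiliser is `Γ₁(M)`. -/
def base (M : ℕ) : PrimVec M := ⟨![0, 1], 0, 1, by simp⟩

theorem exists_rowMul_base [NeZero M] (v : PrimVec M) : ∃ γ : SL(2, ℤ), rowMul (base M) γ = v := by
  obtain ⟨g, hg⟩ := Fermat.Agent.MF.Cosets.exists_colMod_eq M v.2
  let h : SL(2, ℤ) := ⟨!![-g 0 1, -g 1 1; g 0 0, g 1 0], by
    rw [det_fin_two_of]
    linarith [Fermat.Agent.MF.Cosets.det_entries g]⟩
  refine ⟨h, ?_⟩
  ext i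
  rw [rowMul_apply, ← hg]
  fin_cases i <;> simp [base, h, Fermat.Agent.MF.Cosets.colMod]

theorem exists_rowMul_eq [NeZero M] (v w : PrimVec M) : ∃ γ : SL(2, ℤ), rowMul v γ = w := by
  obtain ⟨g, rfl⟩ := exists_rowMul_base v
  obtain ⟨h, rfl⟩ := exists_rowMul_base w
  exact ⟨g⁻¹ * h, by simp [← rowMul_mul]⟩

theorem rowMul_base_eq_iff (γ : SL(2, ℤ)) : rowMul (base M) γ = base M ↔ γ ∈ Gamma1 M := by
  rw [Gamma1_mem, Subtype.ext_iff, funext_iff, Fin.forall_fin_two]
  simp only [rowMul_apply, base]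
  simp only [Matrix.cons_val_zero, Matrix.cons_val_one, zero_mul, zero_add, one_mul]
  constructor
  · rintro ⟨h0, h1⟩
    refine ⟨?_, h1, h0⟩
    have := congrArg (Int.cast : ℤ → ZMod M) (Fermat.Agent.MF.Cosets.det_entries γ)
    push_cast at this
    rw [h0, h1] at this
    simpa using this
  · exact fun h => ⟨h.2.2, h.2.1⟩

/-- Multiplication by a unit. -/
def scal (u : (ZMod M)ˣ) (v : PrimVec M) : PrimVec M :=
  ⟨fun i => (u : ZMod M) * v.1 i, by
    obtain ⟨x, y, hxy⟩ := v.2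
    exact ⟨x * (↑u⁻¹ : ZMod M), y * (↑u⁻¹ : ZMod M), by
      linear_combination (x * v.1 0 + y * v.1 1) * u.inv_mul + hxy⟩⟩

@[simp] theorem scal_apply (u : (ZMod M)ˣ) (v : PrimVec M) (i : Fin 2) :
    (scal u v).1 i = (u : ZMod M) * v.1 i := rfl

theorem scal_one (v : PrimVec M) : scal 1 v = v := by ext i; simp

theorem scal_mul (u w : (ZMod M)ˣ) (v : PrimVec M) : scal (u * w) v = scal u (scal w v) := by
  ext i; simp [mul_assoc]

theorem rowMul_scal (u : (ZMod M)ˣ) (v : PrimVec M) (γ : SL(2, ℤ)) :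
    rowMul (scal u v) γ = scal u (rowMul v γ) := by
  ext i; simp [rowMul_apply]; ring

/-- Multiplication of the second coordinate by a unit; `σ ζ = ζ ^ s` moves `v` by this. -/
def twist (s : (ZMod M)ˣ) (v : PrimVec M) : PrimVec M :=
  ⟨![v.1 0, (s : ZMod M) * v.1 1], by
    obtain ⟨x, y, hxy⟩ := v.2
    exact ⟨x, y * (↑s⁻¹ : ZMod M), by
      simp only [Matrix.cons_val_zero, Matrix.cons_val_one]
      linear_combination (y * v.1 1) * s.inv_mul + hxy⟩⟩

@[simp] theorem twist_fst (s : (ZMod M)ˣ) (v : PrimVec M) : (twist s v).1 0 = v.1 0 := rfl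

@[simp] theorem twist_snd (s : (ZMod M)ˣ) (v : PrimVec M) :
    (twist s v).1 1 = (s : ZMod M) * v.1 1 := rfl

theorem twist_one (v : PrimVec M) : twist 1 v = v := by
  ext i; fin_cases i <;> simp

theorem twist_mul (s t : (ZMod M)ˣ) (v : PrimVec M) : twist (s * t) v = twist s (twist t v) := by
  ext i; fin_cases i <;> simp [mul_assoc]

theorem twist_scal (s u : (ZMod M)ˣ) (v : PrimVec M) : twist s (scal u v) = scal u (twist s v) := by
  ext i; fin_cases i <;> simp [mul_left_comm]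

/-- Reduction along `M ∣ N`. -/
def primRed (h : M ∣ N) (v : PrimVec N) : PrimVec M :=
  ⟨fun i => ZMod.castHom h (ZMod M) (v.1 i), v.2.map (ZMod.castHom h (ZMod M))⟩

theorem primRed_apply (h : M ∣ N) (v : PrimVec N) (i : Fin 2) :
    (primRed h v).1 i = ZMod.castHom h (ZMod M) (v.1 i) := rfl

theorem primRed_rowMul (h : M ∣ N) (v : PrimVec N) (γ : SL(2, ℤ)) :
    primRed h (rowMul v γ) = rowMul (primRed h v) γ := by
  ext i
  simp only [rowMul_apply, primRed_apply, map_add, map_mul, map_intCast]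

theorem primRed_base (h : M ∣ N) : primRed h (base N) = base M := by
  ext i; fin_cases i <;> simp [primRed_apply, base, -ZMod.castHom_apply]

theorem primRed_surjective [NeZero M] (h : M ∣ N) :
    Function.Surjective (primRed (M := M) (N := N) h) := fun w => by
  obtain ⟨γ, hγ⟩ := exists_rowMul_base w
  exact ⟨rowMul (base N) γ, by rw [primRed_rowMul, primRed_base, hγ]⟩

theorem primRed_scal (h : M ∣ N) (u : (ZMod N)ˣ) (v : PrimVec N) :
    primRed h (scal u v) = scal (Units.map (ZMod.castHom h (ZMod M)).toMonoidHom u) (primRed h v) := by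
  ext i
  simp only [primRed_apply, scal_apply, map_mul]
  rfl

theorem primRed_twist (h : M ∣ N) (u : (ZMod N)ˣ) (v : PrimVec N) :
    primRed h (twist u v) =
      twist (Units.map (ZMod.castHom h (ZMod M)).toMonoidHom u) (primRed h v) := by
  ext i; fin_cases i <;> simp [primRed_apply, -ZMod.castHom_apply]

end Fermat.Agent.DS.G1
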