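import Fermat.Agent.DS.G1.Expansion
import Fermat.Agent.DS.G1.PrimVec

/-!
# Equivariant families of functions indexed by primitive vectors

A family `X : PrimVec M → ℍ → ℂ` with `X (v γ) = X v ∘ (γ • ·)` is the same as a function on
`Γ₁(M) \ ℍ` together with its expansions at all cusps.
-/

set_option autoImplicit false

noncomputable section

open UpperHalfPlane Function
open scoped MatrixGroups Manifold Polynomial

namespace Fermat.Agent.DS.G1

open Fermat.Agent.Igusa ModularCurve

local notation "𝕢" => Periodic.qParam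

/-- Series with all coefficients in `S`. -/
def serIn (S : Subring ℂ) : Subring (LaurentSeries ℂ) := (coeffMap S.subtype).range

theorem mem_serIn {S : Subring ℂ} {s : LaurentSeries ℂ} :
    s ∈ serIn S ↔ ∀ n, s.coeff n ∈ S := by
  constructor
  · rintro ⟨t, rfl⟩ n
    simp
  · intro h
    refine ⟨⟨fun n => ⟨s.coeff n, h n⟩, ?_⟩, ?_⟩
    · refine s.isPWO_support.mono fun n hn => ?_
      simpa [Subtype.ext_iff] using hn
    · ext n
      simp

theorem serIn_mono {S S' : Subring ℂ} (h : S ≤ S') : serIn S ≤ serIn S' :=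
  fun _ hs => mem_serIn.mpr fun n => h (mem_serIn.mp hs n)

theorem serIn_top : serIn (⊤ : Subring ℂ) = ⊤ :=
  eq_top_iff.mpr fun _ _ => mem_serIn.mpr fun _ => Subring.mem_top _

section

variable (M N : ℕ) [NeZero N]

/-- Equivariant families with values in `expFun N`. -/
def Fam : Subring (PrimVec M → ℍ → ℂ) where
  carrier := {X | (∀ v, X v ∈ expFun N) ∧ ∀ v γ τ, X (rowMul v γ) τ = X v (γ • τ)}
  zero_mem' := ⟨fun _ => zero_mem _, fun _ _ _ => rfl⟩
  one_mem' := ⟨fun _ => one_mem _, fun _ _ _ => rfl⟩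
  add_mem' hX hY := ⟨fun v => add_mem (hX.1 v) (hY.1 v),
    fun v γ τ => by simp [hX.2 v γ τ, hY.2 v γ τ]⟩
  mul_mem' hX hY := ⟨fun v => mul_mem (hX.1 v) (hY.1 v),
    fun v γ τ => by simp [hX.2 v γ τ, hY.2 v γ τ]⟩
  neg_mem' hX := ⟨fun v => neg_mem (hX.1 v), fun v γ τ => by simp [hX.2 v γ τ]⟩

variable {M N}

/-- The member of `expFun N` at `v`. -/
def famAt (v : PrimVec M) : Fam M N →+* expFun N where
  toFun X := ⟨X.1 v, X.2.1 v⟩
  map_zero' := rfl
  map_one' := rfl
  map_add' _ _ := rfl
  map_mul' _ _ := rfl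

@[simp] theorem coe_famAt (v : PrimVec M) (X : Fam M N) : (famAt v X : ℍ → ℂ) = X.1 v := rfl

theorem fam_rowMul (X : Fam M N) (v : PrimVec M) (γ : SL(2, ℤ)) (τ : ℍ) :
    X.1 (rowMul v γ) τ = X.1 v (γ • τ) :=
  X.2.2 v γ τ

/-- Evaluation at a vector and a point. -/
def famEval (v : PrimVec M) (τ : ℍ) : Fam M N →+* ℂ where
  toFun X := X.1 v τ
  map_zero' := rfl
  map_one' := rfl
  map_add' _ _ := rfl
  map_mul' _ _ := rfl

@[simp] theorem famEval_apply (v : PrimVec M) (τ : ℍ) (X : Fam M N) :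
    famEval v τ X = X.1 v τ := rfl

/-- The expansion at `v`, in `exp (2πiτ/N)`. -/
def famExp (v : PrimVec M) : Fam M N →+* LaurentSeries ℂ := (expan N).comp (famAt v)

theorem hasExp_famExp (X : Fam M N) (v : PrimVec M) : HasExp N (X.1 v) (famExp v X) :=
  hasExp_expan (famAt v X)

theorem famExp_eq {X : Fam M N} {v : PrimVec M} {s : LaurentSeries ℂ} (h : HasExp N (X.1 v) s) :
    famExp v X = s :=
  expan_eq (f := famAt v X) h

/-- The value at one vector determines the family. -/
theorem famAt_injective [NeZero M] (v : PrimVec M) : Injective (famAt (N := N) v) := by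
  rw [injective_iff_map_eq_zero]
  intro X hX
  refine Subtype.ext (funext fun w => funext fun τ => ?_)
  obtain ⟨γ, rfl⟩ := exists_rowMul_eq v w
  rw [fam_rowMul, ← coe_famAt v X, hX]
  rfl

theorem famExp_injective [NeZero M] (v : PrimVec M) : Injective (famExp (N := N) v) := by
  rw [famExp, RingHom.coe_comp]
  exact expan_injective.comp (famAt_injective v)

instance [NeZero M] : IsDomain (Fam M N) := (famExp_injective (base M)).isDomain (famExp (base M))

theorem fam_ext_exp {X Y : Fam M N} (h : ∀ v, famExp v X = famExp v Y) : X = Y :=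
  Subtype.ext (funext fun v => congrArg Subtype.val (expan_injective (h v) : famAt v X = famAt v Y))

theorem fam_ne_zero_exp [NeZero M] {X : Fam M N} (hX : X ≠ 0) (v : PrimVec M) : famExp v X ≠ 0 :=
  fun h => hX (famExp_injective v (h.trans (map_zero _).symm))

variable (M N) in
/-- Constant families. -/
def famConst : ℂ →+* Fam M N where
  toFun c := ⟨fun _ _ => c, fun _ => const_mem_expFun c, fun _ _ _ => rfl⟩
  map_zero' := rfl
  map_one' := rfl
  map_add' _ _ := rfl
  map_mul' _ _ := rfl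

@[simp] theorem famConst_apply (c : ℂ) (v : PrimVec M) (τ : ℍ) : (famConst M N c).1 v τ = c := rfl

theorem famExp_famConst (c : ℂ) (v : PrimVec M) :
    famExp v (famConst M N c) = HahnSeries.C c :=
  famExp_eq (hasExp_const c)

theorem qParam_level_up {a b : ℕ} (hb : b ≠ 0) (ha : a ≠ 0) (h : a ∣ b) (τ : ℍ) :
    𝕢 (a : ℝ) τ = 𝕢 (b : ℝ) τ ^ (b / a) := by
  obtain ⟨r, rfl⟩ := h
  rw [Nat.mul_div_cancel_left r (Nat.pos_of_ne_zero ha), Periodic.qParam, Periodic.qParam,
    ← Complex.exp_nat_mul]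
  have hr : (r : ℂ) ≠ 0 := Nat.cast_ne_zero.mpr (right_ne_zero_of_mul hb)
  have ha' : (a : ℂ) ≠ 0 := Nat.cast_ne_zero.mpr ha
  congr 1
  push_cast
  field_simp

theorem hasExp_jFun_level :
    HasExp N MF.kleinJ (qExpand ℂ N (jqModC ℂ)) := by
  have h := hasExp_jFun.comp (fun τ => τ) (1 : ℂˣ) N (h' := N) fun τ => by
    rw [Units.val_one, one_mul]
    simpa using qParam_level_up (a := 1) (NeZero.ne N) one_ne_zero (one_dvd N) τ
  simpa [qScale_one] using! h

variable (M N) in
/-- The function `j` as a family. -/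
def jFam : Fam M N :=
  ⟨fun _ => MF.kleinJ,
    fun _ => mem_expFun_of_hasExp MF.kleinJ_mdifferentiable hasExp_jFun_level,
    fun _ γ τ => (MF.kleinJ_smul γ τ).symm⟩

@[simp] theorem jFam_apply (v : PrimVec M) (τ : ℍ) : (jFam M N).1 v τ = MF.kleinJ τ := rfl

theorem famExp_jFam (v : PrimVec M) :
    famExp v (jFam M N) = qExpand ℂ N (jqModC ℂ) :=
  famExp_eq hasExp_jFun_level

variable (M N) in
/-- Families whose expansions all have coefficients in `S`. -/
def intFam (S : Subring ℂ) : Subring (Fam M N) :=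
  ⨅ v : PrimVec M, (serIn S).comap (famExp v)

theorem mem_intFam {S : Subring ℂ} {X : Fam M N} :
    X ∈ intFam M N S ↔ ∀ v n, (famExp v X).coeff n ∈ S := by
  simp [intFam, Subring.mem_iInf, mem_serIn]

theorem intFam_top : intFam M N (⊤ : Subring ℂ) = ⊤ :=
  eq_top_iff.mpr fun _ _ => mem_intFam.mpr fun _ _ => Subring.mem_top _

theorem intFam_mono {S S' : Subring ℂ} (h : S ≤ S') : intFam M N S ≤ intFam M N S' :=
  fun _ hX => mem_intFam.mpr fun v n => h (mem_intFam.mp hX v n)

/-- Pull back along `M ∣ M'`. -/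
def famPull {M' : ℕ} (h : M ∣ M') : Fam M N →+* Fam M' N where
  toFun X := ⟨fun v => X.1 (primRed h v), fun _ => X.2.1 _,
    fun v γ τ => by dsimp only; rw [primRed_rowMul, fam_rowMul]⟩
  map_zero' := rfl
  map_one' := rfl
  map_add' _ _ := rfl
  map_mul' _ _ := rfl

@[simp] theorem famPull_apply {M' : ℕ} (h : M ∣ M') (X : Fam M N) (v : PrimVec M') :
    (famPull h X).1 v = X.1 (primRed h v) := rfl

theorem famExp_famPull {M' : ℕ} (h : M ∣ M') (X : Fam M N) (v : PrimVec M') :
    famExp v (famPull h X) = famExp (primRed h v) X :=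
  rfl

theorem mem_expFun_level_up {N' : ℕ} [NeZero N'] (h : N ∣ N') {f : ℍ → ℂ}
    (hf : f ∈ expFun N) {s : LaurentSeries ℂ} (hs : HasExp N f s) :
    ∃ hr : N' / N ≠ 0,
      HasExp N' f (@qExpand ℂ _ (N' / N) ⟨hr⟩ s) ∧ f ∈ expFun N' := by
  have hr : N' / N ≠ 0 :=
    (Nat.div_pos (Nat.le_of_dvd (NeZero.pos N') h) (NeZero.pos N)).ne'
  haveI : NeZero (N' / N) := ⟨hr⟩
  have h2 := hs.comp (fun τ => τ) (1 : ℂˣ) (N' / N) (h' := N') fun τ => by
    rw [Units.val_one, one_mul]
    exact qParam_level_up (NeZero.ne N') (NeZero.ne N) h τ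
  rw [qScale_one, RingHom.id_apply] at h2
  exact ⟨hr, h2, mem_expFun_of_hasExp hf.1 h2⟩

/-- Change of the period. -/
def famUp {N' : ℕ} [NeZero N'] (h : N ∣ N') : Fam M N →+* Fam M N' where
  toFun X := ⟨X.1,
    fun v => (mem_expFun_level_up h (X.2.1 v) (hasExp_famExp X v)).choose_spec.2, X.2.2⟩
  map_zero' := rfl
  map_one' := rfl
  map_add' _ _ := rfl
  map_mul' _ _ := rfl

@[simp] theorem coe_famUp {N' : ℕ} [NeZero N'] (h : N ∣ N') (X : Fam M N) :
    (famUp h X).1 = X.1 := rfl

theorem famExp_famUp {N' : ℕ} [NeZero N'] [NeZero (N' / N)] (h : N ∣ N') (X : Fam M N)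
    (v : PrimVec M) :
    famExp v (famUp h X) = qExpand ℂ (N' / N) (famExp v X) :=
  famExp_eq (mem_expFun_level_up h (X.2.1 v) (hasExp_famExp X v)).choose_spec.1

/-- The diamond action `X ↦ X ∘ scal u`. -/
def famScal (u : (ZMod M)ˣ) : Fam M N →+* Fam M N where
  toFun X := ⟨fun v => X.1 (scal u v), fun _ => X.2.1 _,
    fun v γ τ => by dsimp only; rw [← rowMul_scal, fam_rowMul]⟩
  map_zero' := rfl
  map_one' := rfl
  map_add' _ _ := rfl
  map_mul' _ _ := rfl

theorem famExp_famScal (u : (ZMod M)ˣ) (X : Fam M N) (v : PrimVec M) :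
    famExp v (famScal u X) = famExp (scal u v) X :=
  rfl

/-- The inverse of a nowhere vanishing family. -/
def famInv (X : Fam M N) (h : ∀ v τ, X.1 v τ ≠ 0) : Fam M N :=
  ⟨fun v τ => (X.1 v τ)⁻¹, fun v => inv_mem_expFun (famAt v X) (h v),
    fun v γ τ => by simp only [fam_rowMul]⟩

theorem mul_famInv (X : Fam M N) (h : ∀ v τ, X.1 v τ ≠ 0) : X * famInv X h = 1 :=
  Subtype.ext (funext fun v => funext fun τ => mul_inv_cancel₀ (h v τ))

end

section Fibre

variable {r M N : ℕ} [NeZero M] [NeZero N] (h : r ∣ M)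

/-- The vectors above `w`. -/
def primFibre (w : PrimVec r) : Finset (PrimVec M) :=
  haveI := Fintype.ofFinite (PrimVec M)
  letI := Classical.decEq (PrimVec r)
  Finset.univ.filter fun v => primRed h v = w

variable {h}

theorem mem_primFibre {w : PrimVec r} {v : PrimVec M} : v ∈ primFibre h w ↔ primRed h v = w := by
  simp [primFibre]

theorem primFibre_nonempty [NeZero r] (w : PrimVec r) : (primFibre h w).Nonempty := by
  obtain ⟨v, hv⟩ := primRed_surjective h w
  exact ⟨v, mem_primFibre.mpr hv⟩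

theorem primFibre_rowMul [DecidableEq (PrimVec M)] (w : PrimVec r) (γ : SL(2, ℤ)) :
    (primFibre h w).image (fun v => rowMul v γ) = primFibre h (rowMul w γ) := by
  ext v
  simp only [Finset.mem_image, mem_primFibre]
  constructor
  · rintro ⟨u, rfl, rfl⟩
    rw [primRed_rowMul]
  · intro hv
    refine ⟨rowMul v γ⁻¹, ?_, by simp [← rowMul_mul]⟩
    rw [primRed_rowMul, hv, ← rowMul_mul, mul_inv_cancel, rowMul_one]

theorem prod_primFibre_rowMul {β : Type*} [CommMonoid β] (w : PrimVec r) (γ : SL(2, ℤ))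
    (f : PrimVec M → β) :
    ∏ v ∈ primFibre h (rowMul w γ), f v = ∏ v ∈ primFibre h w, f (rowMul v γ) := by
  classical
  rw [← primFibre_rowMul, Finset.prod_image fun _ _ _ _ e => rowMul_injective γ e]

theorem sum_primFibre_rowMul {β : Type*} [AddCommMonoid β] (w : PrimVec r) (γ : SL(2, ℤ))
    (f : PrimVec M → β) :
    ∑ v ∈ primFibre h (rowMul w γ), f v = ∑ v ∈ primFibre h w, f (rowMul v γ) := by
  classical
  rw [← primFibre_rowMul, Finset.sum_image fun _ _ _ _ e => rowMul_injective γ e]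

theorem card_primFibre [NeZero r] (w : PrimVec r) :
    (primFibre h w).card = (primFibre h (base r)).card := by
  classical
  obtain ⟨γ, rfl⟩ := exists_rowMul_base w
  rw [← primFibre_rowMul, Finset.card_image_of_injective _ (rowMul_injective γ)]

variable (h)

/-- The sum over the fibres. -/
def famTrace : Fam M N →+ Fam r N where
  toFun X := ⟨fun w => ∑ v ∈ primFibre h w, X.1 v, fun _ => sum_mem fun v _ => X.2.1 v,
    fun w γ τ => by simp [sum_primFibre_rowMul, fam_rowMul]⟩
  map_zero' := Subtype.ext (by funext w; simp)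
  map_add' X Y := Subtype.ext (by funext w; simp [Finset.sum_add_distrib])

/-- The product over the fibres. -/
def famNorm : Fam M N →* Fam r N where
  toFun X := ⟨fun w => ∏ v ∈ primFibre h w, X.1 v, fun _ => prod_mem fun v _ => X.2.1 v,
    fun w γ τ => by simp [prod_primFibre_rowMul, fam_rowMul]⟩
  map_one' := Subtype.ext (by funext w; simp)
  map_mul' X Y := Subtype.ext (by funext w; simp [Finset.prod_mul_distrib])

variable {h}

theorem famAt_famTrace (X : Fam M N) (w : PrimVec r) :
    famAt w (famTrace h X) = ∑ v ∈ primFibre h w, famAt v X :=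
  Subtype.ext (by simp [famTrace, AddSubmonoidClass.coe_finsetSum])

theorem famExp_famTrace (X : Fam M N) (w : PrimVec r) :
    famExp w (famTrace h X) = ∑ v ∈ primFibre h w, famExp v X := by
  simp [famExp, famAt_famTrace, map_sum]

theorem famAt_famNorm (X : Fam M N) (w : PrimVec r) :
    famAt w (famNorm h X) = ∏ v ∈ primFibre h w, famAt v X :=
  Subtype.ext (by simp [famNorm, SubmonoidClass.coe_finsetProd])

theorem famExp_famNorm (X : Fam M N) (w : PrimVec r) :
    famExp w (famNorm h X) = ∏ v ∈ primFibre h w, famExp v X := by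
  simp [famExp, famAt_famNorm, map_prod]

theorem famTrace_mem_intFam {S : Subring ℂ} {X : Fam M N} (hX : X ∈ intFam M N S) :
    famTrace h X ∈ intFam r N S := by
  simp only [intFam, Subring.mem_iInf, Subring.mem_comap] at hX ⊢
  intro w
  rw [famExp_famTrace]
  exact sum_mem fun v _ => hX v

theorem famTrace_pull_mul (A : Fam r N) (X : Fam M N) :
    famTrace h (famPull h A * X) = A * famTrace h X := by
  refine Subtype.ext (funext fun w => ?_)
  simp only [famTrace, AddMonoidHom.coe_mk, ZeroHom.coe_mk, MulMemClass.coe_mul, Pi.mul_apply,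
    famPull_apply, Finset.mul_sum]
  exact Finset.sum_congr rfl fun v hv => by rw [mem_primFibre.mp hv]

variable (h)

/-- The characteristic polynomial over the fibre of `w`. -/
def fibrePoly (X : Fam M N) (w : PrimVec r) : (expFun N)[X] :=
  ∏ v ∈ primFibre h w, (Polynomial.X - Polynomial.C (famAt v X))

/-- Its coefficients, as families. -/
def famCoeff (X : Fam M N) (k : ℕ) : Fam r N :=
  ⟨fun w => ((fibrePoly h X w).coeff k : ℍ → ℂ), fun w => Subtype.coe_prop _, fun w γ τ => by
    let ev : ℍ → (expFun N →+* ℂ) := fun z => (Pi.evalRingHom _ z).comp (expFun N).subtype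
    show ev τ ((fibrePoly h X (rowMul w γ)).coeff k) = ev (γ • τ) ((fibrePoly h X w).coeff k)
    rw [← Polynomial.coeff_map, ← Polynomial.coeff_map, fibrePoly, fibrePoly, Polynomial.map_prod,
      Polynomial.map_prod, prod_primFibre_rowMul]
    simp [ev, fam_rowMul]⟩

theorem famAt_famCoeff (X : Fam M N) (k : ℕ) (w : PrimVec r) :
    famAt w (famCoeff h X k) = (fibrePoly h X w).coeff k :=
  rfl

theorem map_fibrePoly (X : Fam M N) (w : PrimVec r) :
    (fibrePoly h X w).map (expan N) =
      ∏ v ∈ primFibre h w, (Polynomial.X - Polynomial.C (famExp v X)) := by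
  simp [fibrePoly, Polynomial.map_prod, famExp]

theorem famCoeff_mem_intFam {S : Subring ℂ} {X : Fam M N} (hX : X ∈ intFam M N S) (k : ℕ) :
    famCoeff h X k ∈ intFam r N S := by
  simp only [intFam, Subring.mem_iInf, Subring.mem_comap] at hX ⊢
  intro w
  have hmem : ∏ v ∈ primFibre h w, (Polynomial.X - Polynomial.C (famExp v X)) ∈
      (Polynomial.mapRingHom (serIn S).subtype).range :=
    prod_mem fun v _ => ⟨Polynomial.X - Polynomial.C ⟨_, hX v⟩, by simp⟩
  rw [← map_fibrePoly] at hmem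
  obtain ⟨P, hP⟩ := hmem
  have := congrArg (fun Q => Q.coeff k) hP
  simp only [Polynomial.coe_mapRingHom, Polynomial.coeff_map] at this
  rw [show famExp w (famCoeff h X k) = expan N ((fibrePoly h X w).coeff k) from rfl, ← this]
  exact (P.coeff k).2

end Fibre

end Fermat.Agent.DS.G1
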