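import Fermat.Agent.DS.G1.WPFun
import Fermat.Agent.DS.G1.Fam

/-!
# The point of exact order `r` above a primitive vector modulo `r`
-/

set_option autoImplicit false

noncomputable section

open scoped MatrixGroups

namespace Fermat.Agent.DS.G1

variable {r N : ℕ}

theorem natCast_mul_div_eq_zero (h : r ∣ N) :
    (zmultiplesHom (ZMod N) ((N / r : ℕ) : ZMod N)) r = 0 := by
  rw [zmultiplesHom_apply, natCast_zsmul, nsmul_eq_mul, ← Nat.cast_mul, Nat.mul_div_cancel' h,
    ZMod.natCast_self]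

/-- Multiplication by `N / r` from `ℤ/r` to `ℤ/N`. -/
def divHom (h : r ∣ N) : ZMod r →+ ZMod N :=
  ZMod.lift r ⟨zmultiplesHom (ZMod N) ((N / r : ℕ) : ZMod N), natCast_mul_div_eq_zero h⟩

theorem divHom_intCast (h : r ∣ N) (k : ℤ) : divHom h k = k * ((N / r : ℕ) : ZMod N) := by
  simp [divHom]

theorem divHom_injective [NeZero r] [NeZero N] (h : r ∣ N) : Function.Injective (divHom h) := by
  rw [injective_iff_map_eq_zero]
  intro x hx
  rw [← ZMod.natCast_zmod_val x, ← Int.cast_natCast, divHom_intCast, Int.cast_natCast,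
    ← Nat.cast_mul, ZMod.natCast_eq_zero_iff] at hx
  have hpos : 0 < N / r := Nat.div_pos (Nat.le_of_dvd (NeZero.pos N) h) (NeZero.pos r)
  rw [← Nat.mul_div_cancel' h] at hx
  rw [Nat.mul_div_cancel_left _ (NeZero.pos r)] at hx
  rw [← ZMod.natCast_zmod_val x, ZMod.natCast_eq_zero_iff]
  exact Nat.dvd_of_mul_dvd_mul_right hpos hx

theorem divHom_mul_intCast (h : r ∣ N) (x : ZMod r) (k : ℤ) :
    divHom h (x * k) = divHom h x * k := by
  rw [mul_comm, ← zsmul_eq_mul, map_zsmul, zsmul_eq_mul, mul_comm]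

theorem divHom_castHom_mul [NeZero N] (h : r ∣ N) (c : ZMod N) (x : ZMod r) :
    divHom h (ZMod.castHom h (ZMod r) c * x) = c * divHom h x := by
  rw [← ZMod.natCast_zmod_val c, map_natCast, ← nsmul_eq_mul, map_nsmul, nsmul_eq_mul]

/-- The point `(N/r) w`. -/
def ptVec (h : r ∣ N) (w : PrimVec r) : Fin 2 → ZMod N := fun i => divHom h (w.1 i)

theorem ptVec_rowMul (h : r ∣ N) (w : PrimVec r) (γ : SL(2, ℤ)) :
    ptVec h (rowMul w γ) =
      fun i => ptVec h w 0 * ((γ 0 i : ℤ) : ZMod N) + ptVec h w 1 * ((γ 1 i : ℤ) : ZMod N) := by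
  funext i
  simp only [ptVec, rowMul_apply, map_add, divHom_mul_intCast]

theorem ptVec_twist [NeZero N] (h : r ∣ N) (w : PrimVec r) (s : (ZMod N)ˣ) :
    ptVec h (twist (Units.map (ZMod.castHom h (ZMod r)).toMonoidHom s) w) =
      ![ptVec h w 0, (s : ZMod N) * ptVec h w 1] := by
  funext i
  fin_cases i
  · simp [ptVec]
  · simp only [ptVec, twist_snd, Units.coe_map, RingHom.toMonoidHom_eq_coe, MonoidHom.coe_coe,
      Fin.mk_one, Matrix.cons_val_one]
    exact divHom_castHom_mul h _ _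

theorem isPrim_nsmul_eq_zero [NeZero r] {w : PrimVec r} {k : ℕ} (hk : k • w.1 = 0) : r ∣ k := by
  obtain ⟨x, y, hxy⟩ := w.2
  have h0 : (k : ZMod r) * w.1 0 = 0 := by simpa [nsmul_eq_mul] using congrFun hk 0
  have h1 : (k : ZMod r) * w.1 1 = 0 := by simpa [nsmul_eq_mul] using congrFun hk 1
  rw [← ZMod.natCast_eq_zero_iff]
  linear_combination (-(k : ZMod r)) * hxy + x * h0 + y * h1

theorem nsmul_ptVec_eq_zero_iff [NeZero r] [NeZero N] (h : r ∣ N) (w : PrimVec r) (k : ℕ) :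
    k • ptVec h w = 0 ↔ r ∣ k := by
  refine ⟨fun hk => isPrim_nsmul_eq_zero (w := w) (funext fun i => divHom_injective h ?_), ?_⟩
  · rw [Pi.smul_apply, map_nsmul, Pi.zero_apply, map_zero]
    exact congrFun hk i
  · rintro ⟨c, rfl⟩
    funext i
    rw [Pi.smul_apply, Pi.zero_apply, ptVec, ← map_nsmul,
      show (r * c) • w.1 i = 0 by rw [nsmul_eq_mul]; simp, map_zero]

theorem ptVec_add_self_ne [NeZero r] [NeZero N] (h : r ∣ N) (hr : 3 ≤ r) (w : PrimVec r) :
    ptVec h w + ptVec h w ≠ 0 := by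
  rw [← two_nsmul, ne_eq, nsmul_ptVec_eq_zero_iff]
  exact fun h => by have := Nat.le_of_dvd two_pos h; omega

theorem ptVec_triple_ne [NeZero r] [NeZero N] (h : r ∣ N) (hr : 4 ≤ r) (w : PrimVec r) :
    ptVec h w + ptVec h w + ptVec h w ≠ 0 := by
  rw [← two_nsmul, ← succ_nsmul, ne_eq, nsmul_ptVec_eq_zero_iff]
  exact fun h => by have := Nat.le_of_dvd three_pos h; omega

theorem ptVec_ne_zero [NeZero r] [NeZero N] (h : r ∣ N) (hr : 3 ≤ r) (w : PrimVec r) :
    ptVec h w ≠ 0 :=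
  fun h0 => ptVec_add_self_ne h hr w (by simp [h0])

theorem ptVec_eq_or_neg [NeZero r] [NeZero N] (h : r ∣ N) {w w' : PrimVec r}
    (he : ptVec h w = ptVec h w' ∨ ptVec h w = -ptVec h w') : w.1 = w'.1 ∨ w.1 = -w'.1 := by
  rcases he with he | he
  · exact .inl (funext fun i => divHom_injective h (congrFun he i))
  · refine .inr (funext fun i => divHom_injective h ?_)
    rw [Pi.neg_apply, map_neg]
    exact congrFun he i

theorem primVec_ne_zero [NeZero N] (hN : N ≠ 1) (v : PrimVec N) : v.1 ≠ 0 := by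
  intro h0
  obtain ⟨x, y, hxy⟩ := v.2
  have : Fact (1 < N) := ⟨by have := NeZero.pos N; omega⟩
  simp [h0] at hxy

/-- Distinct vectors over the same vector modulo `r ≥ 3` differ by more than a sign. -/
theorem ne_neg_of_primRed_eq [NeZero r] [NeZero N] (h : r ∣ N) (hr : 3 ≤ r) {v v' : PrimVec N}
    (hv : primRed h v = primRed h v') : v.1 ≠ -v'.1 := by
  intro he
  have h2 : (2 : ℕ) • (primRed h v').1 = 0 := by
    funext i
    have hi := congrArg (fun x : PrimVec r => x.1 i) hv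
    simp only [primRed_apply, congrFun he i, Pi.neg_apply, map_neg] at hi
    rw [Pi.smul_apply, two_nsmul, Pi.zero_apply, primRed_apply]
    linear_combination -hi
  have := Nat.le_of_dvd two_pos (isPrim_nsmul_eq_zero h2)
  omega

end Fermat.Agent.DS.G1
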