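import Fermat.Agent.DS.G1.BaseCoeff
import Fermat.Agent.DS.G1.BasePoint
import Fermat.Agent.MF.KleinJ

/-!
# The Hauptmodul `b` of level `r` and the separating function `theta`
-/

set_option autoImplicit false
set_option linter.unusedSectionVars false

noncomputable section

open UpperHalfPlane HahnSeries
open scoped MatrixGroups Manifold

namespace Fermat.Agent.DS.G1

open Fermat.Agent.RED.Kernel ModularCurve

variable {r N : ℕ} [NeZero r] [NeZero N]

theorem E₄_smul (γ : SL(2, ℤ)) (τ : ℍ) :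
    ModularForm.E₄ (γ • τ) = denom γ τ ^ 4 * ModularForm.E₄ τ := by
  have e : ModularForm.E₄ (γ • τ) = denom γ τ ^ (4 : ℤ) * ModularForm.E₄ τ :=
    SlashInvariantForm.slash_action_eqn'' ModularForm.E₄ (Γ := 𝒮ℒ)
      (MonoidHom.mem_range.mpr ⟨γ, rfl⟩) τ
  simpa [zpow_ofNat] using e

theorem E₆_smul (γ : SL(2, ℤ)) (τ : ℍ) :
    ModularForm.E₆ (γ • τ) = denom γ τ ^ 6 * ModularForm.E₆ τ := by
  have e : ModularForm.E₆ (γ • τ) = denom γ τ ^ (6 : ℤ) * ModularForm.E₆ τ :=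
    SlashInvariantForm.slash_action_eqn'' ModularForm.E₆ (Γ := 𝒮ℒ)
      (MonoidHom.mem_range.mpr ⟨γ, rfl⟩) τ
  simpa [zpow_ofNat] using e

theorem expan_inv {f g : expFun N} (h : f * g = 1) : expan N g = (expan N f)⁻¹ :=
  (inv_eq_of_mul_eq_one_right (by rw [← map_mul, h, map_one])).symm

/-- Inverse of a nowhere vanishing member of `expFun N`. -/
def expInv (f : expFun N) (h : ∀ τ, (f : ℍ → ℂ) τ ≠ 0) : expFun N := ⟨_, inv_mem_expFun f h⟩

@[simp] theorem coe_expInv (f : expFun N) (h : ∀ τ, (f : ℍ → ℂ) τ ≠ 0) :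
    (expInv f h : ℍ → ℂ) = fun τ => ((f : ℍ → ℂ) τ)⁻¹ := rfl

theorem expan_expInv (f : expFun N) (h : ∀ τ, (f : ℍ → ℂ) τ ≠ 0) :
    expan N (expInv f h) = (expan N f)⁻¹ :=
  expan_inv (Subtype.ext (funext fun τ => mul_inv_cancel₀ (h τ)))

/-- The series of `Q_v - Q_w`. -/
def sDiff (v w : Fin 2 → ZMod N) : LaurentSeries ℂ :=
  ofPowerSeries ℤ ℂ (qvPS v) - ofPowerSeries ℤ ℂ (qvPS w)

theorem expan_wpQ_sub {v w : Fin 2 → ZMod N} (hv : v ≠ 0) (hw : w ≠ 0) :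
    expan N (wpQ hv - wpQ hw) = sDiff v w := by
  rw [map_sub, expan_wpQ, expan_wpQ, sDiff]

theorem inv_sDiff_mem {v w : Fin 2 → ZMod N} (hv : v ≠ 0) (hw : w ≠ 0) (hne : v ≠ w)
    (hne' : v ≠ -w) : (sDiff v w)⁻¹ ∈ serIn (zetaRing N) := by
  obtain ⟨u, hu, he⟩ := qvPS_unitDiff hv hw hne hne'
  rwa [sDiff, inv_eq_of_mul_eq_one_right he]

/-- The series of `W`. -/
def sW (v : Fin 2 → ZMod N) : LaurentSeries ℂ :=
  4 * ofPowerSeries ℤ ℂ (qvPS v) ^ 3 + ofPowerSeries ℤ ℂ (qvPS v) ^ 2 +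
    expan N (h2Fun N) * ofPowerSeries ℤ ℂ (qvPS v) + expan N (h3Fun N)

/-- `W` as a member of `expFun N`. -/
def wpWFun {v : Fin 2 → ZMod N} (hv : v ≠ 0) : expFun N :=
  4 * wpQ hv ^ 3 + wpQ hv ^ 2 + h2Fun N * wpQ hv + h3Fun N

theorem coe_wpWFun {v : Fin 2 → ZMod N} (hv : v ≠ 0) (τ : ℍ) :
    (wpWFun hv : ℍ → ℂ) τ = wpW N v τ := by
  show ((4 : ℕ) : ℍ → ℂ) τ * (wpVec N v τ - 1 / 12) ^ 3 + (wpVec N v τ - 1 / 12) ^ 2 +
    (1 - ModularForm.E₄ τ) / 12 * (wpVec N v τ - 1 / 12) +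
    (1 - 3 * ModularForm.E₄ τ + 2 * ModularForm.E₆ τ) / 432 = _
  rw [Pi.natCast_apply, wpW]
  push_cast
  ring

theorem expan_wpWFun {v : Fin 2 → ZMod N} (hv : v ≠ 0) : expan N (wpWFun hv) = sW v := by
  simp [wpWFun, sW, expan_wpQ, map_ofNat]

theorem sW_mem {v : Fin 2 → ZMod N} (hv : v ≠ 0) : sW v ∈ serIn (zetaRing N) := by
  have hQ := ofPowerSeries_qvPS_mem hv
  exact add_mem (add_mem (add_mem (mul_mem (ofNat_mem _ 4) (pow_mem hQ 3)) (pow_mem hQ 2))
    (mul_mem (serZ_le_serIn _ (expan_intFun_mem_serZ _ _ _)) hQ))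
    (serZ_le_serIn _ (expan_intFun_mem_serZ _ _ _))

theorem coeffMap_sDiff {σ : ℂ →+* ℂ} {s : (ZMod N)ˣ} (hσ : ActsBy σ s) (v w : Fin 2 → ZMod N) :
    coeffMap σ (sDiff v w) = sDiff ![v 0, (s : ZMod N) * v 1] ![w 0, (s : ZMod N) * w 1] := by
  rw [sDiff, sDiff, map_sub, coeffMap_ofPowerSeries, coeffMap_ofPowerSeries, coeffMap_qvPS hσ,
    coeffMap_qvPS hσ]

theorem coeffMap_sW {σ : ℂ →+* ℂ} {s : (ZMod N)ˣ} (hσ : ActsBy σ s) (v : Fin 2 → ZMod N) :
    coeffMap σ (sW v) = sW ![v 0, (s : ZMod N) * v 1] := by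
  rw [sW, sW]
  simp only [map_add, map_mul, map_pow, map_ofNat, coeffMap_ofPowerSeries, coeffMap_qvPS hσ,
    h2Fun, h3Fun, coeffMap_eq_self_of_mem_serZ (expan_intFun_mem_serZ _ _ _)]

section Haupt

variable (h : r ∣ N) (hr : 4 ≤ r)
include h hr

theorem wpD_pt_ne_zero (w : PrimVec r) (τ : ℍ) : wpD N (ptVec h w) τ ≠ 0 :=
  wpD_ne_zero (ptVec_add_self_ne h (by omega) w) (ptVec_triple_ne h hr w) τ

/-- `P(z) - P(2z)` as a member of `expFun N`. -/
def dFun (w : PrimVec r) : expFun N :=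
  wpQ (ptVec_ne_zero h (show 3 ≤ r by omega) w) - wpQ (ptVec_add_self_ne h (show 3 ≤ r by omega) w)

theorem coe_dFun (w : PrimVec r) (τ : ℍ) : (dFun h hr w : ℍ → ℂ) τ = wpD N (ptVec h w) τ := by
  simp [dFun, wpD]

/-- `W` at the point above `w`. -/
def wFun (w : PrimVec r) : expFun N := wpWFun (ptVec_ne_zero h (show 3 ≤ r by omega) w)

theorem wFun_ne_zero (w : PrimVec r) (τ : ℍ) : (wFun h hr w : ℍ → ℂ) τ ≠ 0 := by
  rw [wFun, coe_wpWFun]
  exact wpW_ne_zero (ptVec_add_self_ne h (by omega) w) τ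

/-- `b = -D³/W` at `w`. -/
def bFun (w : PrimVec r) : expFun N :=
  -(dFun h hr w) ^ 3 * expInv (wFun h hr w) (wFun_ne_zero h hr w)

theorem coe_bFun (w : PrimVec r) (τ : ℍ) :
    (bFun h hr w : ℍ → ℂ) τ = -wpD N (ptVec h w) τ ^ 3 / wpW N (ptVec h w) τ := by
  rw [div_eq_mul_inv, ← coe_wpWFun (ptVec_ne_zero h (by omega) w) τ, ← coe_dFun h hr w τ]
  rfl

omit h hr in
theorem wpW_smul (γ : SL(2, ℤ)) (v : Fin 2 → ZMod N) (τ : ℍ) :
    wpW N v (γ • τ) = denom γ τ ^ 6 *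
      wpW N (fun i => v 0 * ((γ 0 i : ℤ) : ZMod N) + v 1 * ((γ 1 i : ℤ) : ZMod N)) τ := by
  rw [wpW, wpW, wpVec_smul, E₄_smul, E₆_smul]
  ring

omit h hr in
theorem wpD_smul (γ : SL(2, ℤ)) (v : Fin 2 → ZMod N) (τ : ℍ) :
    wpD N v (γ • τ) = denom γ τ ^ 2 *
      wpD N (fun i => v 0 * ((γ 0 i : ℤ) : ZMod N) + v 1 * ((γ 1 i : ℤ) : ZMod N)) τ := by
  rw [wpD, wpD, wpVec_smul γ v, wpVec_smul γ (v + v), mul_sub]
  congr 3
  funext i
  simp only [Pi.add_apply]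
  ring

/-- The Hauptmodul. -/
def bFam : Fam r N :=
  ⟨fun w => (bFun h hr w : ℍ → ℂ), fun w => (bFun h hr w).2, fun w γ τ => by
    have hj := denom_ne_zero γ τ
    have hw := wFun_ne_zero h hr (rowMul w γ) τ
    rw [wFun, coe_wpWFun] at hw
    show (bFun h hr (rowMul w γ) : ℍ → ℂ) τ = (bFun h hr w : ℍ → ℂ) (γ • τ)
    rw [coe_bFun, coe_bFun, wpD_smul, wpW_smul, ← ptVec_rowMul]
    field_simp⟩

theorem bFam_apply (w : PrimVec r) (τ : ℍ) :
    (bFam h hr).1 w τ = -wpD N (ptVec h w) τ ^ 3 / wpW N (ptVec h w) τ :=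
  coe_bFun h hr w τ

theorem famExp_bFam (w : PrimVec r) :
    famExp w (bFam h hr) =
      -sDiff (ptVec h w) (ptVec h w + ptVec h w) ^ 3 * (sW (ptVec h w))⁻¹ := by
  show expan N (bFun h hr w) = _
  rw [bFun, map_mul, map_neg, map_pow, expan_expInv, dFun, expan_wpQ_sub, wFun, expan_wpWFun]

theorem bFam_conj (σ : ℂ →+* ℂ) (s : (ZMod N)ˣ) (hσ : ActsBy σ s) :
    IsConj σ (Units.map (ZMod.castHom h (ZMod r)).toMonoidHom s) (bFam h hr) (bFam h hr) := by
  intro w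
  rw [famExp_bFam, famExp_bFam, ptVec_twist, map_mul, map_neg, map_pow, map_inv₀,
    coeffMap_sDiff hσ, coeffMap_sW hσ]
  congr 4
  funext i
  fin_cases i <;> simp [mul_add]

theorem exists_inv_bFam (w : PrimVec r) :
    ∃ s ∈ serIn (zetaRing N), famExp w (bFam h hr) * s = 1 := by
  refine ⟨-sW (ptVec h w) * (sDiff (ptVec h w) (ptVec h w + ptVec h w))⁻¹ ^ 3,
    mul_mem (neg_mem (sW_mem (ptVec_ne_zero h (by omega) w))) (pow_mem ?_ 3), ?_⟩
  · refine inv_sDiff_mem (ptVec_ne_zero h (by omega) w) (ptVec_add_self_ne h (by omega) w) ?_ ?_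
    · intro e
      rw [left_eq_add] at e
      exact ptVec_ne_zero h (by omega) w e
    · intro e
      exact ptVec_triple_ne h hr w (by rw [eq_neg_iff_add_eq_zero] at e; rw [← e]; abel)
  · have hD : sDiff (ptVec h w) (ptVec h w + ptVec h w) ≠ 0 := by
      rw [← expan_wpQ_sub (ptVec_ne_zero h (by omega) w) (ptVec_add_self_ne h (by omega) w)]
      intro h0
      have e := congrFun (congrArg Subtype.val (expan_injective (h0.trans (map_zero _).symm)))
        UpperHalfPlane.I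
      exact wpD_pt_ne_zero h hr w UpperHalfPlane.I ((coe_dFun h hr w _).symm.trans e)
    have hW : sW (ptVec h w) ≠ 0 := by
      rw [← expan_wpWFun (ptVec_ne_zero h (by omega) w)]
      intro h0
      exact wFun_ne_zero h hr w UpperHalfPlane.I
        (congrFun (congrArg Subtype.val (expan_injective (h0.trans (map_zero _).symm))) _)
    rw [famExp_bFam]
    field_simp

end Haupt

section Theta

variable (h : r ∣ N)

/-- The point of level `r` below `v`. -/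
abbrev lowPt (v : PrimVec N) : Fin 2 → ZMod N := ptVec h (primRed h v)

variable (hr : 4 ≤ r)
include h hr

theorem one_ne_of_dvd (v : PrimVec N) : v.1 ≠ 0 :=
  primVec_ne_zero (fun h1 => by
    subst h1
    have := Nat.le_of_dvd one_pos h
    omega) v

/-- The denominator of `theta`. -/
def thetaDen (v : PrimVec N) : expFun N := -dFun h hr (primRed h v)

theorem thetaDen_ne_zero (v : PrimVec N) (τ : ℍ) : (thetaDen h hr v : ℍ → ℂ) τ ≠ 0 := by
  show -((dFun h hr (primRed h v) : ℍ → ℂ) τ) ≠ 0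
  rw [neg_ne_zero, coe_dFun]
  exact wpD_pt_ne_zero h hr _ τ

/-- `theta = (P_v - P_p) / (P_{2p} - P_p)`, `p` the point of level `r` below `v`. -/
def thetaFun (v : PrimVec N) : expFun N :=
  (wpQ (one_ne_of_dvd h hr v) - wpQ (ptVec_ne_zero h (show 3 ≤ r by omega) (primRed h v))) *
    expInv (thetaDen h hr v) (thetaDen_ne_zero h hr v)

theorem coe_thetaFun (v : PrimVec N) (τ : ℍ) :
    (thetaFun h hr v : ℍ → ℂ) τ =
      (wpVec N v.1 τ - wpVec N (lowPt h v) τ) / -wpD N (lowPt h v) τ := by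
  rw [div_eq_mul_inv, ← coe_dFun h hr]
  show (wpVec N v.1 τ - 1 / 12 - (wpVec N (lowPt h v) τ - 1 / 12)) * _ = _
  rw [sub_sub_sub_cancel_right]
  rfl

/-- The separating function. -/
def thetaFam : Fam N N :=
  ⟨fun v => (thetaFun h hr v : ℍ → ℂ), fun v => (thetaFun h hr v).2, fun v γ τ => by
    have hj := denom_ne_zero γ τ
    have hd := wpD_pt_ne_zero h hr (rowMul (primRed h v) γ) τ
    show (thetaFun h hr (rowMul v γ) : ℍ → ℂ) τ = (thetaFun h hr v : ℍ → ℂ) (γ • τ)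
    rw [coe_thetaFun, coe_thetaFun, lowPt, lowPt, primRed_rowMul, wpD_smul, wpVec_rowMul,
      wpVec_smul γ (ptVec h (primRed h v)), ← ptVec_rowMul]
    field_simp⟩

theorem famExp_thetaFam (v : PrimVec N) :
    famExp v (thetaFam h hr) =
      sDiff v.1 (lowPt h v) * (-sDiff (lowPt h v) (lowPt h v + lowPt h v))⁻¹ := by
  show expan N (thetaFun h hr v) = _
  rw [thetaFun, map_mul, expan_expInv, expan_wpQ_sub, thetaDen, map_neg, dFun, expan_wpQ_sub]

theorem thetaFam_mem : thetaFam h hr ∈ intFam N N (zetaRing N) := by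
  rw [mem_intFam]
  intro v
  rw [famExp_thetaFam]
  refine mem_serIn.mp (mul_mem (sub_mem (ofPowerSeries_qvPS_mem (one_ne_of_dvd h hr v))
    (ofPowerSeries_qvPS_mem (ptVec_ne_zero h (by omega) _))) ?_)
  rw [sDiff, neg_sub, ← sDiff]
  refine inv_sDiff_mem (ptVec_add_self_ne h (by omega) _) (ptVec_ne_zero h (by omega) _) ?_ ?_
  · intro e
    rw [add_eq_left] at e
    exact ptVec_ne_zero h (by omega) _ e
  · intro e
    exact ptVec_triple_ne h hr (primRed h v) (eq_neg_iff_add_eq_zero.mp e)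

theorem thetaFam_conj (σ : ℂ →+* ℂ) (s : (ZMod N)ˣ) (hσ : ActsBy σ s) :
    IsConj σ s (thetaFam h hr) (thetaFam h hr) := by
  intro v
  rw [famExp_thetaFam, famExp_thetaFam, lowPt, lowPt, primRed_twist, ptVec_twist, map_mul,
    map_inv₀, map_neg, coeffMap_sDiff hσ, coeffMap_sDiff hσ]
  congr 4
  funext i
  fin_cases i <;> simp [mul_add]

theorem thetaFam_unitDiff (v v' : PrimVec N) (hne : v ≠ v') (he : primRed h v = primRed h v') :
    UnitDiff (zetaRing N) (famExp v (thetaFam h hr)) (famExp v' (thetaFam h hr)) := by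
  obtain ⟨u, hu, hu'⟩ := qvPS_unitDiff (one_ne_of_dvd h hr v) (one_ne_of_dvd h hr v')
    (fun e => hne (Subtype.ext e)) (ne_neg_of_primRed_eq h (by omega) he)
  have hp : lowPt h v' = lowPt h v := by rw [lowPt, lowPt, he]
  refine ⟨u * -sDiff (lowPt h v) (lowPt h v + lowPt h v), mul_mem hu (neg_mem (sub_mem
    (ofPowerSeries_qvPS_mem (ptVec_ne_zero h (by omega) _))
    (ofPowerSeries_qvPS_mem (ptVec_add_self_ne h (by omega) _)))), ?_⟩
  have hD : sDiff (lowPt h v) (lowPt h v + lowPt h v) ≠ 0 := by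
    rw [← expan_wpQ_sub (ptVec_ne_zero h (by omega) _) (ptVec_add_self_ne h (by omega) _)]
    intro h0
    exact wpD_pt_ne_zero h hr (primRed h v) UpperHalfPlane.I ((coe_dFun h hr _ _).symm.trans
      (congrFun (congrArg Subtype.val (expan_injective (h0.trans (map_zero _).symm))) _))
  rw [famExp_thetaFam, famExp_thetaFam, hp, ← hu']
  simp only [sDiff] at hD ⊢
  field_simp
  ring

theorem thetaFam_ne (v v' : PrimVec N) (hne : v ≠ v') (he : primRed h v = primRed h v') (τ : ℍ) :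
    (thetaFam h hr).1 v τ ≠ (thetaFam h hr).1 v' τ := by
  show (thetaFun h hr v : ℍ → ℂ) τ ≠ (thetaFun h hr v' : ℍ → ℂ) τ
  rw [coe_thetaFun, coe_thetaFun, show lowPt h v' = lowPt h v by rw [lowPt, lowPt, he], ne_eq,
    div_left_inj' (neg_ne_zero.mpr (wpD_pt_ne_zero h hr _ τ)), sub_left_inj,
    wpVec_eq_iff (one_ne_of_dvd h hr v) (one_ne_of_dvd h hr v')]
  rintro (e | e)
  · exact hne (Subtype.ext e)
  · exact ne_neg_of_primRed_eq h (by omega) he e

end Theta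

end Fermat.Agent.DS.G1
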