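import Fermat.Agent.DS.G1.BaseAlg
import Fermat.Agent.DS.G1.BaseFam

/-!
# The roots of `c₄(X)³ - j D₀(X)`
-/

set_option autoImplicit false
set_option linter.unusedSectionVars false

noncomputable section

open UpperHalfPlane
open scoped Polynomial

namespace Fermat.Agent.DS.G1

open ModularCurve

variable {r N : ℕ} [NeZero r] [NeZero N] (R : RData r) (h : r ∣ N) (hr : r = 4 ∨ r = 5)

local notation "castC" => Int.castRingHom ℂ

theorem four_le_of_or (hr : r = 4 ∨ r = 5) : 4 ≤ r := by omega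

include hr in
theorem wp_relations (w : PrimVec r) (τ : ℍ) :
    12 * wpVec N (ptVec h w) τ * wpW N (ptVec h w) τ =
        4 * wpD N (ptVec h w) τ * wpW N (ptVec h w) τ + wpA N (ptVec h w) τ ^ 2 ∧
      (r = 4 → wpA N (ptVec h w) τ * wpD N (ptVec h w) τ = wpW N (ptVec h w) τ) ∧
      (r = 5 → wpA N (ptVec h w) τ * wpD N (ptVec h w) τ - wpW N (ptVec h w) τ =
        wpD N (ptVec h w) τ ^ 3) := by
  have h4 := four_le_of_or hr
  have h2 := ptVec_add_self_ne h (by omega) w
  have hd := wpdVec_ne_zero h2 τ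
  refine ⟨?_, fun e => wpA_mul_wpD_four h2 ?_ τ,
    fun e => wpA_mul_wpD_five h2 (ptVec_triple_ne h h4 w) ?_ τ⟩
  · rw [← wpdVec_sq (ptVec_ne_zero h (by omega) w) τ, wpD, (wp_double h2 τ).1]
    field_simp
    ring
  · have := (nsmul_ptVec_eq_zero_iff h w 4).mpr (by rw [e])
    rw [← this]
    abel
  · have := (nsmul_ptVec_eq_zero_iff h w 5).mpr (by rw [e])
    rw [← this]
    abel

/-- `μ = D²/W`. -/
def muVal (w : PrimVec r) (τ : ℍ) : ℂ := wpD N (ptVec h w) τ ^ 2 / wpW N (ptVec h w) τ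

theorem muVal_ne_zero (w : PrimVec r) (hr : r = 4 ∨ r = 5) (τ : ℍ) : muVal h w τ ≠ 0 := by
  have h4 := four_le_of_or hr
  exact div_ne_zero (pow_ne_zero 2 (wpD_pt_ne_zero h h4 w τ))
    (wpW_ne_zero (ptVec_add_self_ne h (by omega) w) τ)

theorem eval_bFam (w : PrimVec r) (τ : ℍ) :
    R.C4.eval₂ castC ((bFam h (four_le_of_or hr)).1 w τ) =
        ModularForm.E₄ τ * muVal h w τ ^ 2 ∧
      R.C6.eval₂ castC ((bFam h (four_le_of_or hr)).1 w τ) =
        -ModularForm.E₆ τ * muVal h w τ ^ 3 := by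
  obtain ⟨e1, e4, e5⟩ := wp_relations h hr w τ
  obtain ⟨c4, c6⟩ := R.curve _ _ _ _ (wpD_pt_ne_zero h (four_le_of_or hr) w τ)
    (wpW_ne_zero (ptVec_add_self_ne h (by omega) w) τ) e1 e4 e5
  rw [bFam_apply, c4, c6, muVal]
  constructor
  · congr 1
    simp only [wpA]
    ring
  · congr 1
    simp only [wpA, wpW]
    ring

include hr in
theorem eval_bFam_eq_zero (w : PrimVec r) (τ : ℍ) :
    (R.C4 ^ 3).eval₂ castC ((bFam h (four_le_of_or hr)).1 w τ) -
      MF.kleinJ τ * R.D0.eval₂ castC ((bFam h (four_le_of_or hr)).1 w τ) = 0 := by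
  obtain ⟨h4, h6⟩ := eval_bFam R h hr w τ
  have hs := congrArg (Polynomial.eval₂ castC ((bFam h (four_le_of_or hr)).1 w τ)) R.sq
  simp only [Polynomial.eval₂_sub, Polynomial.eval₂_mul, Polynomial.eval₂_pow, h4, h6,
    Polynomial.eval₂_ofNat] at hs
  rw [Polynomial.eval₂_pow, h4, MF.kleinJ_def]
  have hd := ModularForm.discriminant_ne_zero τ
  have hdd := ModularForm.discriminant_eq_E₄_cube_sub_E₆_sq τ
  field_simp
  linear_combination (ModularForm.E₄ τ ^ 3 * muVal h w τ ^ 6) * hdd +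
    (-(ModularForm.E₄ τ ^ 3) / 1728) * hs

include R hr in
theorem eq_or_neg_of_bFam_eq {w w' : PrimVec r} {τ : ℍ} (h0 : MF.kleinJ τ ≠ 0)
    (h1 : MF.kleinJ τ ≠ 1728)
    (e : (bFam h (four_le_of_or hr)).1 w τ = (bFam h (four_le_of_or hr)).1 w' τ) :
    w.1 = w'.1 ∨ w.1 = -w'.1 := by
  have h4 := four_le_of_or hr
  obtain ⟨a4, a6⟩ := eval_bFam R h hr w τ
  obtain ⟨b4, b6⟩ := eval_bFam R h hr w' τ
  rw [e, b4] at a4
  rw [e, b6] at a6
  rw [ne_eq, MF.kleinJ_eq_zero_iff] at h0
  rw [ne_eq, MF.kleinJ_eq_1728_iff] at h1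
  have m2 : muVal h w' τ ^ 2 = muVal h w τ ^ 2 := mul_left_cancel₀ h0 a4
  have m3 : muVal h w' τ ^ 3 = muVal h w τ ^ 3 := mul_left_cancel₀ (neg_ne_zero.mpr h1) a6
  have hm : muVal h w' τ = muVal h w τ := by
    rw [show muVal h w' τ ^ 3 = muVal h w' τ * muVal h w' τ ^ 2 by ring,
      show muVal h w τ ^ 3 = muVal h w τ * muVal h w τ ^ 2 by ring, m2] at m3
    exact mul_right_cancel₀ (pow_ne_zero 2 (muVal_ne_zero h w hr τ)) m3
  rw [bFam_apply, bFam_apply] at e
  obtain ⟨eP, e4, e5⟩ := wp_relations h hr w τ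
  obtain ⟨eP', e4', e5'⟩ := wp_relations h hr w' τ
  have hD := wpD_pt_ne_zero h h4 w τ
  have hD' := wpD_pt_ne_zero h h4 w' τ
  have hW := wpW_ne_zero (ptVec_add_self_ne h (by omega) w) τ
  have hW' := wpW_ne_zero (ptVec_add_self_ne h (by omega) w') τ
  have hmu := muVal_ne_zero h w hr τ
  have eD : wpD N (ptVec h w') τ = wpD N (ptVec h w) τ := by
    apply mul_left_cancel₀ hmu
    nth_rw 1 [← hm]
    rw [muVal, muVal]
    linear_combination e
  rw [muVal, muVal, eD, div_eq_div_iff hW' hW] at hm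
  have eW : wpW N (ptVec h w') τ = wpW N (ptVec h w) τ :=
    (mul_left_cancel₀ (pow_ne_zero 2 hD) hm).symm
  have eA : wpA N (ptVec h w') τ = wpA N (ptVec h w) τ := by
    apply mul_right_cancel₀ hD
    rcases hr with hr | hr
    · have := e4' hr
      rw [eD, eW] at this
      linear_combination this - e4 hr
    · have := e5' hr
      rw [eD, eW] at this
      linear_combination this - e5 hr
  rw [eD, eW, eA] at eP'
  have eX : wpVec N (ptVec h w) τ = wpVec N (ptVec h w') τ := by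
    apply mul_right_cancel₀ hW
    linear_combination (eP - eP') / 12
  exact ptVec_eq_or_neg h
    ((wpVec_eq_iff (ptVec_ne_zero h (by omega) w) (ptVec_ne_zero h (by omega) w') τ).mp eX)

theorem leadingCoeff_C4_pow_ne_zero : (R.C4 ^ 3).leadingCoeff ≠ 0 := by
  intro h0
  have := R.deg_lt
  rw [Polynomial.leadingCoeff_eq_zero.mp h0, Polynomial.natDegree_zero] at this
  omega

include hr in
theorem roots_generic {τ : ℍ} (h0 : MF.kleinJ τ ≠ 0) (h1 : MF.kleinJ τ ≠ 1728) :
    (R.C4 ^ 3).map castC - Polynomial.C (MF.kleinJ τ) * R.D0.map castC =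
      Polynomial.C (((R.C4 ^ 3).leadingCoeff : ℤ) : ℂ) *
        ∏ w ∈ halfSet r, (Polynomial.X - Polynomial.C ((bFam h (four_le_of_or hr)).1 w τ)) := by
  set n := (R.C4 ^ 3).natDegree with hn
  set B := fun w => (bFam h (four_le_of_or hr)).1 w τ with hB
  rw [← sub_eq_zero]
  set Q := (R.C4 ^ 3).map castC - Polynomial.C (MF.kleinJ τ) * R.D0.map castC with hQ
  set Pr := ∏ w ∈ halfSet r, (Polynomial.X - Polynomial.C (B w)) with hPr
  have hinj : Set.InjOn B (halfSet r : Set (PrimVec r)) := by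
    intro x hx y hy e
    obtain ⟨u, -, huniq⟩ := R.half_pm x
    rw [huniq x ⟨hx, .inl rfl⟩, huniq y ⟨hy, eq_or_neg_of_bFam_eq R h hr h0 h1 e⟩]
  refine Polynomial.eq_zero_of_degree_lt_of_eval_finset_eq_zero ((halfSet r).image B) ?_ ?_
  · rw [Finset.card_image_of_injOn hinj, R.card_half, Polynomial.degree_lt_iff_coeff_zero]
    intro m hm
    have hD : (R.D0.map castC).coeff m = 0 := by
      refine Polynomial.coeff_eq_zero_of_natDegree_lt ?_
      exact lt_of_le_of_lt Polynomial.natDegree_map_le (lt_of_lt_of_le R.deg_lt (by exact_mod_cast hm))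
    have hPm : Pr.Monic := Polynomial.monic_prod_of_monic _ _ fun w _ => Polynomial.monic_X_sub_C _
    have hPd : Pr.natDegree = n := by
      rw [hPr, Polynomial.natDegree_prod_of_monic _ _ fun w _ => Polynomial.monic_X_sub_C _]
      simp [R.card_half, hn]
    rw [hQ, Polynomial.coeff_sub, Polynomial.coeff_sub, Polynomial.coeff_C_mul,
      Polynomial.coeff_C_mul, hD, mul_zero, sub_zero, Polynomial.coeff_map]
    rcases eq_or_lt_of_le (show n ≤ m by exact_mod_cast hm) with rfl | hlt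
    · rw [hn, Polynomial.coeff_natDegree, ← hn, ← hPd, hPm.coeff_natDegree, mul_one, eq_intCast,
        sub_self]
    · rw [Polynomial.coeff_eq_zero_of_natDegree_lt (show (R.C4 ^ 3).natDegree < m by omega),
        Polynomial.coeff_eq_zero_of_natDegree_lt (show Pr.natDegree < m by omega)]
      simp
  · intro x hx
    obtain ⟨w, hw, rfl⟩ := Finset.mem_image.mp hx
    have hz : Pr.eval (B w) = 0 := by
      rw [hPr, Polynomial.eval_prod]
      exact Finset.prod_eq_zero hw (by simp)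
    rw [Polynomial.eval_sub, Polynomial.eval_mul, hz, mul_zero, sub_zero, hQ, Polynomial.eval_sub,
      Polynomial.eval_mul, Polynomial.eval_C, Polynomial.eval_map, Polynomial.eval_map]
    exact eval_bFam_eq_zero R h hr w τ

variable (N) in
/-- Evaluation at a point. -/
def expEval (τ : ℍ) : expFun N →+* ℂ := (Pi.evalRingHom (fun _ : ℍ => ℂ) τ).comp (expFun N).subtype

@[simp] theorem expEval_apply (τ : ℍ) (f : expFun N) : expEval N τ f = (f : ℍ → ℂ) τ := rfl

include hr in
theorem bFam_roots (τ : ℍ) :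
    (R.C4 ^ 3).map castC - Polynomial.C (MF.kleinJ τ) * R.D0.map castC =
      Polynomial.C (((R.C4 ^ 3).leadingCoeff : ℤ) : ℂ) *
        ∏ w ∈ halfSet r, (Polynomial.X - Polynomial.C ((bFam h (four_le_of_or hr)).1 w τ)) := by
  let jv : expFun N := famAt (base r) (jFam r N)
  let bv : PrimVec r → expFun N := fun w => famAt w (bFam h (four_le_of_or hr))
  let Z : (expFun N)[X] := (R.C4 ^ 3).map (Int.castRingHom _) -
    Polynomial.C jv * R.D0.map (Int.castRingHom _) -
      Polynomial.C (((R.C4 ^ 3).leadingCoeff : ℤ) : expFun N) *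
        ∏ w ∈ halfSet r, (Polynomial.X - Polynomial.C (bv w))
  have hev : ∀ τ, Z.map (expEval N τ) = (R.C4 ^ 3).map castC -
      Polynomial.C (MF.kleinJ τ) * R.D0.map castC -
      Polynomial.C (((R.C4 ^ 3).leadingCoeff : ℤ) : ℂ) *
        ∏ w ∈ halfSet r, (Polynomial.X - Polynomial.C ((bFam h (four_le_of_or hr)).1 w τ)) := by
    intro τ
    have hj : expEval N τ jv = MF.kleinJ τ := rfl
    have hb : ∀ w, expEval N τ (bv w) = (bFam h (four_le_of_or hr)).1 w τ := fun w => rfl
    simp only [Z, Polynomial.map_sub, Polynomial.map_mul, Polynomial.map_C, Polynomial.map_map,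
      Polynomial.map_prod, Polynomial.map_X, map_intCast, Polynomial.map_intCast, hj, hb]
    rw [RingHom.ext_int ((expEval N τ).comp (Int.castRingHom _)) castC]
  have hne : ∀ c : ℂ, jv - ⟨_, const_mem_expFun c⟩ ≠ 0 := by
    intro c h0
    obtain ⟨z, hz⟩ := MF.kleinJ_surjective (c + 1)
    have e := congrFun (congrArg Subtype.val h0) z
    change MF.kleinJ z - c = 0 at e
    rw [hz] at e
    simp at e
  have hZ : Z = 0 := by
    ext n : 1
    have hmul : (jv - ⟨_, const_mem_expFun 0⟩) * (jv - ⟨_, const_mem_expFun 1728⟩) * Z.coeff n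
        = 0 := by
      refine Subtype.ext (funext fun σ => ?_)
      show (MF.kleinJ σ - 0) * (MF.kleinJ σ - 1728) * expEval N σ (Z.coeff n) = 0
      by_cases h0 : MF.kleinJ σ = 0
      · simp [h0]
      by_cases h1 : MF.kleinJ σ = 1728
      · simp [h1]
      rw [← Polynomial.coeff_map, hev, roots_generic R h hr h0 h1, sub_self]
      simp
    rw [Polynomial.coeff_zero]
    exact (mul_eq_zero.mp hmul).resolve_left (mul_ne_zero (hne 0) (hne 1728))
  rw [← sub_eq_zero, ← hev, hZ, Polynomial.map_zero]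

end Fermat.Agent.DS.G1
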