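import Fermat.Agent.Igusa.ExpRing

/-!
# Holomorphic functions on the upper half plane, meromorphic at infinity in `exp (2πiτ/M)`
-/

set_option autoImplicit false

noncomputable section

open UpperHalfPlane Function Filter Topology
open HahnSeries (single ofPowerSeries single_mul_single single_ne_zero order_single single_zero_one
  ofPowerSeries_injective ofPowerSeries_apply_coeff)
open scoped Manifold

namespace Fermat.Agent.DS.G1

open Fermat.Agent.Igusa

local notation "𝕢" => Periodic.qParam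

variable (M : ℕ)

/-- `f` is `M`-periodic. -/
def IsPer (f : ℍ → ℂ) : Prop := ∀ τ : ℍ, f ((M : ℝ) +ᵥ τ) = f τ

variable {M}

theorem qParam_natCast_vadd [NeZero M] (τ : ℍ) : 𝕢 (M : ℝ) (((M : ℝ) +ᵥ τ : ℍ) : ℂ) = 𝕢 (M : ℝ) τ := by
  rw [coe_vadd, Periodic.qParam, Periodic.qParam, Complex.exp_eq_exp_iff_exists_int]
  have hM : (M : ℂ) ≠ 0 := Nat.cast_ne_zero.mpr (NeZero.ne M)
  refine ⟨1, ?_⟩
  push_cast
  field_simp
  ring

theorem isPer_qParam_pow [NeZero M] (m : ℕ) : IsPer M (fun τ : ℍ => 𝕢 (M : ℝ) τ ^ m) := fun τ => by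
  simp only
  rw [qParam_natCast_vadd]

theorem IsPer.periodic {f : ℍ → ℂ} (hf : IsPer M f) :
    Periodic (f ∘ ofComplex) ((M : ℝ) : ℂ) := by
  intro w
  by_cases! hw : 0 < w.im
  · have h2 : 0 < (w + ((M : ℝ) : ℂ)).im := by simpa using hw
    simp only [comp_apply, ofComplex_apply_of_im_pos h2, ofComplex_apply_of_im_pos hw]
    convert hf ⟨w, hw⟩ using 2
    apply UpperHalfPlane.ext
    simp [add_comm]
  · have h2 : (w + (M : ℂ)).im ≤ 0 := by simpa using hw
    simp [ofComplex_apply_of_im_nonpos h2, ofComplex_apply_of_im_nonpos hw]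

theorem IsPer.add {f g : ℍ → ℂ} (hf : IsPer M f) (hg : IsPer M g) : IsPer M (f + g) :=
  fun τ => by simp [hf τ, hg τ]

theorem IsPer.mul {f g : ℍ → ℂ} (hf : IsPer M f) (hg : IsPer M g) : IsPer M (f * g) :=
  fun τ => by simp [hf τ, hg τ]

theorem mdiff_qParam_pow (h : ℝ) (m : ℕ) : MDiff (fun τ : ℍ => 𝕢 h τ ^ m) := by
  have h0 : Differentiable ℂ (fun z : ℂ => 𝕢 h z ^ m) := by
    unfold Periodic.qParam
    fun_prop
  exact UpperHalfPlane.mdifferentiable_iff.mpr (h0.differentiableOn.congr fun z hz => by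
    simp [ofComplex_apply_of_im_pos (show 0 < z.im from hz)])

theorem isBoundedAtImInfty_qParam_pow {h : ℝ} (hh : 0 < h) (m : ℕ) :
    IsBoundedAtImInfty (fun τ : ℍ => 𝕢 h τ ^ m) :=
  ((qParam_tendsto_atImInfty hh).pow m).isBigO_one ℝ

section

variable (M) [NeZero M]

theorem natCast_pos_real : (0 : ℝ) < (M : ℝ) := Nat.cast_pos.mpr (NeZero.pos M)

/-- The ring of functions holomorphic on `ℍ`, `M`-periodic, meromorphic at infinity. -/
def expFun : Subring (ℍ → ℂ) where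
  carrier := {f | MDiff f ∧ IsPer M f ∧
    ∃ m : ℕ, IsBoundedAtImInfty (fun τ => f τ * 𝕢 (M : ℝ) τ ^ m)}
  zero_mem' := ⟨mdifferentiable_const, fun _ => rfl, 0, by
    simpa using! Filter.const_boundedAtFilter atImInfty (0 : ℂ)⟩
  one_mem' := ⟨mdifferentiable_const, fun _ => rfl, 0, by
    simpa using! Filter.const_boundedAtFilter atImInfty (1 : ℂ)⟩
  add_mem' := by
    rintro f g ⟨hf, pf, m, bf⟩ ⟨hg, pg, n, bg⟩
    refine ⟨hf.add hg, pf.add pg, m + n, ?_⟩
    have e : (fun τ : ℍ => (f + g) τ * 𝕢 (M : ℝ) τ ^ (m + n)) =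
        (fun τ => f τ * 𝕢 (M : ℝ) τ ^ m) * (fun τ : ℍ => 𝕢 (M : ℝ) τ ^ n) +
        (fun τ => g τ * 𝕢 (M : ℝ) τ ^ n) * (fun τ : ℍ => 𝕢 (M : ℝ) τ ^ m) := by
      funext τ
      simp [pow_add]
      ring
    rw [e]
    exact (bf.mul (isBoundedAtImInfty_qParam_pow (natCast_pos_real M) n)).add
      (bg.mul (isBoundedAtImInfty_qParam_pow (natCast_pos_real M) m))
  mul_mem' := by
    rintro f g ⟨hf, pf, m, bf⟩ ⟨hg, pg, n, bg⟩
    refine ⟨hf.mul hg, pf.mul pg, m + n, ?_⟩
    have e : (fun τ : ℍ => (f * g) τ * 𝕢 (M : ℝ) τ ^ (m + n)) =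
        (fun τ => f τ * 𝕢 (M : ℝ) τ ^ m) * (fun τ => g τ * 𝕢 (M : ℝ) τ ^ n) := by
      funext τ
      simp [pow_add]
      ring
    rw [e]
    exact bf.mul bg
  neg_mem' := by
    rintro f ⟨hf, pf, m, bf⟩
    refine ⟨hf.neg, fun τ => by simp [pf τ], m, ?_⟩
    simpa [neg_mul] using! bf.neg

variable {M}

theorem expFun_mdiff (f : expFun M) : MDiff (f : ℍ → ℂ) := f.2.1

theorem expFun_per (f : expFun M) : IsPer M (f : ℍ → ℂ) := f.2.2.1

theorem exists_hasExp (f : expFun M) : ∃ s, HasExp M (f : ℍ → ℂ) s := by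
  obtain ⟨hf, pf, m, bf⟩ := f.2
  refine ⟨single (-(m : ℤ)) 1 * ofPowerSeries ℤ ℂ
    (qExpansion (M : ℝ) (fun τ => (f : ℍ → ℂ) τ * 𝕢 (M : ℝ) τ ^ m)), m,
    qExpansion (M : ℝ) (fun τ => (f : ℍ → ℂ) τ * 𝕢 (M : ℝ) τ ^ m), ?_, fun τ => ?_⟩
  · rw [← mul_assoc, single_mul_single, add_neg_cancel, mul_one, single_zero_one, one_mul]
  · simpa [smul_eq_mul, Pi.mul_def] using hasSum_qExpansion (natCast_pos_real M)
      ((pf.mul (isPer_qParam_pow m)).periodic) (hf.mul (mdiff_qParam_pow _ m)) bf τ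

theorem mem_expFun_of_hasExp {f : ℍ → ℂ} {s : LaurentSeries ℂ} (hf : MDiff f)
    (hs : HasExp M f s) : f ∈ expFun M := by
  obtain ⟨m, p, -, hp⟩ := hs
  refine ⟨hf, fun τ => ?_, m, hp.isBoundedAtImInfty (NeZero.pos M)⟩
  have h1 := hp ((M : ℝ) +ᵥ τ)
  simp only [qParam_natCast_vadd] at h1
  exact mul_right_cancel₀ (pow_ne_zero _ (Periodic.qParam_ne_zero _)) (h1.unique (hp τ))

theorem mem_expFun_iff_hasExp {f : ℍ → ℂ} :
    f ∈ expFun M ↔ MDiff f ∧ ∃ s, HasExp M f s :=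
  ⟨fun h => ⟨h.1, exists_hasExp ⟨f, h⟩⟩, fun ⟨h, _, hs⟩ => mem_expFun_of_hasExp h hs⟩

theorem const_mem_expFun (c : ℂ) : (fun _ : ℍ => c) ∈ expFun M :=
  mem_expFun_of_hasExp mdifferentiable_const (hasExp_const c)

variable (M)

/-- The Laurent expansion in `exp (2πiτ/M)`. -/
def expan : expFun M →+* LaurentSeries ℂ where
  toFun f := (exists_hasExp f).choose
  map_zero' := (exists_hasExp (0 : expFun M)).choose_spec.unique (NeZero.pos M) hasExp_zero
  map_one' := (exists_hasExp (1 : expFun M)).choose_spec.unique (NeZero.pos M) hasExp_one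
  map_add' f g := (exists_hasExp (f + g)).choose_spec.unique (NeZero.pos M)
    ((exists_hasExp f).choose_spec.add (exists_hasExp g).choose_spec)
  map_mul' f g := (exists_hasExp (f * g)).choose_spec.unique (NeZero.pos M)
    ((exists_hasExp f).choose_spec.mul (exists_hasExp g).choose_spec)

variable {M}

theorem hasExp_expan (f : expFun M) : HasExp M (f : ℍ → ℂ) (expan M f) :=
  (exists_hasExp f).choose_spec

theorem expan_eq {f : expFun M} {s : LaurentSeries ℂ} (hs : HasExp M (f : ℍ → ℂ) s) :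
    expan M f = s :=
  (hasExp_expan f).unique (NeZero.pos M) hs

theorem eq_zero_of_hasExp_zero {f : ℍ → ℂ} (hs : HasExp M f 0) : f = 0 := by
  obtain ⟨m, p, hp, hps⟩ := hs
  rw [mul_zero, map_eq_zero_iff _ ofPowerSeries_injective] at hp
  subst hp
  funext τ
  have h : f τ * 𝕢 (M : ℝ) τ ^ m = 0 := (hps τ).unique (by simpa using hasSum_zero)
  exact (mul_eq_zero.mp h).resolve_right (pow_ne_zero _ (Periodic.qParam_ne_zero _))

theorem expan_injective : Injective (expan M) := by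
  rw [injective_iff_map_eq_zero]
  exact fun f hf => Subtype.ext (eq_zero_of_hasExp_zero (hf ▸ hasExp_expan f))

instance : IsDomain (expFun M) := (expan_injective (M := M)).isDomain (expan M)

theorem tendsto_of_hasPSum {f : ℍ → ℂ} {p : PowerSeries ℂ} (hf : MDiff f) (hper : IsPer M f)
    (hp : HasPSum M f p) : Tendsto f atImInfty (𝓝 (PowerSeries.constantCoeff p)) := by
  have hbd := hp.isBoundedAtImInfty (NeZero.pos M)
  have hMp := natCast_pos_real M
  have han := UpperHalfPlane.analyticAt_cuspFunction_zero hMp hper.periodic hf hbd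
  have h2 : qExpansion (M : ℝ) f = p := HasPSum.unique (NeZero.pos M)
    (fun τ => by simpa [smul_eq_mul] using hasSum_qExpansion hMp hper.periodic hf hbd τ) hp
  have h3 := han.continuousAt.tendsto.comp (qParam_tendsto_atImInfty hMp)
  have h4 : (cuspFunction (M : ℝ) f ∘ fun τ : ℍ => 𝕢 (M : ℝ) τ) = f := by
    funext τ
    simpa using eq_cuspFunction τ hMp.ne' hper.periodic
  rw [h4, UpperHalfPlane.cuspFunction_apply_zero hMp han hper.periodic,
    ← UpperHalfPlane.qExpansion_coeff_zero hMp han hper.periodic, h2,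
    PowerSeries.coeff_zero_eq_constantCoeff_apply] at h3
  exact h3

/-- Multiplying by the right power of the parameter gives a non-zero limit at infinity. -/
theorem exists_tendsto_ne_zero (f : expFun M) (hf : f ≠ 0) :
    ∃ (a b : ℕ) (c : ℂ), c ≠ 0 ∧ ((a : ℤ) - b = (expan M f).order) ∧
      Tendsto (fun τ => (f : ℍ → ℂ) τ * 𝕢 (M : ℝ) τ ^ b / 𝕢 (M : ℝ) τ ^ a) atImInfty (𝓝 c) := by
  obtain ⟨m, p, hp, hps⟩ := hasExp_expan f
  have hp0 : p ≠ 0 := by
    intro h
    rw [h, map_zero] at hp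
    have := mul_eq_zero.mp hp.symm
    rcases this with h' | h'
    · exact single_ne_zero one_ne_zero h'
    · exact hf (expan_injective (h'.trans (map_zero _).symm))
  obtain ⟨a, p0, hp00, rfl⟩ : ∃ (a : ℕ) (p0 : PowerSeries ℂ),
      PowerSeries.constantCoeff p0 ≠ 0 ∧ PowerSeries.X ^ a * p0 = p := by
    obtain ⟨p0, hmul, hdiv⟩ :=
      (FiniteMultiplicity.exists_eq_pow_mul_and_not_dvd
        (FiniteMultiplicity.of_prime_left PowerSeries.X_prime hp0) : _)
    exact ⟨_, p0, fun h => hdiv (PowerSeries.X_dvd_iff.mpr h), hmul.symm⟩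
  refine ⟨a, m, PowerSeries.constantCoeff p0, hp00, ?_, ?_⟩
  · have hp' := congrArg HahnSeries.order hp
    have hp0' : p0 ≠ 0 := fun h => hp00 (by simp [h])
    have hof : ofPowerSeries ℤ ℂ p0 ≠ 0 := by
      simpa [map_eq_zero_iff _ ofPowerSeries_injective] using hp0'
    have hord0 : (ofPowerSeries ℤ ℂ p0).order = 0 := by
      refine le_antisymm (HahnSeries.order_le_of_coeff_ne_zero (by
        rw [show (0 : ℤ) = ((0 : ℕ) : ℤ) from rfl, ofPowerSeries_apply_coeff,
          PowerSeries.coeff_zero_eq_constantCoeff_apply]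
        exact hp00)) ?_
      by_contra! hlt
      exact (HahnSeries.coeff_order_eq_zero.not.mpr hof)
        (ModularCurve.ofPowerSeries_coeff_of_neg _ hlt)
    have hs0 : expan M f ≠ 0 := fun h => hf (expan_injective (h.trans (map_zero _).symm))
    rw [map_mul, ofPowerSeries_X_pow, HahnSeries.order_mul (single_ne_zero one_ne_zero) hof,
      HahnSeries.order_mul (single_ne_zero one_ne_zero) hs0, order_single one_ne_zero,
      order_single one_ne_zero, hord0, add_zero] at hp'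
    omega
  · have hq : ∀ τ : ℍ, 𝕢 (M : ℝ) τ ^ a ≠ 0 := fun τ => pow_ne_zero _ (Periodic.qParam_ne_zero _)
    refine tendsto_of_hasPSum (M := M) ?_ ?_ ?_
    · exact UpperHalfPlane.mdifferentiable_iff.mpr
        ((UpperHalfPlane.mdifferentiable_iff.mp ((expFun_mdiff f).mul (mdiff_qParam_pow _ m))).div
          (UpperHalfPlane.mdifferentiable_iff.mp (mdiff_qParam_pow (M : ℝ) a))
          (fun z _ => pow_ne_zero _ (Periodic.qParam_ne_zero _)))
    · intro τ
      simp only [qParam_natCast_vadd, expFun_per f τ]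
    · intro τ
      have h1 := (hps τ).div_const (𝕢 (M : ℝ) τ ^ a)
      rw [← (add_left_injective a).hasSum_iff (fun n hn => ?_)] at h1
      swap
      · rw [PowerSeries.coeff_X_pow_mul', if_neg, zero_mul, zero_div]
        exact fun hle => hn ⟨n - a, Nat.sub_add_cancel hle⟩
      refine h1.congr_fun fun n => ?_
      simp [comp_apply, PowerSeries.coeff_X_pow_mul', pow_add]
      field_simp [hq τ]

/-- A holomorphic quotient of two elements of `expFun` lies in `expFun`. -/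
theorem mem_expFun_of_mul_eq {f g : expFun M} {w : ℍ → ℂ} (hf : f ≠ 0) (hw : MDiff w)
    (hpw : IsPer M w) (h : (f : ℍ → ℂ) * w = g) : w ∈ expFun M := by
  obtain ⟨a, b, c, hc, -, ht⟩ := exists_tendsto_ne_zero f hf
  obtain ⟨-, -, m, bg⟩ := g.2
  refine ⟨hw, hpw, m + a, ?_⟩
  have hev : ∀ᶠ τ in atImInfty, (f : ℍ → ℂ) τ * 𝕢 (M : ℝ) τ ^ b / 𝕢 (M : ℝ) τ ^ a ≠ 0 :=
    ht.eventually_ne hc
  have hinv := (ht.inv₀ hc).isBigO_one ℝ
  have hb := (bg.mul (isBoundedAtImInfty_qParam_pow (natCast_pos_real M) b)).mul hinv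
  refine Asymptotics.IsBigO.congr' hb ?_ (by simp)
  filter_upwards [hev] with τ hτ
  have hgτ : (g : ℍ → ℂ) τ = (f : ℍ → ℂ) τ * w τ := (congrFun h τ).symm
  have hq : 𝕢 (M : ℝ) τ ≠ 0 := Periodic.qParam_ne_zero _
  have hf0 : (f : ℍ → ℂ) τ ≠ 0 := fun h0 => hτ (by simp [h0])
  simp only [Pi.mul_apply, hgτ, pow_add]
  field_simp

theorem inv_mem_expFun (f : expFun M) (h0 : ∀ τ, (f : ℍ → ℂ) τ ≠ 0) :
    (fun τ => ((f : ℍ → ℂ) τ)⁻¹) ∈ expFun M := by
  refine mem_expFun_of_mul_eq (f := f) (g := 1) (fun h => h0 UpperHalfPlane.I ?_) ?_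
    (fun τ => by simp only [expFun_per f τ]) (funext fun τ => mul_inv_cancel₀ (h0 τ))
  · rw [h]; rfl
  · exact UpperHalfPlane.mdifferentiable_iff.mpr
      ((UpperHalfPlane.mdifferentiable_iff.mp (expFun_mdiff f)).inv fun z _ => h0 _)

theorem expan_const (c : ℂ) : expan M ⟨_, const_mem_expFun c⟩ = single 0 c :=
  expan_eq (hasExp_const c)

end

end Fermat.Agent.DS.G1
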