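import Fermat.Agent.DS.G1.ParHom
import Fermat.Agent.DS.G1.Expansion
import Fermat.Agent.HK.Multiplier.Eisenstein
import Fermat.Agent.MF.KleinBasic
import Mathlib.Analysis.SpecialFunctions.Complex.CircleAddChar

/-!
A holomorphic function of weight zero on `ℍ` with a prescribed parabolic multiplier on `Γ₁(M)`:
`h = E_χ E₄² / Δ`.
-/

set_option autoImplicit false

noncomputable section

namespace Fermat.Agent.DS.G1

open UpperHalfPlane Filter Topology Matrix ModularForm EisensteinSeries Manifold CongruenceSubgroup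
open Fermat.Agent.HK.Multiplier
open Fermat.Agent.HK (IsNonHyperbolic)
open scoped MatrixGroups

variable {M l : ℕ} [NeZero M] [NeZero l] (χ : parHom M (ZMod l))

/-- The `μ_l`-valued character attached to `χ`. -/
def parChar (γ : Gamma1 M) : ℂ :=
  ZMod.stdAddChar ((χ : Additive (Gamma1 M) →+ ZMod l) (Additive.ofMul γ))

omit [NeZero M] in
theorem parChar_mul (γ δ : Gamma1 M) : parChar χ (γ * δ) = parChar χ γ * parChar χ δ := by
  simp only [parChar, ofMul_mul, map_add, AddChar.map_add_eq_mul]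

omit [NeZero M] in
theorem parChar_eq_one {γ : Gamma1 M} (h : IsNonHyperbolic (γ : SL(2, ℤ))) :
    parChar χ γ = 1 := by
  simp [parChar, mem_parHom.1 χ.2 γ h]

omit [NeZero M] in
theorem norm_parChar (γ : Gamma1 M) : ‖parChar χ γ‖ = 1 := by
  refine Complex.norm_eq_one_of_pow_eq_one (n := l) ?_ (NeZero.ne l)
  simp [parChar, ← AddChar.map_nsmul_eq_pow]

omit [NeZero M] in
theorem parChar_inv (γ : Gamma1 M) : parChar χ γ⁻¹ = (parChar χ γ)⁻¹ := by
  refine eq_inv_of_mul_eq_one_left ?_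
  rw [← parChar_mul, inv_mul_cancel]
  exact parChar_eq_one χ (by simp [IsNonHyperbolic])

/-- The bottom row. -/
def rowOf (γ : Gamma1 M) : Fin 2 → ℤ := ((γ : SL(2, ℤ)) : Matrix (Fin 2) (Fin 2) ℤ) 1

omit [NeZero M] in
theorem rowOf_mul (γ δ : Gamma1 M) :
    rowOf (γ * δ) = rowOf γ ᵥ* ((δ : SL(2, ℤ)) : Matrix (Fin 2) (Fin 2) ℤ) := rfl

omit [NeZero M] in
theorem rowOf_one : rowOf (1 : Gamma1 M) = ![0, 1] := by
  ext i; fin_cases i <;> simp [rowOf]

open scoped Classical in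
/-- The weight of a pair of integers. -/
def rowWeight (v : Fin 2 → ℤ) : ℂ :=
  if h : ∃ γ : Gamma1 M, rowOf γ = v then (parChar χ h.choose)⁻¹ else 0

omit [NeZero M] in
theorem rowWeight_rowOf (γ : Gamma1 M) : rowWeight χ (rowOf γ) = (parChar χ γ)⁻¹ := by
  have h : ∃ δ : Gamma1 M, rowOf δ = rowOf γ := ⟨γ, rfl⟩
  rw [rowWeight, dif_pos h]
  have e : rowOf (h.choose * γ⁻¹) = ![0, 1] := by
    rw [rowOf_mul, h.choose_spec, ← rowOf_mul, mul_inv_cancel, rowOf_one]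
  have h1 : parChar χ (h.choose * γ⁻¹) = 1 := by
    refine parChar_eq_one χ ?_
    have h0 : ((h.choose * γ⁻¹ : Gamma1 M) : SL(2, ℤ)) 1 0 = 0 := congr_fun e 0
    have h1 : ((h.choose * γ⁻¹ : Gamma1 M) : SL(2, ℤ)) 1 1 = 1 := congr_fun e 1
    have hdet := ((h.choose * γ⁻¹ : Gamma1 M) : SL(2, ℤ)).det_coe
    rw [det_fin_two, h0, h1, mul_one, mul_zero, sub_zero] at hdet
    rw [IsNonHyperbolic, trace_fin_two, hdet, h1]
    norm_num
  rw [parChar_mul, parChar_inv, mul_inv_eq_one₀] at h1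
  · rw [h1]
  · intro h0
    have := norm_parChar χ γ
    simp [h0] at this

omit [NeZero M] in
theorem norm_rowWeight_le (v : Fin 2 → ℤ) : ‖rowWeight χ v‖ ≤ 1 := by
  rw [rowWeight]
  split_ifs with h
  · rw [norm_inv, norm_parChar, inv_one]
  · simp

omit [NeZero M] in
theorem rowWeight_vecMul (γ : Gamma1 M) (v : Fin 2 → ℤ) :
    rowWeight χ (v ᵥ* ((γ : SL(2, ℤ)) : Matrix (Fin 2) (Fin 2) ℤ)) =
      (parChar χ γ)⁻¹ * rowWeight χ v := by
  by_cases h : ∃ δ : Gamma1 M, rowOf δ = v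
  · obtain ⟨δ, rfl⟩ := h
    rw [← rowOf_mul, rowWeight_rowOf, rowWeight_rowOf, parChar_mul, mul_inv, mul_comm]
  · rw [rowWeight, dif_neg, rowWeight, dif_neg h, mul_zero]
    rintro ⟨δ, hδ⟩
    refine h ⟨δ * γ⁻¹, ?_⟩
    rw [rowOf_mul, hδ]
    exact vecMul_vecMul_inv _ _

omit [NeZero M] in
theorem conj_T_zpow_mem_Gamma1 (A : SL(2, ℤ)) :
    A * ModularGroup.T ^ (M : ℤ) * A⁻¹ ∈ Gamma1 M := by
  have h : A * ModularGroup.T ^ (M : ℤ) * A⁻¹ ∈ Gamma M :=
    (Gamma_normal M).conj_mem _ (ModularGroup_T_pow_mem_Gamma M M dvd_rfl) A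
  rw [Gamma_mem] at h
  exact (Gamma1_mem M _).2 ⟨h.1, h.2.2.2, h.2.2.1⟩

/-- The element `A T^M A⁻¹` of `Γ₁(M)`. -/
def conjTM (A : SL(2, ℤ)) : Gamma1 M :=
  ⟨A * ModularGroup.T ^ (M : ℤ) * A⁻¹, conj_T_zpow_mem_Gamma1 A⟩

omit [NeZero M] in
theorem coe_conjTM (A : SL(2, ℤ)) :
    ((conjTM A : Gamma1 M) : SL(2, ℤ)) = A * ModularGroup.T ^ (M : ℤ) * A⁻¹ := rfl

omit [NeZero M] in
theorem parChar_conjTM (A : SL(2, ℤ)) : parChar χ (conjTM A) = 1 :=
  parChar_eq_one χ (γ := conjTM A) (by rw [coe_conjTM]; exact isNonHyperbolic_conj_T_zpow A (M : ℤ))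

omit [NeZero M] in
theorem rowWeight_periodic (A : SL(2, ℤ)) (v : Fin 2 → ℤ) :
    rowWeight χ ((v ᵥ* ((ModularGroup.T ^ (M : ℤ) : SL(2, ℤ)) : Matrix (Fin 2) (Fin 2) ℤ)) ᵥ*
        ((A⁻¹ : SL(2, ℤ)) : Matrix (Fin 2) (Fin 2) ℤ)) =
      rowWeight χ (v ᵥ* ((A⁻¹ : SL(2, ℤ)) : Matrix (Fin 2) (Fin 2) ℤ)) := by
  have := rowWeight_vecMul χ (conjTM A)
    (v ᵥ* ((A⁻¹ : SL(2, ℤ)) : Matrix (Fin 2) (Fin 2) ℤ))
  rw [parChar_conjTM, coe_conjTM, inv_one, one_mul] at this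
  rw [← this]
  congr 1
  simp only [Matrix.SpecialLinearGroup.coe_mul, ← vecMul_vecMul, vecMul_inv_vecMul]

/-- The weight four Eisenstein series with multiplier `χ`. -/
def rowSeries : ℍ → ℂ := wSeries (rowWeight χ) 4

omit [NeZero M] in
theorem rowSeries_mdiff : MDiff (rowSeries χ) :=
  wSeries_mdifferentiable (norm_rowWeight_le χ) (by norm_num)

omit [NeZero M] in
theorem rowSeries_smul (γ : Gamma1 M) (z : ℍ) :
    rowSeries χ ((γ : SL(2, ℤ)) • z) =
      parChar χ γ * denom (γ : SL(2, ℤ)) z ^ (4 : ℤ) * rowSeries χ z := by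
  have h : ∀ v, rowWeight χ (v ᵥ* (((γ : SL(2, ℤ))⁻¹ : SL(2, ℤ)) : Matrix (Fin 2) (Fin 2) ℤ))
      = parChar χ γ * rowWeight χ v := fun v => by
    have := rowWeight_vecMul χ γ⁻¹ v
    rwa [parChar_inv, inv_inv] at this
  simp only [rowSeries, wSeries_smul]
  simp only [wSeries, h, mul_assoc, tsum_mul_left]
  ring

theorem rowSeries_slash_bdd (A : SL(2, ℤ)) :
    IsBoundedAtImInfty (rowSeries χ ∣[(4 : ℤ)] A) := by
  rw [rowSeries, wSeries_slash]
  exact wSeries_isBoundedAtImInfty (fun v => norm_rowWeight_le χ _) (by norm_num) (NeZero.pos M)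
    (rowWeight_periodic χ A)

theorem rowSeries_tendsto (h3 : 3 ≤ M) : Tendsto (rowSeries χ) atImInfty (𝓝 1) := by
  have hper : ∀ v, rowWeight χ (v ᵥ* ((ModularGroup.T ^ (M : ℤ) : SL(2, ℤ)) :
      Matrix (Fin 2) (Fin 2) ℤ)) = rowWeight χ v := fun v => by
    simpa using rowWeight_periodic χ 1 v
  have h := wSeries_tendsto_atImInfty (norm_rowWeight_le χ) (k := 4) (by norm_num) (NeZero.pos M)
    hper
  suffices e : ∑' v, wConst (rowWeight χ) 4 v = 1 by rwa [e] at h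
  rw [tsum_eq_single ![0, 1]]
  · have : rowWeight χ ![0, 1] = 1 := by
      rw [← rowOf_one (M := M), rowWeight_rowOf, parChar_eq_one χ (by simp [IsNonHyperbolic]),
        inv_one]
    simp [wConst, this]
  intro v hv
  rw [wConst]
  split_ifs with h0
  · by_cases h : ∃ γ : Gamma1 M, rowOf γ = v
    · obtain ⟨γ, rfl⟩ := h
      exfalso
      apply hv
      have h00 : (γ : SL(2, ℤ)) 1 0 = 0 := h0
      have hdet := (γ : SL(2, ℤ)).det_coe
      rw [det_fin_two, h00, mul_zero, sub_zero] at hdet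
      rcases Int.eq_one_or_neg_one_of_mul_eq_one' hdet with ⟨-, hd⟩ | ⟨-, hd⟩
      · ext i; fin_cases i <;> simp [rowOf, h00, hd]
      · exfalso
        have h11 := ((Gamma1_mem M γ).1 γ.2).2.1
        have h' := congrArg (fun x : ℤ => (x : ZMod M)) hd
        simp only [h11, Int.cast_neg, Int.cast_one] at h'
        have h2 : ((2 : ℕ) : ZMod M) = 0 := by
          push_cast
          linear_combination h'
        rw [ZMod.natCast_eq_zero_iff] at h2
        have := Nat.le_of_dvd (by norm_num) h2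
        omega
    · rw [rowWeight, dif_neg h, zero_mul]
  · rfl

/-- `h = E_χ E₄² / Δ`. -/
def multFun : ℍ → ℂ := fun τ => rowSeries χ τ * E₄ τ ^ 2 / ModularForm.discriminant τ

omit [NeZero M] in
theorem multFun_smul_SL (A : SL(2, ℤ)) (τ : ℍ) :
    multFun χ (A • τ) =
      (rowSeries χ ∣[(4 : ℤ)] A) τ * E₄ τ ^ 2 / ModularForm.discriminant τ := by
  have hE : E₄ (A • τ) = denom A τ ^ (4 : ℤ) * E₄ τ :=
    SlashInvariantForm.slash_action_eqn'' E₄ (Γ := 𝒮ℒ) (MonoidHom.mem_range.mpr ⟨A, rfl⟩) τ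
  have hD : ModularForm.discriminant (A • τ) = denom A τ ^ (12 : ℤ) * ModularForm.discriminant τ :=
    SlashInvariantForm.slash_action_eqn'' CuspForm.discriminant (Γ := 𝒮ℒ)
      (MonoidHom.mem_range.mpr ⟨A, rfl⟩) τ
  rw [multFun, hE, hD, ModularForm.SL_slash_apply]
  have hd := denom_ne_zero (A : GL (Fin 2) ℝ) τ
  have hΔ := ModularForm.discriminant_ne_zero τ
  field_simp

omit [NeZero M] in
theorem multFun_smul (γ : Gamma1 M) (τ : ℍ) :
    multFun χ ((γ : SL(2, ℤ)) • τ) = parChar χ γ * multFun χ τ := by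
  rw [multFun_smul_SL, ModularForm.SL_slash_apply, rowSeries_smul, multFun]
  have hd := denom_ne_zero ((γ : SL(2, ℤ)) : GL (Fin 2) ℝ) τ
  field_simp

omit [NeZero M] in
theorem multFun_mdiff : MDiff (multFun χ) := by
  have h1 : MDiff (fun τ : ℍ => rowSeries χ τ * E₄ τ ^ 2) :=
    (rowSeries_mdiff χ).mul ((ModularFormClass.holo E₄).pow 2)
  have h2 : MDiff (fun τ : ℍ => ModularForm.discriminant τ) := MF.discriminant_mdifferentiable
  rw [UpperHalfPlane.mdifferentiable_iff] at h1 h2 ⊢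
  exact h1.fun_div h2 fun z _ => ModularForm.discriminant_ne_zero _

theorem multFun_comp_mem (A : SL(2, ℤ)) : (fun τ => multFun χ (A • τ)) ∈ expFun M := by
  refine ⟨?_, fun τ => ?_, M, ?_⟩
  · have : MDiff ((fun τ => multFun χ τ) ∘ fun τ : ℍ => A • τ) :=
      (multFun_mdiff χ).comp (UpperHalfPlane.mdifferentiable_smul (by simp) : MDiff fun τ : ℍ => A • τ)
    exact this
  · have hT : (M : ℝ) +ᵥ τ = (ModularGroup.T ^ (M : ℤ)) • τ := by
      rw [modular_T_zpow_smul]; simp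
    show multFun χ (A • ((M : ℝ) +ᵥ τ)) = multFun χ (A • τ)
    rw [hT, ← mul_smul,
      show A * ModularGroup.T ^ (M : ℤ) = A * ModularGroup.T ^ (M : ℤ) * A⁻¹ * A by group, mul_smul]
    rw [← coe_conjTM (M := M), multFun_smul, parChar_conjTM, one_mul]
  · have hq : ∀ τ : ℍ, Function.Periodic.qParam (M : ℝ) (τ : ℂ) ^ M =
        Function.Periodic.qParam 1 (τ : ℂ) := fun τ => by
      simp only [Function.Periodic.qParam, ← Complex.exp_nat_mul]
      congr 1
      have : (M : ℂ) ≠ 0 := Nat.cast_ne_zero.2 (NeZero.ne M)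
      push_cast
      field_simp
    have hb := (rowSeries_slash_bdd χ A).mul
      (((Fermat.Agent.MF.tendsto_E₄_atImInfty.pow 2).div tendsto_atImInfty_tprod_one_sub_eta_q_pow
        one_ne_zero).isBigO_one ℝ)
    refine hb.congr' (Eventually.of_forall fun τ => ?_) .rfl
    have hq' : Function.Periodic.qParam 1 (τ : ℂ) ≠ 0 := Complex.exp_ne_zero _
    simp only [Pi.mul_apply, Pi.div_apply, multFun_smul_SL, hq, discriminant_eq_q_prod]
    field_simp

theorem multFun_ne_zero (h3 : 3 ≤ M) : multFun χ ≠ 0 := by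
  intro h
  have ht := (rowSeries_tendsto χ h3).mul (Fermat.Agent.MF.tendsto_E₄_atImInfty.pow 2)
  have h0 : ∀ τ : ℍ, rowSeries χ τ * E₄ τ ^ 2 = 0 := fun τ =>
    (div_eq_zero_iff.1 (congrFun h τ)).resolve_right (ModularForm.discriminant_ne_zero τ)
  simp only [h0, one_pow, mul_one] at ht
  exact zero_ne_one (tendsto_nhds_unique tendsto_const_nhds ht)

/-- Every class is realised by a holomorphic function meromorphic at all cusps. -/
theorem exists_multiplierFun (h3 : 3 ≤ M) :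
    ∃ h : ℍ → ℂ, MDiff h ∧ h ≠ 0 ∧
      (∀ (γ : Gamma1 M) (τ : ℍ), h ((γ : SL(2, ℤ)) • τ) =
        ZMod.stdAddChar ((χ : Additive (Gamma1 M) →+ ZMod l) (Additive.ofMul γ)) * h τ) ∧
      ∀ A : SL(2, ℤ), ∃ s, Igusa.HasExp M (fun τ => h (A • τ)) s :=
  ⟨multFun χ, multFun_mdiff χ, multFun_ne_zero χ h3, multFun_smul χ,
    fun A => exists_hasExp ⟨_, multFun_comp_mem χ A⟩⟩

end Fermat.Agent.DS.G1
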