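import Fermat.Agent.MF.ParHom.General
import Fermat.Agent.HK.Defs
import Mathlib.LinearAlgebra.TensorProduct.Pi
import Mathlib.LinearAlgebra.TensorProduct.Tower
import Mathlib.Algebra.Algebra.ZMod
import Mathlib.NumberTheory.ModularForms.CongruenceSubgroups

/-!
Homomorphisms on `Γ₁(M)` killing all elements with `trace² ≤ 4`.
-/

set_option autoImplicit false

noncomputable section

namespace Fermat.Agent.DS.G1

open CongruenceSubgroup
open Fermat.Agent.MF.ParHom
open Fermat.Agent.HK (IsNonHyperbolic)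
open scoped MatrixGroups TensorProduct

variable (M : ℕ) (A : Type*) [AddCommGroup A]

/-- Homomorphisms on `Γ₁(M)` killing every element with `trace² ≤ 4`, as a submodule. -/
def parHomSub (R : Type*) [Semiring R] [Module R A] : Submodule R (Additive (Gamma1 M) →+ A) where
  carrier := {φ | ∀ γ : Gamma1 M, IsNonHyperbolic (γ : SL(2, ℤ)) → φ (Additive.ofMul γ) = 0}
  zero_mem' := fun _ _ => rfl
  add_mem' := by
    intro φ ψ hφ hψ γ hγ
    show φ (Additive.ofMul γ) + ψ (Additive.ofMul γ) = 0
    rw [hφ γ hγ, hψ γ hγ, add_zero]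
  smul_mem' := by
    intro c φ hφ γ hγ
    show c • φ (Additive.ofMul γ) = 0
    rw [hφ γ hγ, smul_zero]

/-- Homomorphisms on `Γ₁(M)` killing every element with `trace² ≤ 4`. -/
def parHom : AddSubgroup (Additive (Gamma1 M) →+ A) := (parHomSub M A ℤ).toAddSubgroup

variable {M A}

theorem mem_parHom {φ : Additive (Gamma1 M) →+ A} :
    φ ∈ parHom M A ↔
      ∀ γ : Gamma1 M, IsNonHyperbolic (γ : SL(2, ℤ)) → φ (Additive.ofMul γ) = 0 :=
  Iff.rfl

instance parHomModule (R : Type*) [Semiring R] [Module R A] : Module R (parHom M A) where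
  smul c φ := ⟨c • (φ : Additive (Gamma1 M) →+ A), (parHomSub M A R).smul_mem c φ.2⟩
  one_smul φ := Subtype.ext (one_smul R (φ : Additive (Gamma1 M) →+ A))
  mul_smul c d φ := Subtype.ext (mul_smul c d (φ : Additive (Gamma1 M) →+ A))
  smul_zero c := Subtype.ext (smul_zero c)
  smul_add c φ ψ := Subtype.ext
    (smul_add c (φ : Additive (Gamma1 M) →+ A) (ψ : Additive (Gamma1 M) →+ A))
  add_smul c d φ := Subtype.ext (add_smul c d (φ : Additive (Gamma1 M) →+ A))
  zero_smul φ := Subtype.ext (zero_smul R (φ : Additive (Gamma1 M) →+ A))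

theorem parHom_smul_apply {R : Type*} [Semiring R] [Module R A] (c : R) (φ : parHom M A) (γ : Additive (Gamma1 M)) :
    ((c • φ : parHom M A) : Additive (Gamma1 M) →+ A) γ =
      c • (φ : Additive (Gamma1 M) →+ A) γ := rfl

variable {B : Type*} [AddCommGroup B]

/-- Functoriality in the coefficients. -/
def parHomMap (h : A →+ B) : parHom M A →+ parHom M B where
  toFun φ := ⟨h.comp (φ : Additive (Gamma1 M) →+ A), mem_parHom.2 fun γ hγ => by
    rw [AddMonoidHom.comp_apply, mem_parHom.1 φ.2 γ hγ, map_zero]⟩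
  map_zero' := Subtype.ext (by ext; simp)
  map_add' φ ψ := Subtype.ext (by ext; simp)

@[simp] theorem parHomMap_apply (h : A →+ B) (φ : parHom M A) (γ : Additive (Gamma1 M)) :
    (parHomMap h φ : Additive (Gamma1 M) →+ B) γ = h ((φ : Additive (Gamma1 M) →+ A) γ) := rfl

variable (M)

/-- `±Γ₁(M)`. -/
def pmGamma : Subgroup SL(2, ℤ) where
  carrier := {g | g ∈ Gamma1 M ∨ -g ∈ Gamma1 M}
  one_mem' := Or.inl (one_mem _)
  mul_mem' := by
    rintro a b (ha | ha) (hb | hb)
    · exact Or.inl (mul_mem ha hb)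
    · exact Or.inr (by simpa using mul_mem ha hb)
    · exact Or.inr (by simpa using mul_mem ha hb)
    · exact Or.inl (by simpa using mul_mem ha hb)
  inv_mem' := by
    rintro a (ha | ha)
    · exact Or.inl (inv_mem ha)
    · refine Or.inr ?_
      have h : (-a)⁻¹ = -a⁻¹ := by
        apply inv_eq_of_mul_eq_one_right
        simp
      simpa [h] using inv_mem ha

theorem neg_one_mem_pmGamma : -1 ∈ pmGamma M := Or.inr (by simp)

instance pmGamma_finiteIndex [NeZero M] : (pmGamma M).FiniteIndex :=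
  Subgroup.finiteIndex_of_le (H := Gamma1 M) fun _ hg => Or.inl hg

open scoped Classical in
/-- The element of `Γ₁(M)` equal to `g` up to sign. -/
def signRep (g : pmGamma M) : Gamma1 M :=
  if h : (g : SL(2, ℤ)) ∈ Gamma1 M then ⟨g, h⟩ else ⟨-g, g.2.resolve_left h⟩

theorem signRep_eq (g : pmGamma M) :
    (signRep M g : SL(2, ℤ)) = g ∨ (signRep M g : SL(2, ℤ)) = -g := by
  classical
  unfold signRep
  split_ifs with h
  · exact Or.inl rfl
  · exact Or.inr rfl

theorem parHom_eq_of_eq_or_neg (φ : parHom M A) {γ δ : Gamma1 M}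
    (h : (γ : SL(2, ℤ)) = δ ∨ (γ : SL(2, ℤ)) = -δ) :
    (φ : Additive (Gamma1 M) →+ A) (Additive.ofMul γ) =
      (φ : Additive (Gamma1 M) →+ A) (Additive.ofMul δ) := by
  rcases h with h | h
  · rw [Subtype.ext h]
  · have hz : (φ : Additive (Gamma1 M) →+ A) (Additive.ofMul (γ * δ⁻¹)) = 0 := by
      refine mem_parHom.1 φ.2 _ ?_
      have : ((γ * δ⁻¹ : Gamma1 M) : SL(2, ℤ)) = -1 := by simp [h]
      rw [IsNonHyperbolic, this]
      simp
    rw [ofMul_mul, map_add, ofMul_inv, map_neg, add_neg_eq_zero] at hz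
    exact hz

/-- Extension to `±Γ₁(M)`. -/
def extendPm (φ : parHom M A) : Additive (pmGamma M) →+ A :=
  AddMonoidHom.mk' (fun g => (φ : Additive (Gamma1 M) →+ A)
    (Additive.ofMul (signRep M (Additive.toMul g)))) fun g h => by
      rw [← map_add, ← ofMul_mul]
      refine parHom_eq_of_eq_or_neg M φ ?_
      rcases signRep_eq M (Additive.toMul g) with e | e <;>
        rcases signRep_eq M (Additive.toMul h) with e' | e' <;>
        rcases signRep_eq M (Additive.toMul (g + h)) with e'' | e'' <;>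
        simp only [Subgroup.coe_mul, e, e', toMul_add] at * <;> simp [e'']

theorem extendPm_eq_zero (φ : parHom M A) (g : pmGamma M)
    (hg : ((g : SL(2, ℤ)) : Matrix (Fin 2) (Fin 2) ℤ).trace ^ 2 ≤ 4) :
    extendPm M φ (Additive.ofMul g) = 0 := by
  refine mem_parHom.1 φ.2 (signRep M g) ?_
  rcases signRep_eq M g with e | e <;> rw [IsNonHyperbolic, e] <;>
    simpa [Matrix.trace_neg] using hg

variable [NeZero M]

/-- The rank of `parHom M ℤ`. -/
def parHomRank : ℕ := genRank (neg_one_mem_pmGamma M)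

/-- Elements of `Γ₁(M)` dual to a basis of `parHom M ℤ`. -/
def parHomGen (i : Fin (parHomRank M)) : Gamma1 M :=
  signRep M (genGen (neg_one_mem_pmGamma M) i)

/-- The universal homomorphism `Γ₁(M) → ℤ^r`. -/
def parHomPi : Additive (Gamma1 M) →+ (Fin (parHomRank M) → ℤ) :=
  (genPi (neg_one_mem_pmGamma M)).comp
    (MonoidHom.toAdditive (Subgroup.inclusion (fun _ hg => Or.inl hg : Gamma1 M ≤ pmGamma M)))

theorem parHomPi_mem : parHomPi M ∈ parHom M (Fin (parHomRank M) → ℤ) :=
  mem_parHom.2 fun _ hγ =>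
    trace_sq_le_eq_zero_of_mem (genPi_mem (neg_one_mem_pmGamma M)) _ hγ

theorem parHom_eq_sum (φ : parHom M A) (δ : Additive (Gamma1 M)) :
    (φ : Additive (Gamma1 M) →+ A) δ =
      ∑ i, parHomPi M δ i •
        (φ : Additive (Gamma1 M) →+ A) (Additive.ofMul (parHomGen M i)) := by
  set g : pmGamma M := ⟨(Additive.toMul δ : Gamma1 M), Or.inl (Additive.toMul δ).2⟩
  have h := eq_sum_genPi (neg_one_mem_pmGamma M) (extendPm M φ) (extendPm_eq_zero M φ)
    (Additive.ofMul g)
  have e : extendPm M φ (Additive.ofMul g) = (φ : Additive (Gamma1 M) →+ A) δ :=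
    parHom_eq_of_eq_or_neg M φ (δ := Additive.toMul δ) (signRep_eq M g)
  rw [← e, h]
  rfl

theorem parHomPi_gen (i : Fin (parHomRank M)) :
    parHomPi M (Additive.ofMul (parHomGen M i)) = Pi.single i 1 := by
  refine Eq.trans ?_ (genPi_genGen (neg_one_mem_pmGamma M) i)
  rcases signRep_eq M (genGen (neg_one_mem_pmGamma M) i) with e | e
  · exact congrArg (fun x => genPi (neg_one_mem_pmGamma M) (Additive.ofMul x)) (Subtype.ext e)
  · have hval : (⟨(parHomGen M i : SL(2, ℤ)), Or.inl (parHomGen M i).2⟩ : pmGamma M) =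
        ⟨-1, neg_one_mem_pmGamma M⟩ * genGen (neg_one_mem_pmGamma M) i :=
      Subtype.ext (by simpa [parHomGen] using e)
    show genPi (neg_one_mem_pmGamma M) (Additive.ofMul
      (⟨(parHomGen M i : SL(2, ℤ)), Or.inl (parHomGen M i).2⟩ : pmGamma M)) = _
    rw [hval, ofMul_mul, map_add,
      trace_sq_le_eq_zero_of_mem (genPi_mem (neg_one_mem_pmGamma M)) ⟨-1, neg_one_mem_pmGamma M⟩
        (by simp), zero_add]

variable (A) in
/-- Evaluation at `parHomGen`: natural in `A`. -/
def parHomEquiv : parHom M A ≃+ (Fin (parHomRank M) → A) where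
  toFun φ i := (φ : Additive (Gamma1 M) →+ A) (Additive.ofMul (parHomGen M i))
  invFun v := ⟨AddMonoidHom.mk' (fun δ => ∑ i, parHomPi M δ i • v i)
      fun a b => by simp [add_smul, Finset.sum_add_distrib],
    mem_parHom.2 fun γ hγ => by simp [mem_parHom.1 (parHomPi_mem M) γ hγ]⟩
  left_inv φ := Subtype.ext (AddMonoidHom.ext fun δ => (parHom_eq_sum M φ δ).symm)
  right_inv v := by
    ext i
    simp [parHomPi_gen, Pi.single_apply, ite_smul]
  map_add' _ _ := rfl

theorem parHomEquiv_apply (φ : parHom M A) (i : Fin (parHomRank M)) :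
    parHomEquiv M A φ i = (φ : Additive (Gamma1 M) →+ A) (Additive.ofMul (parHomGen M i)) := rfl

theorem parHomEquiv_map (h : A →+ B) (φ : parHom M A) :
    parHomEquiv M B (parHomMap h φ) = fun i => h (parHomEquiv M A φ i) := rfl

instance finite_parHom [Finite A] : Finite (parHom M A) :=
  Finite.of_equiv _ (parHomEquiv M A).symm.toEquiv

variable (A) in
/-- `parHomEquiv` is linear. -/
def parHomLinEquiv (R : Type*) [Semiring R] [Module R A] :
    parHom M A ≃ₗ[R] (Fin (parHomRank M) → A) :=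
  { parHomEquiv M A with map_smul' := fun _ _ => rfl }

section BaseChange

variable (l : ℕ) (k : Type*) [CommRing k] [Algebra (ZMod l) k]

/-- `k ⊗ parHom M (ZMod l) ≅ parHom M k`. -/
def parHomBaseChange : k ⊗[ZMod l] parHom M (ZMod l) ≃ₗ[k] parHom M k :=
  (TensorProduct.AlgebraTensorModule.congr (LinearEquiv.refl k k)
      (parHomLinEquiv M (ZMod l) (ZMod l))).trans
    ((TensorProduct.piScalarRight (ZMod l) k k (Fin (parHomRank M))).trans
      (parHomLinEquiv M k k).symm)

theorem parHomBaseChange_tmul (c : k) (φ : parHom M (ZMod l)) :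
    parHomBaseChange M l k (c ⊗ₜ[ZMod l] φ) =
      c • parHomMap (algebraMap (ZMod l) k).toAddMonoidHom φ := by
  apply (parHomLinEquiv M k k).injective
  rw [map_smul]
  rw [parHomBaseChange, LinearEquiv.trans_apply, LinearEquiv.trans_apply,
    LinearEquiv.apply_symm_apply]
  ext i
  simp [Algebra.smul_def, mul_comm]
  rfl

theorem parHomBaseChange_bijective :
    Function.Bijective (parHomBaseChange M l k) := (parHomBaseChange M l k).bijective

end BaseChange

end Fermat.Agent.DS.G1
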