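import Fermat.Agent.DS.G1.Fam
import Mathlib.NumberTheory.ModularForms.LevelOne.Basic

/-!
# Level one families are polynomials in `j`
-/

set_option autoImplicit false

noncomputable section

open UpperHalfPlane Function
open scoped MatrixGroups Manifold Polynomial ModularForm

namespace Fermat.Agent.DS.G1

open Fermat.Agent.Igusa ModularCurve

local notation "𝕢" => Periodic.qParam

variable (N : ℕ) [NeZero N]

/-- The series of `j` in `exp (2πiτ/N)`. -/
def jS : LaurentSeries ℂ := qExpand ℂ N (jqModC ℂ)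

/-- Evaluation of a polynomial at the series of `j`. -/
def evJS : ℂ[X] →+* LaurentSeries ℂ := Polynomial.eval₂RingHom HahnSeries.C (jS N)

variable {N}

theorem jS_mem (S : Subring ℂ) : jS N ∈ serIn S :=
  ⟨qExpand S N (jqModC S), by rw [coeffMap_qExpand, ModularCurve.coeffMap_jqModC]; rfl⟩

theorem C_mem_serIn {S : Subring ℂ} {c : ℂ} (h : c ∈ S) :
    (HahnSeries.C c : LaurentSeries ℂ) ∈ serIn S :=
  ⟨HahnSeries.C ⟨c, h⟩, by simp [HahnSeries.C_apply]⟩

theorem evJS_mem {S : Subring ℂ} {P : ℂ[X]} (h : ∀ k, P.coeff k ∈ S) : evJS N P ∈ serIn S := by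
  rw [evJS, Polynomial.coe_eval₂RingHom, Polynomial.eval₂_eq_sum]
  exact sum_mem fun k _ => mul_mem (C_mem_serIn (h k)) (pow_mem (jS_mem S) k)

theorem hasLead_jS_pow (k : ℕ) : HasLead (jS N ^ k) (-((N : ℤ) * k)) 1 := by
  have h := hasLead_prod (Finset.range k) (s := fun _ => jS N)
    fun _ _ => (hasLead_jqModC ℂ).qExpand N
  simpa [Finset.prod_const, mul_comm] using h

theorem evJS_monomial (c : ℂ) (k : ℕ) :
    evJS N (Polynomial.C c * Polynomial.X ^ k) = HahnSeries.C c * jS N ^ k := by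
  simp [evJS]

theorem coeff_evJS_of_lt {P : ℂ[X]} {d : ℕ} (hP : P.natDegree ≤ d) {n : ℤ}
    (hn : n < -((N : ℤ) * d)) : (evJS N P).coeff n = 0 := by
  rw [evJS, Polynomial.coe_eval₂RingHom, Polynomial.eval₂_eq_sum, Polynomial.sum_def,
    HahnSeries.coeff_sum]
  refine Finset.sum_eq_zero fun k hk => ?_
  have hk' : k ≤ d := (Polynomial.le_natDegree_of_mem_supp k hk).trans hP
  rw [HahnSeries.C_mul_eq_smul, HahnSeries.coeff_smul,
    (hasLead_jS_pow k).coeff_of_lt (hn.trans_le (by gcongr)), smul_zero]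

theorem coeff_evJS_top {P : ℂ[X]} {d : ℕ} (hP : P.natDegree ≤ d) :
    (evJS N P).coeff (-((N : ℤ) * d)) = P.coeff d := by
  rw [evJS, Polynomial.coe_eval₂RingHom,
    Polynomial.eval₂_eq_sum_range' _ (Nat.lt_succ_of_le hP), HahnSeries.coeff_sum,
    Finset.sum_range_succ, Finset.sum_eq_zero fun k hk => ?_, zero_add,
    HahnSeries.C_mul_eq_smul, HahnSeries.coeff_smul, (hasLead_jS_pow d).coeff_eq, smul_eq_mul,
    mul_one]
  have hk' := Finset.mem_range.mp hk
  rw [HahnSeries.C_mul_eq_smul, HahnSeries.coeff_smul,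
    (hasLead_jS_pow k).coeff_of_lt (by
      have : (0 : ℤ) < N := Int.natCast_pos.mpr (NeZero.pos N)
      nlinarith [show (k : ℤ) + 1 ≤ d by omega]), smul_zero]

theorem evJS_injective : Injective (evJS N) := by
  rw [injective_iff_map_eq_zero]
  intro P hP
  by_contra h
  have h1 := coeff_evJS_top (N := N) (le_refl P.natDegree)
  rw [hP, HahnSeries.coeff_zero] at h1
  exact Polynomial.leadingCoeff_ne_zero.mpr h h1.symm

/-- Elimination of the coefficients at `0, -N, …, -(D-1)N`. -/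
theorem exists_eliminate {S : Subring ℂ} (D : ℕ) {s : LaurentSeries ℂ} (hs : s ∈ serIn S)
    (h0 : ∀ n : ℤ, n ≤ -((N : ℤ) * D) → s.coeff n = 0) :
    ∃ P : ℂ[X], (∀ k, P.coeff k ∈ S) ∧
      (∀ k < D, (s - evJS N P).coeff (-((N : ℤ) * k)) = 0) ∧
      ∀ n : ℤ, n ≤ -((N : ℤ) * D) → (s - evJS N P).coeff n = 0 := by
  induction D generalizing s with
  | zero => exact ⟨0, by simp, by simp, by simpa using h0⟩
  | succ D ih =>
    have hN : (0 : ℤ) < N := Int.natCast_pos.mpr (NeZero.pos N)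
    set c := s.coeff (-((N : ℤ) * D)) with hc
    have hcS : c ∈ S := mem_serIn.mp hs _
    have hmonS : ∀ k, (Polynomial.C c * Polynomial.X ^ D).coeff k ∈ S := fun k => by
      rw [Polynomial.coeff_C_mul_X_pow]; split_ifs <;> simp [hcS]
    set s1 := s - evJS N (Polynomial.C c * Polynomial.X ^ D) with hs1
    -- the new series vanishes up to `-N D` except possibly in between the multiples
    have hlow : ∀ n : ℤ, n ≤ -((N : ℤ) * (D + 1 : ℕ)) → s1.coeff n = 0 := fun n hn => by
      rw [hs1, HahnSeries.coeff_sub, h0 n hn,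
        coeff_evJS_of_lt (Polynomial.natDegree_C_mul_X_pow_le c D) (by push_cast at hn ⊢; linarith),
        sub_zero]
    have htop : s1.coeff (-((N : ℤ) * D)) = 0 := by
      rw [hs1, HahnSeries.coeff_sub, coeff_evJS_top (Polynomial.natDegree_C_mul_X_pow_le c D),
        Polynomial.coeff_C_mul_X_pow, if_pos rfl, sub_self]
    -- remove the coefficients below `-N D` to apply the induction hypothesis
    let t : LaurentSeries ℂ :=
      ⟨fun n => if n ≤ -((N : ℤ) * D) then 0 else s1.coeff n,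
        s1.isPWO_support.mono fun n hn => by
          simp only [Function.mem_support, ne_eq] at hn ⊢
          exact fun h => hn (by rw [h]; exact ite_self _)⟩
    have ht : t ∈ serIn S := mem_serIn.mpr fun n => by
      simp only [t]
      split_ifs
      · exact zero_mem _
      · exact mem_serIn.mp (sub_mem hs (evJS_mem hmonS)) n
    obtain ⟨Q, hQ, hQk, hQl⟩ := ih ht fun n hn => by simp [t, hn]
    refine ⟨Polynomial.C c * Polynomial.X ^ D + Q, fun k => ?_, fun k hk => ?_, fun n hn => ?_⟩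
    · rw [Polynomial.coeff_add]; exact add_mem (hmonS k) (hQ k)
    · rw [map_add, ← sub_sub, ← hs1, HahnSeries.coeff_sub]
      rcases Nat.lt_succ_iff_lt_or_eq.mp hk with hk | rfl
      · have := hQk k hk
        have hgt : ¬ -((N : ℤ) * k) ≤ -((N : ℤ) * D) := by
          push Not; nlinarith [show (k : ℤ) + 1 ≤ D by omega]
        simpa [t, hgt] using this
      · have := hQl _ (le_refl (-((N : ℤ) * k)))
        simpa [t, htop] using this
    · rw [map_add, ← sub_sub, ← hs1, HahnSeries.coeff_sub, hlow n hn]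
      have hle : n ≤ -((N : ℤ) * D) := by push_cast at hn ⊢; linarith
      have := hQl n hle
      simpa [t, hle] using this

/-- Some bound below which a series vanishes. -/
theorem exists_bound (s : LaurentSeries ℂ) :
    ∃ D : ℕ, ∀ n : ℤ, n ≤ -((N : ℤ) * D) → s.coeff n = 0 := by
  refine ⟨(s.order).natAbs + 1, fun n hn => HahnSeries.coeff_eq_zero_of_lt_order ?_⟩
  have hN : (1 : ℤ) ≤ N := by exact_mod_cast NeZero.pos N
  push_cast at hn
  nlinarith [abs_nonneg s.order, neg_abs_le s.order]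

/-- A polynomial whose series vanishes at all `-N k` up to congruence is congruent to zero. -/
theorem coeff_mem_of_evJS {T : AddSubgroup ℂ} {P : ℂ[X]}
    (hT : ∀ (k : ℕ) (z : ℤ), ∀ x ∈ T, (z : ℂ) * x ∈ T)
    (h : ∀ k : ℕ, (evJS N P).coeff (-((N : ℤ) * k)) ∈ T) : ∀ k, P.coeff k ∈ T := by
  suffices ∀ (d k : ℕ), P.natDegree < k + d → P.coeff k ∈ T from
    fun k => this (P.natDegree + 1) k (by omega)
  intro d
  induction d with
  | zero =>
    intro k hk
    rw [Polynomial.coeff_eq_zero_of_natDegree_lt (show P.natDegree < k by omega)]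
    exact zero_mem T
  | succ d ih =>
    intro k hk
    have h1 := h k
    rw [evJS, Polynomial.coe_eval₂RingHom,
      Polynomial.eval₂_eq_sum_range' _ (Nat.lt_succ_self P.natDegree), HahnSeries.coeff_sum] at h1
    by_cases hkd : P.natDegree < k
    · rw [Polynomial.coeff_eq_zero_of_natDegree_lt hkd]; exact zero_mem T
    rw [← Finset.add_sum_erase _ _ (Finset.mem_range.mpr (show k < P.natDegree + 1 by omega))] at h1
    rw [HahnSeries.C_mul_eq_smul, HahnSeries.coeff_smul, (hasLead_jS_pow k).coeff_eq,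
      smul_eq_mul, mul_one] at h1
    refine (T.add_mem_cancel_right ?_).mp h1
    refine sum_mem fun i hi => ?_
    rw [HahnSeries.C_mul_eq_smul, HahnSeries.coeff_smul]
    rcases lt_trichotomy i k with hik | hik | hik
    · rw [(hasLead_jS_pow i).coeff_of_lt (by
        have : (0 : ℤ) < N := Int.natCast_pos.mpr (NeZero.pos N)
        nlinarith [show (i : ℤ) + 1 ≤ k by omega]), smul_zero]
      exact zero_mem T
    · exact absurd hik (Finset.ne_of_mem_erase hi)
    · obtain ⟨z, hz⟩ : ∃ z : ℤ, (jS N ^ i).coeff (-((N : ℤ) * k)) = (z : ℂ) := by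
        obtain ⟨z, hz⟩ := mem_serIn.mp (pow_mem (jS_mem (N := N) (Int.castRingHom ℂ).range) i)
          (-((N : ℤ) * k))
        exact ⟨z, hz.symm⟩
      rw [hz, smul_eq_mul, mul_comm]
      exact hT k z _ (ih i (by omega))

theorem subsingleton_primVec_one : Subsingleton (PrimVec 1) :=
  ⟨fun a b => Subtype.ext (funext fun i => Subsingleton.elim _ _)⟩

/-- A level one family only involves powers of `exp (2πiτ)`. -/
theorem coeff_levelOne_eq_zero (f : Fam 1 N) (w : PrimVec 1) {n : ℤ} (hn : ¬ (N : ℤ) ∣ n) :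
    (famExp w f).coeff n = 0 := by
  set z : ℂ := Complex.exp (2 * Real.pi * Complex.I / N) with hz
  have hq : ∀ τ : ℍ, 𝕢 (N : ℝ) ((ModularGroup.T • τ : ℍ) : ℂ) =
      ((Units.mk0 z (Complex.exp_ne_zero _) : ℂˣ) : ℂ) * 𝕢 (N : ℝ) τ ^ 1 := by
    intro τ
    rw [Units.val_mk0, pow_one, hz, Periodic.qParam, Periodic.qParam, ← Complex.exp_add,
      modular_T_smul, UpperHalfPlane.coe_vadd]
    congr 1
    push_cast
    ring
  have h1 := (hasExp_famExp f w).comp (fun τ => ModularGroup.T • τ) _ 1 hq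
  have hfun : (f.1 w ∘ fun τ : ℍ => ModularGroup.T • τ) = f.1 w := by
    funext τ
    rw [comp_apply, ← fam_rowMul]
    exact congrFun (congrArg f.1 (subsingleton_primVec_one.elim _ _)) τ
  rw [hfun, qExpand_one_apply] at h1
  have h3 := congrArg (fun s : LaurentSeries ℂ => s.coeff n)
    ((hasExp_famExp f w).unique (NeZero.pos N) h1)
  simp only [qScale_coeff, Units.val_zpow_eq_zpow_val, Units.val_mk0] at h3
  by_contra h0
  refine hn (((Complex.isPrimitiveRoot_exp N (NeZero.ne N)).zpow_eq_one_iff_dvd n).mp ?_)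
  exact mul_right_cancel₀ h0 (by rw [one_mul]; exact h3.symm)

/-- A level one family without negative coefficients is constant. -/
theorem levelOne_bounded_const (f : Fam 1 N) (w : PrimVec 1)
    (h : ∀ n < 0, (famExp w f).coeff n = 0) : ∃ c : ℂ, f = famConst 1 N c := by
  have hinv : ∀ (g : SL(2, ℤ)) (τ : ℍ), f.1 w (g • τ) = f.1 w τ := fun g τ => by
    rw [← fam_rowMul]
    exact congrFun (congrArg f.1 (subsingleton_primVec_one.elim _ _)) τ
  have hslash : ∀ g : SL(2, ℤ), f.1 w ∣[(0 : ℤ)] g = f.1 w := fun g => by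
    funext τ
    rw [ModularForm.SL_slash_apply, hinv, neg_zero, zpow_zero, mul_one]
  have hb : IsBoundedAtImInfty (f.1 w) :=
    (hasExp_famExp f w).isBoundedAtImInfty (NeZero.pos N) h
  let F : ModularForm 𝒮ℒ 0 :=
    { toFun := f.1 w
      slash_action_eq' := fun _ ⟨g, hg⟩ => hg ▸ hslash g
      holo' := (f.2.1 w).1
      bdd_at_cusps' := fun {c} hc => by
        rw [Subgroup.IsArithmetic.isCusp_iff_isCusp_SL2Z] at hc
        rw [OnePoint.isBoundedAt_iff_forall_SL2Z hc]
        intro g _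
        rw [hslash g]
        exact hb }
  obtain ⟨c, hc⟩ := ModularFormClass.levelOne_weight_zero_const F
  refine ⟨c, Subtype.ext (funext fun v => ?_)⟩
  rw [subsingleton_primVec_one.elim v w]
  exact hc

/-- A level one family with coefficients in `S` is a polynomial in `j` over `S`. -/
theorem exists_evJS_eq {S : Subring ℂ} (f : Fam 1 N) (w : PrimVec 1)
    (hf : famExp w f ∈ serIn S) :
    ∃ P : ℂ[X], (∀ k, P.coeff k ∈ S) ∧ f = P.eval₂ (famConst 1 N) (jFam 1 N) ∧
      famExp w f = evJS N P := by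
  obtain ⟨D, hD⟩ := exists_bound (N := N) (famExp w f)
  have hD' : ∀ n : ℤ, n ≤ -((N : ℤ) * (D + 1 : ℕ)) → (famExp w f).coeff n = 0 := fun n hn =>
    hD n (by push_cast at hn ⊢; linarith [NeZero.pos N])
  obtain ⟨P, hP, hPk, hPl⟩ := exists_eliminate (D + 1) hf hD'
  set g : Fam 1 N := f - P.eval₂ (famConst 1 N) (jFam 1 N) with hg
  have hexp : famExp w (P.eval₂ (famConst 1 N) (jFam 1 N)) = evJS N P := by
    rw [Polynomial.hom_eval₂, evJS, Polynomial.coe_eval₂RingHom, famExp_jFam]
    congr 1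
    exact RingHom.ext fun c => famExp_famConst c w
  have hgexp : famExp w g = famExp w f - evJS N P := by rw [hg, map_sub, hexp]
  obtain ⟨c, hc⟩ := levelOne_bounded_const g w fun n hn => by
    by_cases hdvd : (N : ℤ) ∣ n
    · obtain ⟨k, rfl⟩ := hdvd
      have hN : (0 : ℤ) < N := Int.natCast_pos.mpr (NeZero.pos N)
      obtain ⟨m, rfl⟩ : ∃ m : ℕ, k = -(m : ℤ) := ⟨(-k).toNat, by
        have : k ≤ 0 := by by_contra h; nlinarith
        omega⟩
      rw [hgexp, mul_neg]
      rcases lt_or_ge m (D + 1) with hm | hm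
      · exact hPk m hm
      · exact hPl _ (by gcongr)
    · exact coeff_levelOne_eq_zero g w hdvd
  have hc0 : c = 0 := by
    have h0 := hPk 0 (Nat.succ_pos D)
    rw [← hgexp, hc, famExp_famConst] at h0
    simpa using h0
  rw [hc0, map_zero] at hc
  refine ⟨P, hP, sub_eq_zero.mp (hg ▸ hc), ?_⟩
  rw [hc, map_zero] at hgexp
  exact sub_eq_zero.mp hgexp.symm

/-- A series congruent to polynomials in `j` modulo every power of `π` is a polynomial in `j`. -/
theorem exists_evJS_of_forall_congr {A : Subring ℂ} {π : ℂ} (hπ : π ∈ A)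
    (hhaus : ∀ x ∈ A, (∀ n : ℕ, ∃ a ∈ A, x = π ^ n * a) → x = 0)
    {s : LaurentSeries ℂ} (hs : s ∈ serIn A)
    (h : ∀ n : ℕ, ∃ P : ℂ[X], (∀ k, P.coeff k ∈ A) ∧
      ∃ t ∈ serIn A, s - evJS N P = HahnSeries.C (π ^ n) * t) :
    ∃ P : ℂ[X], (∀ k, P.coeff k ∈ A) ∧ s = evJS N P := by
  obtain ⟨D, hD⟩ := exists_bound (N := N) s
  obtain ⟨P, hP, hPk, hPl⟩ := exists_eliminate D hs hD
  refine ⟨P, hP, sub_eq_zero.mp ?_⟩
  have hr : s - evJS N P ∈ serIn A := sub_mem hs (evJS_mem hP)
  ext m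
  rw [HahnSeries.coeff_zero]
  refine hhaus _ (mem_serIn.mp hr m) fun n => ?_
  obtain ⟨Q, hQ, t, ht, hst⟩ := h n
  let T : AddSubgroup ℂ :=
    { carrier := {x | ∃ a ∈ A, x = π ^ n * a}
      zero_mem' := ⟨0, zero_mem A, by simp⟩
      add_mem' := by
        rintro _ _ ⟨a, ha, rfl⟩ ⟨b, hb, rfl⟩
        exact ⟨a + b, add_mem ha hb, by ring⟩
      neg_mem' := by
        rintro _ ⟨a, ha, rfl⟩
        exact ⟨-a, neg_mem ha, by ring⟩ }
  have hcoef : ∀ i : ℤ, (s - evJS N P).coeff i - (evJS N (Q - P)).coeff i ∈ T := fun i => by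
    refine ⟨t.coeff i, mem_serIn.mp ht i, ?_⟩
    rw [map_sub, HahnSeries.coeff_sub, HahnSeries.coeff_sub, sub_sub_sub_cancel_right,
      ← HahnSeries.coeff_sub, hst, HahnSeries.C_mul_eq_smul, HahnSeries.coeff_smul, smul_eq_mul]
  have hQP : ∀ k, (Q - P).coeff k ∈ T := by
    refine coeff_mem_of_evJS (N := N) ?_ fun k => ?_
    · rintro _ z _ ⟨a, ha, rfl⟩
      exact ⟨(z : ℂ) * a, mul_mem (intCast_mem A z) ha, by ring⟩
    · have hz : (s - evJS N P).coeff (-((N : ℤ) * k)) = 0 := by
        rcases lt_or_ge k D with hk | hk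
        · exact hPk k hk
        · exact hPl _ (by gcongr)
      have := hcoef (-((N : ℤ) * k))
      rw [hz, zero_sub] at this
      exact T.neg_mem_iff.mp this
  have hev : (evJS N (Q - P)).coeff m ∈ T := by
    rw [evJS, Polynomial.coe_eval₂RingHom, Polynomial.eval₂_eq_sum, Polynomial.sum_def,
      HahnSeries.coeff_sum]
    refine sum_mem fun k _ => ?_
    obtain ⟨a, ha, hka⟩ := hQP k
    refine ⟨a * (jS N ^ k).coeff m, mul_mem ha (mem_serIn.mp (pow_mem (jS_mem A) k) m), ?_⟩
    rw [HahnSeries.C_mul_eq_smul, HahnSeries.coeff_smul, smul_eq_mul, hka]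
    ring
  have hsum : (s - evJS N P).coeff m ∈ T := by simpa using T.add_mem (hcoef m) hev
  exact hsum

end Fermat.Agent.DS.G1
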