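import Fermat.Agent.DS.G1.ParHom
import Fermat.Agent.HK.HeckeHom

/-!
`T_p` and the diamond operator `⟨p⟩` on `parHom M A`, for a prime `p ∤ M`.
-/

set_option autoImplicit false

noncomputable section

namespace Fermat.Agent.DS.G1

open CongruenceSubgroup
open Fermat.Agent.HK
open scoped MatrixGroups

variable (M : ℕ) (p : ℕ) [hp : Fact p.Prime] (hpM : ¬ p ∣ M)

omit hp in
theorem exists_gammaP [Fact p.Prime] (hpM : ¬ p ∣ M) :
    ∃ γ : Gamma0 M, (γ : SL(2, ℤ)) 1 0 = (M : ℤ) ∧ (γ : SL(2, ℤ)) 1 1 = (p : ℤ) := by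
  obtain ⟨a, b, hab⟩ : IsCoprime (p : ℤ) (M : ℤ) :=
    Nat.isCoprime_iff_coprime.2 ((Nat.Prime.coprime_iff_not_dvd (Fact.out)).2 hpM)
  refine ⟨⟨⟨!![a, -b; (M : ℤ), (p : ℤ)], ?_⟩, Gamma0_mem.2 ?_⟩, rfl, rfl⟩
  · rw [Matrix.det_fin_two_of]; linarith
  · simp

open scoped Classical in
/-- An element of `Γ₀(M)` with lower row `(M, p)`. -/
def gammaP : Gamma0 M :=
  if h : ∃ γ : Gamma0 M, (γ : SL(2, ℤ)) 1 0 = (M : ℤ) ∧ (γ : SL(2, ℤ)) 1 1 = (p : ℤ)
  then h.choose else 1

include hpM in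
theorem gammaP_one_zero : (gammaP M p : SL(2, ℤ)) 1 0 = (M : ℤ) := by
  rw [gammaP, dif_pos (exists_gammaP M p hpM)]
  exact (exists_gammaP M p hpM).choose_spec.1

include hpM in
theorem gammaP_one_one : (gammaP M p : SL(2, ℤ)) 1 1 = (p : ℤ) := by
  rw [gammaP, dif_pos (exists_gammaP M p hpM)]
  exact (exists_gammaP M p hpM).choose_spec.2

/-- The index of `delta` among `HeckeIdx`. -/
def deltaIdx : Option (Fin p) ≃ HeckeIdx M p :=
  (Equiv.subtypeUnivEquiv (fun _ h => absurd h hpM)).symm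

omit hp in
@[simp] theorem deltaIdx_some (j : Fin p) : deltaIdx M p hpM (some j) = HeckeIdx.upper M j := rfl

omit hp in
@[simp] theorem deltaIdx_none : deltaIdx M p hpM none = HeckeIdx.diag hpM := rfl

/-- The left translate: `γ_p` on the last coset, `1` on the others. -/
def deltaShift : Option (Fin p) → Gamma0 M
  | some _ => 1
  | none => gammaP M p

/-- Coset representatives of `Γ₁(M) diag(1,p) Γ₁(M)`. -/
def delta : Option (Fin p) → Matrix (Fin 2) (Fin 2) ℤ
  | some j => !![1, (j : ℤ); 0, (p : ℤ)]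
  | none => ((gammaP M p : SL(2, ℤ)) : Matrix (Fin 2) (Fin 2) ℤ) * !![(p : ℤ), 0; 0, 1]

omit hp in
@[simp] theorem delta_some (j : Fin p) : delta M p (some j) = !![1, (j : ℤ); 0, (p : ℤ)] := rfl

omit hp in
@[simp] theorem delta_none : delta M p none =
    ((gammaP M p : SL(2, ℤ)) : Matrix (Fin 2) (Fin 2) ℤ) * !![(p : ℤ), 0; 0, 1] := rfl

omit hp in
theorem delta_eq (i : Option (Fin p)) :
    delta M p i =
      ((deltaShift M p i : SL(2, ℤ)) : Matrix (Fin 2) (Fin 2) ℤ) * heckeMat (deltaIdx M p hpM i) := by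
  cases i with
  | none => simp [deltaShift]
  | some j => simp [deltaShift]

omit hp in
theorem det_delta (i : Option (Fin p)) : (delta M p i).det = p := by
  cases i with
  | none => simp [Matrix.det_mul, Matrix.det_fin_two_of]
  | some j => simp [Matrix.det_fin_two_of]

include hpM in
theorem delta_mod (i : Option (Fin p)) :
    ((delta M p i 1 0 : ℤ) : ZMod M) = 0 ∧ ((delta M p i 1 1 : ℤ) : ZMod M) = (p : ZMod M) := by
  cases i with
  | none =>
    simp [Matrix.mul_apply, Fin.sum_univ_two,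
      gammaP_one_zero M p hpM, gammaP_one_one M p hpM]
  | some j => simp

variable {M p}

/-- The permutation of the cosets induced by right multiplication by `g`. -/
def deltaNext (g : Gamma1 M) (i : Option (Fin p)) : Option (Fin p) :=
  (deltaIdx M p hpM).symm
    (heckeNext (⟨g, Gamma1_in_Gamma0 M g.2⟩ : Gamma0 M) (deltaIdx M p hpM i))

/-- The cocycle, first as an element of `Γ₀(M)`. -/
def deltaCoc0 (g : Gamma1 M) (i : Option (Fin p)) : Gamma0 M :=
  deltaShift M p i * heckeCoc (⟨g, Gamma1_in_Gamma0 M g.2⟩ : Gamma0 M) (deltaIdx M p hpM i) *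
    (deltaShift M p (deltaNext hpM g i))⁻¹

theorem deltaCoc0_mul_delta (g : Gamma1 M) (i : Option (Fin p)) :
    ((deltaCoc0 hpM g i : SL(2, ℤ)) : Matrix (Fin 2) (Fin 2) ℤ) * delta M p (deltaNext hpM g i)
      = delta M p i * ((g : SL(2, ℤ)) : Matrix (Fin 2) (Fin 2) ℤ) := by
  rw [delta_eq M p hpM, delta_eq M p hpM, ← Matrix.mul_assoc,
    ← Matrix.SpecialLinearGroup.coe_mul, ← Subgroup.coe_mul, deltaCoc0, inv_mul_cancel_right,
    Subgroup.coe_mul, Matrix.SpecialLinearGroup.coe_mul, Matrix.mul_assoc, deltaNext,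
    Equiv.apply_symm_apply, heckeCoc_mul_heckeMat, ← Matrix.mul_assoc]

theorem deltaCoc0_mem (g : Gamma1 M) (i : Option (Fin p)) :
    (deltaCoc0 hpM g i : SL(2, ℤ)) ∈ Gamma1 M := by
  have h0 : (((deltaCoc0 hpM g i : SL(2, ℤ)) 1 0 : ℤ) : ZMod M) = 0 :=
    Gamma0_mem.1 (deltaCoc0 hpM g i).2
  have e := congrFun (congrFun (deltaCoc0_mul_delta hpM g i) 1) 1
  rw [Matrix.mul_apply, Matrix.mul_apply, Fin.sum_univ_two, Fin.sum_univ_two] at e
  have e' := congrArg (fun x : ℤ => (x : ZMod M)) e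
  obtain ⟨g00, g11, g10⟩ := Gamma1_mem M g |>.1 g.2
  simp only [Int.cast_add, Int.cast_mul, h0, (delta_mod M p hpM i).1, (delta_mod M p hpM i).2,
    (delta_mod M p hpM (deltaNext hpM g i)).2, g11, zero_mul, zero_add, mul_one] at e'
  have hu : IsUnit (p : ZMod M) :=
    (ZMod.unitOfCoprime p ((Nat.Prime.coprime_iff_not_dvd hp.out).2 hpM)).isUnit
  have h11 : (((deltaCoc0 hpM g i : SL(2, ℤ)) 1 1 : ℤ) : ZMod M) = 1 := by
    refine hu.mul_right_cancel ?_
    rw [e', one_mul]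
  have hdet := congrArg (fun x : ℤ => (x : ZMod M))
    ((Matrix.det_fin_two _).symm.trans (deltaCoc0 hpM g i : SL(2, ℤ)).det_coe)
  simp only [Int.cast_sub, Int.cast_mul, h0, h11, mul_one, mul_zero, sub_zero,
    Int.cast_one] at hdet
  exact (Gamma1_mem M _).2 ⟨hdet, h11, h0⟩

/-- `γ_i` in `δ_i g = γ_i δ_(σ i)`. -/
def deltaCoc (g : Gamma1 M) (i : Option (Fin p)) : Gamma1 M :=
  ⟨(deltaCoc0 hpM g i : SL(2, ℤ)), deltaCoc0_mem hpM g i⟩

theorem deltaCoc_mul_delta (g : Gamma1 M) (i : Option (Fin p)) :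
    ((deltaCoc hpM g i : SL(2, ℤ)) : Matrix (Fin 2) (Fin 2) ℤ) * delta M p (deltaNext hpM g i)
      = delta M p i * ((g : SL(2, ℤ)) : Matrix (Fin 2) (Fin 2) ℤ) :=
  deltaCoc0_mul_delta hpM g i

theorem deltaNext_bijective (g : Gamma1 M) :
    Function.Bijective (deltaNext (p := p) hpM g) :=
  (deltaIdx M p hpM).symm.bijective.comp
    ((heckeNext_bijective _).comp (deltaIdx M p hpM).bijective)

theorem deltaNext_one (i : Option (Fin p)) : deltaNext hpM (1 : Gamma1 M) i = i := by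
  rw [deltaNext, show (⟨((1 : Gamma1 M) : SL(2, ℤ)), _⟩ : Gamma0 M) = 1 from rfl, heckeNext_one,
    Equiv.symm_apply_apply]

theorem deltaNext_mul (g h : Gamma1 M) (i : Option (Fin p)) :
    deltaNext hpM (g * h) i = deltaNext hpM h (deltaNext hpM g i) := by
  simp only [deltaNext, Equiv.apply_symm_apply]
  rw [← heckeNext_mul]
  rfl

theorem deltaCoc_one (i : Option (Fin p)) : deltaCoc hpM (1 : Gamma1 M) i = 1 := by
  ext : 1
  show (deltaCoc0 hpM 1 i : SL(2, ℤ)) = _
  rw [deltaCoc0, deltaNext_one, show (⟨((1 : Gamma1 M) : SL(2, ℤ)), _⟩ : Gamma0 M) = 1 from rfl,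
    heckeCoc_one, mul_one, mul_inv_cancel]
  rfl

theorem deltaCoc_mul (g h : Gamma1 M) (i : Option (Fin p)) :
    deltaCoc hpM (g * h) i = deltaCoc hpM g i * deltaCoc hpM h (deltaNext hpM g i) := by
  ext : 1
  show ((deltaCoc0 hpM (g * h) i : Gamma0 M) : SL(2, ℤ))
    = ((deltaCoc0 hpM g i * deltaCoc0 hpM h (deltaNext hpM g i) : Gamma0 M) : SL(2, ℤ))
  congr 1
  rw [deltaCoc0, deltaCoc0, deltaCoc0, deltaNext_mul,
    show (⟨((g * h : Gamma1 M) : SL(2, ℤ)), _⟩ : Gamma0 M) =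
      ⟨g, Gamma1_in_Gamma0 M g.2⟩ * ⟨h, Gamma1_in_Gamma0 M h.2⟩ from rfl, heckeCoc_mul]
  simp only [deltaNext, Equiv.apply_symm_apply]
  group

theorem deltaNext_pow (g : Gamma1 M) (n : ℕ) (i : Option (Fin p)) :
    deltaNext hpM (g ^ n) i = (deltaNext hpM g)^[n] i := by
  induction n with
  | zero => rw [pow_zero, deltaNext_one, Function.iterate_zero_apply]
  | succ n ih => rw [pow_succ, deltaNext_mul, ih, Function.iterate_succ_apply']

theorem deltaCoc_pow_sum {A : Type*} [AddCommGroup A] (φ : Additive (Gamma1 M) →+ A)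
    (g : Gamma1 M) (n : ℕ) (i : Option (Fin p)) :
    φ (Additive.ofMul (deltaCoc hpM (g ^ n) i))
      = ∑ k ∈ Finset.range n, φ (Additive.ofMul (deltaCoc hpM g ((deltaNext hpM g)^[k] i))) := by
  induction n with
  | zero => rw [pow_zero, deltaCoc_one, ofMul_one, map_zero, Finset.sum_range_zero]
  | succ n ih =>
    rw [pow_succ, deltaCoc_mul, ofMul_mul, map_add, ih, Finset.sum_range_succ, deltaNext_pow]

theorem trace_deltaCoc_pow_of_fixed {g : Gamma1 M} {i : Option (Fin p)} {n : ℕ}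
    (hn : (deltaNext hpM g)^[n] i = i) :
    ((deltaCoc hpM (g ^ n) i : SL(2, ℤ)) : Matrix (Fin 2) (Fin 2) ℤ).trace
      = (((g ^ n : Gamma1 M) : SL(2, ℤ)) : Matrix (Fin 2) (Fin 2) ℤ).trace := by
  have h := deltaCoc_mul_delta hpM (g ^ n) i
  rw [deltaNext_pow, hn] at h
  have h' := congrArg (fun X => (X * (delta M p i).adjugate).trace) h
  simp only [Matrix.mul_assoc, Matrix.mul_adjugate, Matrix.trace_mul_comm (delta M p i),
    Matrix.adjugate_mul, det_delta, Matrix.mul_smul, Matrix.mul_one, Matrix.trace_smul,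
    smul_eq_mul] at h'
  exact mul_left_cancel₀ (by exact_mod_cast hp.out.ne_zero) h'

variable {A : Type*} [AddCommGroup A]

theorem sum_deltaCoc_eq_zero (φ : parHom M A) (g : Gamma1 M)
    (hg : IsNonHyperbolic (g : SL(2, ℤ))) :
    ∑ i : Option (Fin p),
      (φ : Additive (Gamma1 M) →+ A) (Additive.ofMul (deltaCoc hpM g i)) = 0 := by
  classical
  let σ : Equiv.Perm (Option (Fin p)) := Equiv.ofBijective _ (deltaNext_bijective hpM g)
  rw [← Finset.sum_fiberwise Finset.univ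
    (fun i => Quotient.mk (Equiv.Perm.SameCycle.setoid σ) i)]
  refine Finset.sum_eq_zero fun o _ => ?_
  obtain ⟨i, rfl⟩ := Quotient.exists_rep o
  set m := Function.minimalPeriod (deltaNext hpM g) i with hm
  have hper : i ∈ Function.periodicPts (deltaNext hpM g) :=
    Function.Injective.mem_periodicPts (deltaNext_bijective hpM g).1 i
  have horb : (Finset.univ.filter fun j =>
      Quotient.mk (Equiv.Perm.SameCycle.setoid σ) j
        = Quotient.mk (Equiv.Perm.SameCycle.setoid σ) i)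
      = (Finset.range m).image fun k => (deltaNext hpM g)^[k] i := by
    ext j
    simp only [Finset.mem_filter, Finset.mem_univ, true_and, Finset.mem_image, Finset.mem_range,
      Quotient.eq]
    constructor
    · intro hj
      obtain ⟨k, hk⟩ := (Equiv.Perm.SameCycle.exists_nat_pow_eq (hj.symm : σ.SameCycle i j))
      refine ⟨k % m, Nat.mod_lt _ (Function.minimalPeriod_pos_of_mem_periodicPts hper), ?_⟩
      rw [hm, Function.iterate_mod_minimalPeriod_eq, ← hk]
      rw [Equiv.Perm.coe_pow]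
      rfl
    · rintro ⟨k, -, rfl⟩
      refine Equiv.Perm.SameCycle.symm ⟨(k : ℤ), ?_⟩
      rw [zpow_natCast, Equiv.Perm.coe_pow]
      rfl
  rw [horb, Finset.sum_image, ← deltaCoc_pow_sum]
  · refine mem_parHom.1 φ.2 _ ?_
    rw [IsNonHyperbolic, trace_deltaCoc_pow_of_fixed hpM Function.iterate_minimalPeriod,
      SubmonoidClass.coe_pow]
    exact trace_pow_sq_le_four hg _
  · intro a ha b hb hab
    exact Function.iterate_injOn_Iio_minimalPeriod
      (Set.mem_Iio.mpr (Finset.mem_range.mp (Finset.mem_coe.mp ha)))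
      (Set.mem_Iio.mpr (Finset.mem_range.mp (Finset.mem_coe.mp hb))) hab

variable (M p) in
/-- `(T_p χ)(g) = ∑ᵢ χ(γᵢ)`. -/
def heckeT : parHom M A →+ parHom M A where
  toFun φ := ⟨AddMonoidHom.mk'
      (fun g => ∑ i : Option (Fin p), (φ : Additive (Gamma1 M) →+ A)
        (Additive.ofMul (deltaCoc hpM (Additive.toMul g) i))) fun g h => by
      simp only [toMul_add, deltaCoc_mul, ofMul_mul, map_add, Finset.sum_add_distrib]
      congr 1
      exact Fintype.sum_bijective _ (deltaNext_bijective hpM (Additive.toMul g)) _ _ fun i => rfl,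
    mem_parHom.2 fun g hg => sum_deltaCoc_eq_zero hpM φ g hg⟩
  map_zero' := Subtype.ext (AddMonoidHom.ext fun g => by simp)
  map_add' φ ψ := Subtype.ext (AddMonoidHom.ext fun g => by simp [Finset.sum_add_distrib])

theorem heckeT_apply (φ : parHom M A) (g : Gamma1 M) :
    (heckeT M p hpM φ : Additive (Gamma1 M) →+ A) (Additive.ofMul g) =
      ∑ i : Option (Fin p),
        (φ : Additive (Gamma1 M) →+ A) (Additive.ofMul (deltaCoc hpM g i)) := rfl

theorem heckeT_map {B : Type*} [AddCommGroup B] (h : A →+ B) (φ : parHom M A) :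
    heckeT M p hpM (parHomMap h φ) = parHomMap h (heckeT M p hpM φ) :=
  Subtype.ext (AddMonoidHom.ext fun g => by
    obtain ⟨g, rfl⟩ := Additive.ofMul.surjective g
    simp [heckeT_apply, map_sum])

theorem heckeT_smul {R : Type*} [Semiring R] [Module R A] (c : R) (φ : parHom M A) :
    heckeT M p hpM (c • φ) = c • heckeT M p hpM φ :=
  Subtype.ext (AddMonoidHom.ext fun g => by
    obtain ⟨g, rfl⟩ := Additive.ofMul.surjective g
    rw [parHom_smul_apply, heckeT_apply, heckeT_apply, Finset.smul_sum]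
    rfl)

variable (M p)

omit hp in
theorem conj_gammaP_mem (g : Gamma1 M) :
    (gammaP M p : SL(2, ℤ)) * g * (gammaP M p : SL(2, ℤ))⁻¹ ∈ Gamma1 M := by
  obtain ⟨g00, g11, g10⟩ := (Gamma1_mem M g).1 g.2
  have c10 : ((((gammaP M p : Gamma0 M) : SL(2, ℤ)) 1 0 : ℤ) : ZMod M) = 0 :=
    Gamma0_mem.1 (gammaP M p).2
  have hdet := congrArg (fun x : ℤ => (x : ZMod M))
    ((Matrix.det_fin_two _).symm.trans (gammaP M p : SL(2, ℤ)).det_coe)
  simp only [Int.cast_sub, Int.cast_mul, c10, mul_zero, sub_zero, Int.cast_one] at hdet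
  refine (Gamma1_mem M _).2 ⟨?_, ?_, ?_⟩ <;>
    simp [Matrix.SpecialLinearGroup.coe_inv, Matrix.adjugate_fin_two, Matrix.mul_apply,
      Fin.sum_univ_two, g00, g11, g10, c10, hdet, mul_comm _ (((gammaP M p : SL(2, ℤ)) 0 0 : ℤ) : ZMod M)]

/-- Conjugation by `γ_p` on `Γ₁(M)`. -/
def conjGammaP : Gamma1 M →* Gamma1 M where
  toFun g := ⟨_, conj_gammaP_mem M p g⟩
  map_one' := Subtype.ext (by simp)
  map_mul' g h := Subtype.ext (by simp [mul_assoc])

omit hp in
theorem trace_conjGammaP (g : Gamma1 M) :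
    ((conjGammaP M p g : SL(2, ℤ)) : Matrix (Fin 2) (Fin 2) ℤ).trace =
      ((g : SL(2, ℤ)) : Matrix (Fin 2) (Fin 2) ℤ).trace := by
  show (((gammaP M p : SL(2, ℤ)) * g * (gammaP M p : SL(2, ℤ))⁻¹ : SL(2, ℤ)) :
    Matrix (Fin 2) (Fin 2) ℤ).trace = _
  rw [Matrix.SpecialLinearGroup.coe_mul, Matrix.trace_mul_comm,
    ← Matrix.SpecialLinearGroup.coe_mul, ← mul_assoc, inv_mul_cancel, one_mul]

/-- The diamond operator `χ ↦ χ(γ_p · γ_p⁻¹)`. -/
def diamond : parHom M A →+ parHom M A where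
  toFun φ := ⟨(φ : Additive (Gamma1 M) →+ A).comp (MonoidHom.toAdditive (conjGammaP M p)),
    mem_parHom.2 fun g hg => mem_parHom.1 φ.2 (conjGammaP M p g) (by
      rw [IsNonHyperbolic, trace_conjGammaP]; exact hg)⟩
  map_zero' := rfl
  map_add' _ _ := rfl

variable {M p}

omit hp in
theorem diamond_apply (φ : parHom M A) (g : Gamma1 M) :
    (diamond M p φ : Additive (Gamma1 M) →+ A) (Additive.ofMul g) =
      (φ : Additive (Gamma1 M) →+ A) (Additive.ofMul (conjGammaP M p g)) := rfl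

omit hp in
theorem diamond_map {B : Type*} [AddCommGroup B] (h : A →+ B) (φ : parHom M A) :
    diamond M p (parHomMap h φ) = parHomMap h (diamond M p φ) := rfl

omit hp in
theorem diamond_smul {R : Type*} [Semiring R] [Module R A] (c : R) (φ : parHom M A) :
    diamond M p (c • φ) = c • diamond M p φ := rfl

end Fermat.Agent.DS.G1
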