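import Fermat.Agent.DS.G1.Transfer
import Fermat.Agent.DS.Defs
import Fermat.Agent.HK.HeckePeriods
import Fermat.Agent.MF.PeriodGamma.Basic
import Fermat.Prelude.Thm_UpperHalfPlane_qCoeff_heckeT
import Fermat.Prelude.Thm_UpperHalfPlane_qCoeff_heckeU
import Fermat.Prelude.Thm_UpperHalfPlane_eq_of_forall_qCoeff_eq
import Fermat.Prelude.Thm_ModularForm_mdifferentiable_heckeT
import Fermat.Prelude.Thm_ModularForm_mdifferentiable_heckeU
import Fermat.Prelude.Thm_ModularForm_periodic_heckeT_comp_ofComplex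
import Fermat.Prelude.Thm_ModularForm_periodic_heckeU_comp_ofComplex
import Fermat.Prelude.Thm_ModularForm_isBoundedAtImInfty_heckeT
import Fermat.Prelude.Thm_ModularForm_isBoundedAtImInfty_heckeU
import Mathlib.RingTheory.IntegralClosure.IntegrallyClosed
import Mathlib.RingTheory.Nakayama
import Mathlib.RingTheory.Ideal.GoingUp

/-!
The eigen class in `parHom M k` of a weight two eigen system with nebentypus on `Γ₁(M)`.
-/

set_option autoImplicit false

noncomputable section

namespace Fermat.Agent.DS.G1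

open CongruenceSubgroup UpperHalfPlane ModularFormClass
open Fermat.Agent.MF Fermat.Agent.HK
open scoped MatrixGroups ModularForm Manifold

variable {M : ℕ} [NeZero M]

/-- `g` is an eigenvector, with eigenvalues `lam p`, of the weight two `T_p` with nebentypus `ψ`
at the primes `p ∤ M`, on `q`-coefficients. -/
def HeckeEigen (ψ : DirichletCharacter ℂ M) (g : ℍ → ℂ) (lam : ℕ → ℂ) : Prop :=
  ∀ p : ℕ, p.Prime → ¬ p ∣ M → ∀ n : ℕ,
    qCoeff g (p * n) + ψ (p : ZMod M) * (p : ℂ) * (if p ∣ n then qCoeff g (n / p) else 0) =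
      lam p * qCoeff g n

omit [NeZero M] in
theorem heckeEigen_of_heckeRel {ψ : DirichletCharacter ℂ M} {g : ℍ → ℂ}
    (hT : HeckeRel 2 M (fun p ↦ ψ (p : ZMod M)) (qCoeff g)) :
    HeckeEigen ψ g (qCoeff g) := fun p hp hpM n => by simpa using hT p hp hpM n

section Hecke

variable {p : ℕ} [hp : Fact p.Prime] (hpM : ¬ p ∣ M)

/-- The coset representatives in `GL₂(ℝ)`. -/
def deltaGL (i : Option (Fin p)) : GL (Fin 2) ℝ :=
  Matrix.SpecialLinearGroup.mapGL ℝ (deltaShift M p i : SL(2, ℤ)) * heckeGL (deltaIdx M p hpM i)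

omit [NeZero M] in
theorem deltaCoc_mul_deltaGL (g : Gamma1 M) (i : Option (Fin p)) :
    Matrix.SpecialLinearGroup.mapGL ℝ (deltaCoc hpM g i : SL(2, ℤ)) * deltaGL hpM (deltaNext hpM g i)
      = deltaGL hpM i * Matrix.SpecialLinearGroup.mapGL ℝ (g : SL(2, ℤ)) := by
  have h : ∀ j : Option (Fin p), ((deltaGL hpM j : GL (Fin 2) ℝ) : Matrix (Fin 2) (Fin 2) ℝ)
      = (delta M p j).map (Int.castRingHom ℝ) := by
    intro j
    rw [deltaGL, Units.val_mul, val_heckeGL, delta_eq M p hpM, Matrix.map_mul,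
      Matrix.SpecialLinearGroup.mapGL_coe_matrix]
    rfl
  have e := congrArg (fun X => X.map (Int.castRingHom ℝ)) (deltaCoc_mul_delta hpM g i)
  simp only [Matrix.map_mul, ← h] at e
  refine Units.ext ?_
  simp only [Units.val_mul, Matrix.SpecialLinearGroup.mapGL_coe_matrix]
  simpa [RingHom.mapMatrix_apply, algebraMap_int_eq] using e

omit [NeZero M] in
theorem periodic_one (g : CuspForm (Gamma1 M) 2) :
    Function.Periodic ((⇑g) ∘ ofComplex) 1 := by
  have h : (1 : ℝ) ∈ (Gamma1 M : Subgroup (GL (Fin 2) ℝ)).strictPeriods := by simp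
  simpa using SlashInvariantFormClass.periodic_comp_ofComplex g h

include hpM in
/-- The Hecke relation on coefficients says that `g` is an eigenform of `T_p`, as functions. -/
theorem heckeU_add_smul_diag_eq (ψ : DirichletCharacter ℂ M) (g : CuspForm (Gamma1 M) 2)
    (lam : ℕ → ℂ) (hT : HeckeEigen ψ g lam) :
    ModularForm.heckeU 2 p g + ψ (p : ZMod M) • ((⇑g) ∣[(2 : ℤ)] ModularForm.heckeDiagMatrix p)
      = lam p • (⇑g) := by
  have hper := periodic_one g
  have hper' : Function.Periodic ((⇑g) ∘ ofComplex) ((1 : ℝ) : ℂ) := by simpa using hper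
  have hhol : MDiff (⇑g) := CuspFormClass.holo g
  have hbdd : IsBoundedAtImInfty (⇑g) :=
    Filter.ZeroAtFilter.boundedAtFilter (CuspFormClass.zero_at_infty g)
  have hUp : Function.Periodic (ModularForm.heckeU 2 p g ∘ ofComplex) ((1 : ℝ) : ℂ) := by
    simpa using ModularForm.periodic_heckeU_comp_ofComplex hper 2 p
  have hTp : Function.Periodic (ModularForm.heckeT 2 p g ∘ ofComplex) ((1 : ℝ) : ℂ) := by
    simpa using ModularForm.periodic_heckeT_comp_ofComplex hper 2 p
  have hUh := ModularForm.mdifferentiable_heckeU hhol 2 p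
  have hTh := ModularForm.mdifferentiable_heckeT hhol 2 p
  have hUb := ModularForm.isBoundedAtImInfty_heckeU hbdd 2 p
  have hTb := ModularForm.isBoundedAtImInfty_heckeT hbdd 2 p
  have haU := analyticAt_cuspFunction_zero one_pos hUp hUh hUb
  have haT := analyticAt_cuspFunction_zero one_pos hTp hTh hTb
  have hag := analyticAt_cuspFunction_zero one_pos hper' hhol hbdd
  set c : ℂ := ψ (p : ZMod M) with hc
  have hdiag : (⇑g) ∣[(2 : ℤ)] ModularForm.heckeDiagMatrix p
      = ModularForm.heckeT 2 p g - ModularForm.heckeU 2 p g := by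
    rw [ModularForm.heckeT_eq_heckeU_add]; abel
  rw [hdiag]
  have hDp : Function.Periodic ((ModularForm.heckeT 2 p g - ModularForm.heckeU 2 p g) ∘ ofComplex)
      ((1 : ℝ) : ℂ) := fun z => by
    have e1 := hTp z
    have e2 := hUp z
    simp only [Function.comp_apply, Pi.sub_apply] at e1 e2 ⊢
    rw [e1, e2]
  have hDh : MDiff (ModularForm.heckeT 2 p g - ModularForm.heckeU 2 p g) := hTh.sub hUh
  have hDb : IsBoundedAtImInfty (ModularForm.heckeT 2 p g - ModularForm.heckeU 2 p g) := hTb.sub hUb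
  have haD := analyticAt_cuspFunction_zero one_pos hDp hDh hDb
  have hcDp : Function.Periodic
      ((c • (ModularForm.heckeT 2 p g - ModularForm.heckeU 2 p g)) ∘ ofComplex) ((1 : ℝ) : ℂ) :=
    fun z => by
      have e1 := hDp z
      simp only [Function.comp_apply, Pi.smul_apply] at e1 ⊢
      rw [e1]
  have hcDh : MDiff (c • (ModularForm.heckeT 2 p g - ModularForm.heckeU 2 p g)) := hDh.const_smul c
  have hcDb : IsBoundedAtImInfty (c • (ModularForm.heckeT 2 p g - ModularForm.heckeU 2 p g)) :=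
    hDb.const_smul_left c
  refine UpperHalfPlane.eq_of_forall_qCoeff_eq ?_ (hUh.add hcDh) (hUb.add hcDb) ?_
    (hhol.const_smul _) (hbdd.const_smul_left _) fun n => ?_
  · intro z
    have e1 := hUp z
    have e2 := hcDp z
    simp only [Function.comp_apply, Pi.add_apply, Complex.ofReal_one] at e1 e2 ⊢
    rw [e1, e2]
  · intro z
    have e1 := hper z
    simp only [Function.comp_apply, Pi.smul_apply] at e1 ⊢
    rw [e1]
  have eU := UpperHalfPlane.qCoeff_heckeU hper hhol hbdd 2 hp.out.ne_zero n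
  have eT := UpperHalfPlane.qCoeff_heckeT hper hhol hbdd 2 hp.out.ne_zero n
  simp only [qCoeff] at eU eT ⊢
  rw [qExpansion_add haU (analyticAt_cuspFunction_zero one_pos hcDp hcDh hcDb),
    qExpansion_smul haD, qExpansion_sub haT haU, qExpansion_smul hag]
  simp only [map_add, map_sub, map_smul, smul_eq_mul, eU, eT, ModularForm.coeffHeckeT,
    ModularForm.coeffHeckeU]
  have := hT p hp.out hpM n
  simp only [qCoeff] at this
  rw [show n * p = p * n from mul_comm _ _, ← this, ← hc]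
  split_ifs <;> simp [qCoeff] <;> ring

omit [NeZero M] in
include hpM in
theorem nebentype_gammaP (ψ : DirichletCharacter ℂ M) (g : CuspForm (Gamma1 M) 2)
    (hneb : ∀ γ : Gamma0 M, (⇑g) ∣[(2 : ℤ)] (γ : SL(2, ℤ)) =
      ψ (((γ : SL(2, ℤ)) 1 1 : ℤ) : ZMod M) • ⇑g) :
    (⇑g) ∣[(2 : ℤ)] (gammaP M p : SL(2, ℤ)) = ψ (p : ZMod M) • ⇑g := by
  rw [hneb, gammaP_one_one M p hpM, Int.cast_natCast]

theorem isPrimitiveOf_sum_delta (ψ : DirichletCharacter ℂ M) (g : CuspForm (Gamma1 M) 2)
    (lam : ℕ → ℂ) (hT : HeckeEigen ψ g lam)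
    (hneb : ∀ γ : Gamma0 M, (⇑g) ∣[(2 : ℤ)] (γ : SL(2, ℤ)) =
      ψ (((γ : SL(2, ℤ)) 1 1 : ℤ) : ZMod M) • ⇑g) :
    Prim.IsPrimitiveOf
      (fun w => ∑ i : Option (Fin p), PeriodGamma.prim (Gamma1 M) g (deltaGL hpM i • w))
      (lam p • ⇑g) := by
  intro τ
  have hF := PeriodGamma.prim_isPrimitiveOf (Gamma1 M) g
  have hFs : Prim.IsPrimitiveOf
      (fun w => PeriodGamma.prim (Gamma1 M) g ((gammaP M p : SL(2, ℤ)) • w))
      (ψ (p : ZMod M) • ⇑g) := by
    rw [← nebentype_gammaP hpM ψ g hneb]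
    exact hF.comp_smul _
  have key : ∀ i : Option (Fin p), HasDerivAt
      ((fun w => PeriodGamma.prim (Gamma1 M) g (deltaGL hpM i • w)) ∘ ofComplex)
      (match i with
        | some j => (p : ℂ)⁻¹ * g (ModularForm.heckeMatrix p j • τ)
        | none => (p : ℂ) * (ψ (p : ZMod M) * g (ModularForm.heckeDiagMatrix p • τ))) (τ : ℂ) := by
    intro i
    cases i with
    | some j =>
      simpa [deltaGL, deltaShift] using isPrimitiveOf_comp_heckeMatrix (p := p) hF (j : ℕ) τ
    | none =>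
      have h2 := isPrimitiveOf_comp_heckeDiagMatrix (p := p) hFs τ
      simp only [Pi.smul_apply, smul_eq_mul] at h2
      simp only [deltaGL, deltaShift, mul_smul, deltaIdx_none, heckeGL_diag]
      exact h2
  have hsum := HasDerivAt.fun_sum (u := Finset.univ) fun i _ => key i
  rw [Fintype.sum_option] at hsum
  have hval : (lam p • ⇑g) τ =
      (p : ℂ) * (ψ (p : ZMod M) * g (ModularForm.heckeDiagMatrix p • τ)) +
        ∑ j : Fin p, (p : ℂ)⁻¹ * g (ModularForm.heckeMatrix p j • τ) := by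
    rw [← heckeU_add_smul_diag_eq hpM ψ g lam hT, Pi.add_apply, Pi.smul_apply, smul_eq_mul,
      ModularForm.heckeU_apply _ hp.out.ne_zero,
      ModularForm.slash_heckeDiagMatrix_apply _ hp.out.ne_zero, Finset.sum_range, Finset.mul_sum]
    norm_num
    ring
  rw [hval]
  exact hsum

theorem sum_periods_deltaCoc (ψ : DirichletCharacter ℂ M) (g : CuspForm (Gamma1 M) 2)
    (lam : ℕ → ℂ) (hT : HeckeEigen ψ g lam)
    (hneb : ∀ γ : Gamma0 M, (⇑g) ∣[(2 : ℤ)] (γ : SL(2, ℤ)) =
      ψ (((γ : SL(2, ℤ)) 1 1 : ℤ) : ZMod M) • ⇑g) (γ : Gamma1 M) :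
    ∑ i : Option (Fin p), PeriodGamma.periods (Gamma1 M) g (Additive.ofMul (deltaCoc hpM γ i))
      = lam p * PeriodGamma.periods (Gamma1 M) g (Additive.ofMul γ) := by
  have hG := isPrimitiveOf_sum_delta hpM ψ g lam hT hneb
  have hF := (PeriodGamma.prim_isPrimitiveOf (Gamma1 M) g).const_smul (lam p)
  have e := hG.sub_eq hF ((γ : SL(2, ℤ)) • UpperHalfPlane.I) UpperHalfPlane.I
  simp only [Pi.smul_apply, smul_eq_mul] at e
  have hmove : ∀ i : Option (Fin p), deltaGL hpM i • ((γ : SL(2, ℤ)) • UpperHalfPlane.I)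
      = (deltaCoc hpM γ i : SL(2, ℤ)) • (deltaGL hpM (deltaNext hpM γ i) • UpperHalfPlane.I) :=
    fun i => by
    show deltaGL hpM i • ((Matrix.SpecialLinearGroup.mapGL ℝ (γ : SL(2, ℤ))) • UpperHalfPlane.I)
      = (Matrix.SpecialLinearGroup.mapGL ℝ (deltaCoc hpM γ i : SL(2, ℤ)))
          • (deltaGL hpM (deltaNext hpM γ i) • UpperHalfPlane.I)
    rw [smul_smul, smul_smul]
    exact congrArg (· • UpperHalfPlane.I) (deltaCoc_mul_deltaGL hpM γ i).symm
  rw [PeriodGamma.periods_eq (Gamma1 M) g γ UpperHalfPlane.I, mul_sub]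
  simp only [hmove] at e
  rw [← Fintype.sum_bijective _ (deltaNext_bijective hpM γ)
    (fun i => PeriodGamma.prim (Gamma1 M) g (deltaGL hpM (deltaNext hpM γ i) • UpperHalfPlane.I))
    (fun i => PeriodGamma.prim (Gamma1 M) g (deltaGL hpM i • UpperHalfPlane.I)) fun i => rfl] at e
  simp only [fun i => PeriodGamma.periods_eq (Gamma1 M) g (deltaCoc hpM γ i)
    (deltaGL hpM (deltaNext hpM γ i) • UpperHalfPlane.I), Finset.sum_sub_distrib]
  linear_combination e

end Hecke

theorem exists_semilinear_ne_zero {O W k : Type*} [CommRing O] [AddCommGroup W] [Module O W]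
    [Field k] (φ : O →+* k) (hmax : (RingHom.ker φ).IsMaximal)
    (hne : RingHom.ker φ • (⊤ : Submodule O W) ≠ ⊤) :
    ∃ lam : W →+ k, (∀ (a : O) (w : W), lam (a • w) = φ a * lam w) ∧ ∃ w, lam w ≠ 0 := by
  letI : Field (O ⧸ RingHom.ker φ) := Ideal.Quotient.field _
  set N : Submodule O W := RingHom.ker φ • ⊤ with hN
  obtain ⟨w, hw⟩ : ∃ w, w ∉ N := by
    by_contra! h
    exact hne (eq_top_iff.2 fun w _ => h w)
  have hv : N.mkQ w ≠ 0 := fun e => hw ((Submodule.Quotient.mk_eq_zero N).1 e)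
  have hfree : Module.Free (O ⧸ RingHom.ker φ) (W ⧸ N) := Module.Free.of_divisionRing _ _
  have hproj : Module.Projective (O ⧸ RingHom.ker φ) (W ⧸ N) := Module.Projective.of_free
  obtain ⟨f, hf⟩ := Module.Projective.exists_dual_ne_zero (O ⧸ RingHom.ker φ) hv
  let ι : (O ⧸ RingHom.ker φ) →+* k := Ideal.Quotient.lift _ φ fun a ha => ha
  refine ⟨ι.toAddMonoidHom.comp (f.toAddMonoidHom.comp N.mkQ.toAddMonoidHom), fun a u => ?_,
    w, fun e => hf (ι.injective (e.trans (map_zero ι).symm))⟩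
  show ι (f (N.mkQ (a • u))) = φ a * ι (f (N.mkQ u))
  have e : (a • N.mkQ u : W ⧸ N) = (Ideal.Quotient.mk (RingHom.ker φ) a) • N.mkQ u := rfl
  rw [map_smul, e, map_smul, smul_eq_mul, map_mul]
  rfl

section Class

variable (g : CuspForm (Gamma1 M) 2)

/-- The periods of `g`, as an element of `parHom`. -/
def periodsPar : parHom M ℂ :=
  ⟨PeriodGamma.periods (Gamma1 M) g, mem_parHom.2 fun γ hγ =>
    ParHom.trace_sq_le_eq_zero_of_mem (R := ℂ)
      (show PeriodGamma.periods (Gamma1 M) g ∈ ParHom.ellParHoms ℂ (Gamma1 M) ℂ from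
        ⟨PeriodGamma.periods_mem_parabolicHoms (Gamma1 M) g,
          ParHom.isEllipticHom_of_torsionFree _⟩) γ hγ⟩

/-- The span over algebraic integers of the periods of `g`. -/
def periodSpan : Submodule (integralClosure ℤ ℂ) ℂ :=
  Submodule.span _ (Set.range fun δ => PeriodGamma.periods (Gamma1 M) g δ)

theorem periods_mem_span (R : Type*) [Ring R] [Module R ℂ] (δ : Additive (Gamma1 M)) :
    PeriodGamma.periods (Gamma1 M) g δ ∈ Submodule.span R (Set.range fun i =>
      PeriodGamma.periods (Gamma1 M) g (Additive.ofMul (parHomGen M i))) := by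
  have e : PeriodGamma.periods (Gamma1 M) g δ = ∑ i, parHomPi M δ i •
      PeriodGamma.periods (Gamma1 M) g (Additive.ofMul (parHomGen M i)) :=
    parHom_eq_sum M (periodsPar g) δ
  rw [e]
  exact sum_mem fun i _ => zsmul_mem (Submodule.subset_span (Set.mem_range_self i)) _

theorem periodSpan_fg : (periodSpan g).FG := by
  have e : periodSpan g = Submodule.span (integralClosure ℤ ℂ) (Set.range fun i =>
      PeriodGamma.periods (Gamma1 M) g (Additive.ofMul (parHomGen M i))) := by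
    apply le_antisymm
    · rw [periodSpan, Submodule.span_le]
      rintro _ ⟨δ, rfl⟩
      exact periods_mem_span g _ δ
    · refine Submodule.span_mono ?_
      rintro _ ⟨i, rfl⟩
      exact ⟨_, rfl⟩
  rw [e]
  exact Submodule.fg_span (Set.finite_range _)

theorem periods_ne_zero (hg : g ≠ 0) : PeriodGamma.periods (Gamma1 M) g ≠ 0 := by
  intro h
  have h0 : g = 0 := PeriodGamma.injective_periods (Gamma1 M) (by
    rw [h, ← PeriodGamma.periodsLin_apply, map_zero])
  exact hg h0

/-- Eigen values of `T_p` are integral. -/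
theorem isIntegral_lam (hg : g ≠ 0) (ψ : DirichletCharacter ℂ M)
    (lam : ℕ → ℂ) (hT : HeckeEigen ψ g lam)
    (hneb : ∀ γ : Gamma0 M, (⇑g) ∣[(2 : ℤ)] (γ : SL(2, ℤ)) =
      ψ (((γ : SL(2, ℤ)) 1 1 : ℤ) : ZMod M) • ⇑g)
    {p : ℕ} [Fact p.Prime] (hpM : ¬ p ∣ M) : IsIntegral ℤ (lam p) := by
  set L := Submodule.span ℤ (Set.range fun i =>
    PeriodGamma.periods (Gamma1 M) g (Additive.ofMul (parHomGen M i))) with hL
  refine isIntegral_of_smul_mem_submodule L ?_ (Submodule.fg_span (Set.finite_range _)) _ fun x hx => ?_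
  · intro hbot
    refine periods_ne_zero g hg (AddMonoidHom.ext fun δ => ?_)
    have := periods_mem_span g ℤ δ
    rw [← hL, hbot, Submodule.mem_bot] at this
    exact this
  · induction hx using Submodule.span_induction with
    | mem x hx =>
      obtain ⟨i, rfl⟩ := hx
      rw [smul_eq_mul, ← sum_periods_deltaCoc hpM ψ g lam hT hneb]
      exact sum_mem fun j _ => periods_mem_span g ℤ _
    | zero => simp
    | add x y _ _ hx hy => rw [smul_add]; exact add_mem hx hy
    | smul c x _ hx => rw [smul_comm]; exact Submodule.smul_mem _ c hx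

/-- The eigen class: some nonzero element of `parHom M k` is an eigenvector of all `T_p`, `⟨p⟩`
with the eigenvalues of `g` read through `φ`. -/
theorem exists_eigenClass (ψ : DirichletCharacter ℂ M) (hg : g ≠ 0)
    (lam : ℕ → ℂ) (hT : HeckeEigen ψ g lam)
    (hneb : ∀ γ : Gamma0 M, (⇑g) ∣[(2 : ℤ)] (γ : SL(2, ℤ)) =
      ψ (((γ : SL(2, ℤ)) 1 1 : ℤ) : ZMod M) • ⇑g)
    {l : ℕ} [Fact l.Prime] {k : Type*} [Field k] [CharP k l] [IsAlgClosed k]
    (φ : integralClosure ℤ ℂ →+* k) :
    ∃ x : parHom M k, x ≠ 0 ∧ ∀ p : ℕ, ∀ _ : Fact p.Prime, ∀ hpM : ¬ p ∣ M,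
      ∃ a b : integralClosure ℤ ℂ, (a : ℂ) = lam p ∧ (b : ℂ) = ψ (p : ZMod M) ∧
        heckeT M p hpM x = φ a • x ∧ diamond M p x = φ b • x := by
  classical
  set m : Ideal (integralClosure ℤ ℂ) := RingHom.ker φ with hm
  have hmprime : m.IsPrime := RingHom.ker_isPrime φ
  have hmmax : m.IsMaximal := by
    refine Ideal.isMaximal_of_isIntegral_of_isMaximal_comap (R := ℤ) m ?_
    have e : m.comap (algebraMap ℤ (integralClosure ℤ ℂ)) = Ideal.span {(l : ℤ)} := by
      ext n
      rw [Ideal.mem_comap, hm, RingHom.mem_ker, eq_intCast, map_intCast,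
        CharP.intCast_eq_zero_iff k l, Ideal.mem_span_singleton]
    rw [e]
    exact PrincipalIdealRing.isMaximal_of_irreducible
      (Nat.prime_iff_prime_int.mp Fact.out).irreducible
  -- Nakayama
  set W := periodSpan g with hW
  set N : Submodule (integralClosure ℤ ℂ) W := m • ⊤ with hN
  have hne : N ≠ ⊤ := by
    intro htop
    have hfin : Module.Finite (integralClosure ℤ ℂ) W := Module.Finite.iff_fg.2 (periodSpan_fg g)
    obtain ⟨r, hr1, hr0⟩ := Submodule.exists_sub_one_mem_and_smul_eq_zero_of_fg_of_le_smul m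
      (⊤ : Submodule (integralClosure ℤ ℂ) W) hfin.fg_top (le_of_eq htop.symm)
    obtain ⟨δ, hδ⟩ : ∃ δ, PeriodGamma.periods (Gamma1 M) g δ ≠ 0 := by
      by_contra! h
      exact periods_ne_zero g hg (AddMonoidHom.ext h)
    have h0 := congrArg Subtype.val
      (hr0 (⟨_, Submodule.subset_span ⟨δ, rfl⟩⟩ : W) Submodule.mem_top)
    have : (r : ℂ) * PeriodGamma.periods (Gamma1 M) g δ = 0 := h0
    have hr : r = 0 := Subtype.ext ((mul_eq_zero.1 this).resolve_right hδ)
    rw [hr, zero_sub] at hr1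
    exact hmmax.ne_top ((Ideal.eq_top_iff_one _).2 (neg_neg (1 : (integralClosure ℤ ℂ)) ▸ neg_mem hr1))
  obtain ⟨lamF, hlam, w₀, hw₀⟩ := exists_semilinear_ne_zero φ hmmax hne
  letI : Module (integralClosure ℤ ℂ) (parHom M W) := parHomModule (integralClosure ℤ ℂ)
  letI : SMul (integralClosure ℤ ℂ) (parHom M W) := (parHomModule (integralClosure ℤ ℂ)).toSMul
  let PW : parHom M W := ⟨AddMonoidHom.mk'
      (fun δ => ⟨PeriodGamma.periods (Gamma1 M) g δ, Submodule.subset_span ⟨δ, rfl⟩⟩)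
      fun a b => Subtype.ext (map_add (PeriodGamma.periods (Gamma1 M) g) a b),
    mem_parHom.2 fun γ hγ => Subtype.ext (mem_parHom.1 (periodsPar g).2 γ hγ)⟩
  have hlamk : ∀ a : (integralClosure ℤ ℂ), parHomMap lamF (a • PW) = φ a • parHomMap lamF PW := fun a =>
    Subtype.ext (AddMonoidHom.ext fun δ => hlam a _)
  refine ⟨parHomMap lamF PW, ?_, fun p hp hpM => ?_⟩
  · intro h
    have hz : ∀ w : W, lamF w = 0 := by
      intro w
      obtain ⟨w, hw⟩ := w
      induction hw using Submodule.span_induction with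
      | mem x hx =>
        obtain ⟨δ, rfl⟩ := hx
        exact congrArg (fun y : parHom M k => (y : Additive (Gamma1 M) →+ k) δ) h
      | zero => exact map_zero lamF
      | add x y hx hy ihx ihy =>
        rw [show (⟨x + y, _⟩ : W) = ⟨x, hx⟩ + ⟨y, hy⟩ from rfl, map_add, ihx, ihy, add_zero]
      | smul c x hx ih =>
        rw [show (⟨c • x, _⟩ : W) = c • ⟨x, hx⟩ from rfl, hlam, ih, mul_zero]
    exact hw₀ (hz w₀)
  · have hu : IsUnit (p : ZMod M) :=
      (ZMod.unitOfCoprime p ((Nat.Prime.coprime_iff_not_dvd hp.out).2 hpM)).isUnit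
    have hb : IsIntegral ℤ (ψ (p : ZMod M)) := by
      obtain ⟨u, hu⟩ := hu
      refine IsIntegral.of_pow (n := Fintype.card (ZMod M)ˣ) Fintype.card_pos ?_
      rw [← hu, ← map_pow, ← Units.val_pow_eq_pow_val, pow_card_eq_one, Units.val_one, map_one]
      exact isIntegral_one
    refine ⟨⟨_, isIntegral_lam g hg ψ lam hT hneb hpM⟩, ⟨_, hb⟩, rfl, rfl, ?_, ?_⟩
    · refine Eq.trans ?_ (hlamk _)
      rw [heckeT_map]
      congr 1
      refine Subtype.ext (AddMonoidHom.ext fun δ => ?_)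
      obtain ⟨δ, rfl⟩ := Additive.ofMul.surjective δ
      rw [heckeT_apply]
      refine Subtype.ext ?_
      rw [Submodule.coe_sum]
      exact sum_periods_deltaCoc hpM ψ g lam hT hneb δ
    · refine Eq.trans ?_ (hlamk _)
      rw [diamond_map]
      congr 1
      refine Subtype.ext (AddMonoidHom.ext fun δ => ?_)
      obtain ⟨δ, rfl⟩ := Additive.ofMul.surjective δ
      refine Subtype.ext ?_
      exact (PeriodGamma.periods_eigen g (gammaP M p : SL(2, ℤ)) _
        (nebentype_gammaP hpM ψ g hneb) (conjGammaP M p δ) δ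
        (by show (gammaP M p : SL(2, ℤ)) * δ * (gammaP M p : SL(2, ℤ))⁻¹ * _ = _
            rw [inv_mul_cancel_right])).symm

end Class

end Fermat.Agent.DS.G1
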