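import Fermat.Agent.DS.G1.Gal.Action
import Fermat.Agent.DS.G1.Gal.Place
import Fermat.Agent.DS.G1.Gal.HeckeExp
import Fermat.Agent.DS.G1.Core.Reduction

/-!
# The Galois action on classes and the Eichler–Shimura relation
-/

set_option autoImplicit false

noncomputable section

namespace Fermat.Agent.DS.G1

open Fermat.Agent.DS ModularCurve
open Fermat.Agent.Igusa (qScale coeffMap_qScale)
open IsLocalRing (ResidueField)

attribute [local instance] muFintype

variable {M : ℕ} [NeZero M] {p : ℕ} [hp : Fact p.Prime]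

omit [NeZero M] in
theorem twist_heckeUpper (hpM : ¬ p ∣ M) (s : (ZMod M)ˣ) (v : PrimVec M) :
    heckeUpper (primeUnit p hpM) 0 (twist s v) = twist s (heckeUpper (primeUnit p hpM) 0 v) := by
  refine Subtype.ext (funext fun i => ?_)
  fin_cases i <;> simp [coe_heckeUpper]

omit [NeZero M] in
theorem twist_heckeUpper_self (hpM : ¬ p ∣ M) (v : PrimVec M) :
    twist (primeUnit p hpM) (heckeUpper (primeUnit p hpM) 0 v) = scal (primeUnit p hpM) v := by
  refine Subtype.ext (funext fun i => ?_)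
  fin_cases i <;> simp [coe_heckeUpper]

/-- Conjugation commutes with the Hecke transform. -/
theorem IsConj.hecke [NeZero p] (hpM : ¬ p ∣ M) {f : ℂ →+* ℂ} {s : (ZMod M)ˣ}
    {X Y W W' : Fam M M} (h : IsConj f s X Y) (hW : IsHeckeFam p hpM X W)
    (hW' : IsHeckeFam p hpM Y W') : IsConj f s W W' := fun v => by
  apply qExpand_injective (R := ℂ) (N := p)
  rw [← coeffMap_qExpand, qExpand_famExp_hecke p hpM hW', qExpand_famExp_hecke p hpM hW,
    map_mul, map_prod, coeffMap_qExpand, coeffMap_qExpand, ← h, ← twist_mul s, mul_comm s,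
    twist_mul, twist_heckeUpper hpM]
  congr 1
  let φ := restrictRootsOfUnity f p (R := ℂ) (S := ℂ)
  have hφ : Function.Bijective φ := Finite.injective_iff_bijective.1 fun a b hab => by
    refine Subtype.ext (Units.ext (f.injective ?_))
    exact congrArg (fun x : rootsOfUnity p ℂ => ((x : ℂˣ) : ℂ)) hab
  rw [← hφ.prod_comp fun z : rootsOfUnity p ℂ =>
    qScale (z : ℂˣ) (famExp (twist s (heckeUpper (primeUnit p hpM) 0 v)) Y)]
  refine Finset.prod_congr rfl fun z _ => ?_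
  rw [coeffMap_qScale, ← h]
  rfl

section Place

variable {A : ValuationSubring (AlgebraicClosure ℚ)} (hA : A.LiesOverPrime p)

/-- The reduced expansion at `v`. -/
def redExp (v : PrimVec M) : intFam M M (placeC hA).A →+* LaurentSeries (ResidueField A) :=
  (redSer hA).comp (((famExp v).comp (intFam M M (placeC hA).A).subtype).codRestrict _
    fun X => mem_serIn.2 (mem_intFam.1 X.2 v))

theorem redExp_mk (v : PrimVec M) {X : Fam M M} (hX : X ∈ intFam M M (placeC hA).A) :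
    redExp hA v ⟨X, hX⟩ = redSer hA ⟨famExp v X, mem_serIn.2 (mem_intFam.1 hX v)⟩ :=
  rfl

theorem redExp_famScal (u : (ZMod M)ˣ) (v : PrimVec M) {X : Fam M M}
    (hX : X ∈ intFam M M (placeC hA).A) :
    redExp hA v ⟨famScal u X, famScal_mem_intFam u hX⟩ = redExp hA (scal u v) ⟨X, hX⟩ :=
  rfl

theorem mem_intFam_of_isConj {σ : GalQ} (hσ : σ ∈ A.decompositionSubgroup ℚ) {s : (ZMod M)ˣ}
    {X Y : Fam M M} (hX : X ∈ intFam M M (placeC hA).A) (h : IsConj (extC σ) s X Y) :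
    Y ∈ intFam M M (placeC hA).A :=
  mem_intFam.2 fun v n => by
    rw [← twist_one v, ← mul_inv_cancel s, twist_mul, h, coeffMap_coeff]
    exact extC_mem_placeC hA hσ (mem_intFam.1 hX _ n)

theorem redExp_conj_inertia {σ : GalQ} (hσ : σ ∈ A.inertiaSubgroupIn ℚ) {s : (ZMod M)ˣ}
    {X Y : Fam M M} (hX : X ∈ intFam M M (placeC hA).A) (hY : Y ∈ intFam M M (placeC hA).A)
    (h : IsConj (extC σ) s X Y) (v : PrimVec M) :
    redExp hA (twist s v) ⟨Y, hY⟩ = redExp hA v ⟨X, hX⟩ := by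
  ext n
  rw [redExp_mk, redExp_mk, coeff_redSer, coeff_redSer]
  have e : (famExp (twist s v) Y).coeff n = extC σ ((famExp v X).coeff n) := by
    rw [h v, coeffMap_coeff]
  exact (congrArg (placeRed hA) (Subtype.ext e)).trans (placeRed_extC_inertia hA hσ
    (mem_intFam.1 hX v n) (e ▸ mem_intFam.1 hY _ n))

variable [CharP (ResidueField A) p]

theorem redExp_conj_frob {σ : GalQ} (hσ : A.IsFrobeniusAt σ p) {s : (ZMod M)ˣ}
    {X Y : Fam M M} (hX : X ∈ intFam M M (placeC hA).A) (hY : Y ∈ intFam M M (placeC hA).A)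
    (h : IsConj (extC σ) s X Y) (v : PrimVec M) :
    redExp hA (twist s v) ⟨Y, hY⟩ =
      coeffMap (frobenius (ResidueField A) p) (redExp hA v ⟨X, hX⟩) := by
  ext n
  rw [redExp_mk, redExp_mk, coeff_redSer, coeffMap_coeff, coeff_redSer, frobenius_def]
  have e : (famExp (twist s v) Y).coeff n = extC σ ((famExp v X).coeff n) := by
    rw [h v, coeffMap_coeff]
  exact (congrArg (placeRed hA) (Subtype.ext e)).trans (placeRed_extC_frob hA hσ
    (mem_intFam.1 hX v n) (e ▸ mem_intFam.1 hY _ n))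

omit [CharP (ResidueField A) p] in
/-- The Hecke transform after reduction. -/
theorem qExpand_redExp_hecke [NeZero p] (hpM : ¬ p ∣ M) {X W : Fam M M}
    (hW : IsHeckeFam p hpM X W) (hX : X ∈ intFam M M (placeC hA).A)
    (hWm : W ∈ intFam M M (placeC hA).A) (v : PrimVec M) :
    qExpand _ p (redExp hA v ⟨W, hWm⟩) =
      redExp hA (heckeUpper (primeUnit p hpM) 0 v) ⟨X, hX⟩ ^ p *
        qExpand _ p (qExpand _ p (redExp hA (twist (primeUnit p hpM) v) ⟨X, hX⟩)) := by
  have hs : ∀ w, famExp w X ∈ serIn (placeC hA).A := fun w => mem_serIn.2 (mem_intFam.1 hX w)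
  have hz := fun z : rootsOfUnity p ℂ =>
    redSer_qScale hA (hs (heckeUpper (primeUnit p hpM) 0 v)) ((mem_rootsOfUnity p _).1 z.2)
  choose hm hr using hz
  have e : (⟨qExpand ℂ p (famExp v W), qExpand_mem_serIn p (mem_serIn.2 (mem_intFam.1 hWm v))⟩ :
        serIn (placeC hA).A) =
      (∏ z : rootsOfUnity p ℂ, ⟨_, hm z⟩) *
        ⟨_, qExpand_mem_serIn p (qExpand_mem_serIn p (hs (twist (primeUnit p hpM) v)))⟩ :=
    Subtype.ext (by
      push_cast
      exact qExpand_famExp_hecke p hpM hW v)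
  have h := congrArg (redSer hA) e
  rw [redSer_qExpand, map_mul, map_prod, redSer_qExpand hA p (qExpand_mem_serIn p (hs _)),
    redSer_qExpand hA p (hs _), Finset.prod_congr rfl fun z _ => hr z, Finset.prod_const,
    Finset.card_univ, ← Nat.card_eq_fintype_card, Complex.card_rootsOfUnity] at h
  exact h

theorem redExp_hecke_eq [NeZero p] (hpM : ¬ p ∣ M) {σ : GalQ} (hσ : A.IsFrobeniusAt σ p)
    {X Y Z W : Fam M M} (hW : IsHeckeFam p hpM X W)
    (hY : IsConj (extC σ) (primeUnit p hpM) X Y) (hZ : IsConj (extC σ) (primeUnit p hpM) Z X)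
    (hX : X ∈ intFam M M (placeC hA).A) (hWm : W ∈ intFam M M (placeC hA).A)
    (hYm : Y ∈ intFam M M (placeC hA).A) (hZm : Z ∈ intFam M M (placeC hA).A) (v : PrimVec M) :
    redExp hA v ⟨W, hWm⟩ = redExp hA v ⟨famScal (primeUnit p hpM) Y,
      famScal_mem_intFam _ hYm⟩ * redExp hA v ⟨Z, hZm⟩ ^ p := by
  have hpow := fun x : LaurentSeries (ResidueField A) => RED.Spec.laurentSeries_pow_char p x
  apply qExpand_injective (R := ResidueField A) (N := p)
  rw [qExpand_redExp_hecke hA hpM hW hX hWm v, map_mul, redExp_famScal hA _ v hYm,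
    ← twist_heckeUpper_self hpM v, redExp_conj_frob hA hσ hX hYm hY, ← hpow,
    redExp_conj_frob hA hσ hZm hX hZ, hpow (redExp hA v ⟨Z, hZm⟩)]

variable {l : ℕ} [NeZero l] [hl : Fact l.Prime]

omit [CharP (ResidueField A) p] in
/-- Families with equal reductions have equal classes. -/
theorem class_eq_of_red_eq (hl5 : 5 ≤ l) (hlM : l ∣ M) (hpM : ¬ p ∣ M) {X G : Fam M M}
    {χ ψ : parHom M (ZMod l)} (hX : X ∈ intFam M M (placeC hA).A)
    (hG : G ∈ intFam M M (placeC hA).A) (hχ : HasClass l X χ) (hψ : HasClass l G ψ)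
    (hne : ∀ v, redExp hA v ⟨X, hX⟩ ≠ 0)
    (he : ∀ v, redExp hA v ⟨X, hX⟩ = redExp hA v ⟨G, hG⟩) : χ = ψ := by
  have hF : X * G ^ (l - 1) ∈ intFam M M (placeC hA).A := mul_mem hX (pow_mem hG _)
  have hl1 : l - 1 + 1 = l := Nat.sub_add_cancel hl.out.one_le
  have hr : ∀ v, redExp hA v ⟨_, hF⟩ = redExp hA v ⟨G, hG⟩ ^ l := fun v => by
    rw [show (⟨_, hF⟩ : intFam M M (placeC hA).A) = ⟨X, hX⟩ * ⟨G, hG⟩ ^ (l - 1) from rfl,
      map_mul, map_pow, he, ← pow_succ', hl1]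
  have h := class_eq_zero_of_congr hl5 hlM hpM (placeC hA) hF hG (hχ.mul (hψ.pow (l - 1)))
    (fun v => (hasUnitCoeff_iff hA (mem_serIn.2 (mem_intFam.1 hF v))).2 (by
      rw [← redExp_mk hA v hF, hr]
      exact pow_ne_zero _ (he v ▸ hne v)))
    (fun v => serCongr_of_redSer hA (mem_serIn.2 (mem_intFam.1 hF v))
      (pow_mem (mem_serIn.2 (mem_intFam.1 hG v)) l) (by
        rw [← redExp_mk hA v hF, hr, redExp_mk hA v hG, ← map_pow]
        rfl))
  rwa [sub_one_nsmul, add_neg_eq_zero] at h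

include hA in
omit [CharP (ResidueField A) p] in
theorem exists_normalized_rep (hl5 : 5 ≤ l) (hlM : l ∣ M) (hpM : ¬ p ∣ M)
    (χ : parHom M (ZMod l)) :
    ∃ X : Fam M M, HasClass l X χ ∧ X ∈ algFam M ∧
      ∃ hX : X ∈ intFam M M (placeC hA).A, ∀ v, redExp hA v ⟨X, hX⟩ ≠ 0 := by
  obtain ⟨X, hX, hXa⟩ := exists_rep hl5 hlM χ
  obtain ⟨c, hc0, hca, hcX, hu⟩ := exists_normalize hpM (placeC hA) hX.ne_zero hXa
  refine ⟨_, ?_, mul_mem (famConst_mem_algFam hca) hXa, hcX, fun v =>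
    (hasUnitCoeff_iff hA (mem_serIn.2 (mem_intFam.1 hcX v))).1 (hu v)⟩
  simpa using (hasClass_famConst (M := M) (l := l) hc0).mul hX

omit [CharP (ResidueField A) p] in
theorem galClass_inertia (hl5 : 5 ≤ l) (hlM : l ∣ M) (hA : A.LiesOverPrime p) (hpM : ¬ p ∣ M)
    {σ : GalQ} (hσ : σ ∈ A.inertiaSubgroupIn ℚ) (χ : parHom M (ZMod l)) :
    galClass hl5 hlM σ χ = χ := by
  obtain ⟨X, hX, hXa, hXm, hne⟩ := exists_normalized_rep hA hl5 hlM hpM χ
  have h3 := three_le_level hl5 hlM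
  have hs : ActsBy (extC σ) (1 : (ZMod M)ˣ) := actsBy_id (by omega)
    (extC_rootOfUnity_inertia hσ hA hpM zetaN_primitive.pow_eq_one)
  obtain ⟨Y, hY, -⟩ := exists_isConj (l := l) (extC σ) 1 hs X
  have hYm := mem_intFam_of_isConj hA (Fermat.Agent.Galois.inertia_le_decomposition A hσ) hXm hY
  have hred : ∀ v, redExp hA v ⟨X, hXm⟩ = redExp hA v ⟨Y, hYm⟩ := fun v => by
    rw [← redExp_conj_inertia hA hσ hXm hYm hY v, twist_one]
  exact (class_eq_of_red_eq hA hl5 hlM hpM hXm hYm hX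
    (hasClass_galClass hl5 hlM hXa hX hs hY) hne hred).symm

theorem heckeT_eq_galClass (hl5 : 5 ≤ l) (hlM : l ∣ M) (hA : A.LiesOverPrime p)
    (hpM : ¬ p ∣ M) {σ : GalQ} (hσ : A.IsFrobeniusAt σ p) (χ : parHom M (ZMod l)) :
    heckeT M p hpM χ =
      diamond M p (galClass hl5 hlM σ χ) + p • galClass hl5 hlM σ⁻¹ χ := by
  have : NeZero p := ⟨hp.out.ne_zero⟩
  set u := primeUnit p hpM with hu
  obtain ⟨X, hX, hXa, hXm, hne⟩ := exists_normalized_rep hA hl5 hlM hpM χ
  have hs : ActsBy (extC σ) u := by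
    rw [ActsBy, extC_rootOfUnity_frob hσ hA hpM zetaN_primitive.pow_eq_one, hu, coe_primeUnit,
      ZMod.val_natCast]
    exact pow_eq_pow_mod _ zetaN_primitive.pow_eq_one
  obtain ⟨t, ht⟩ := exists_actsExponent (M := M) (extC σ⁻¹)
  obtain ⟨Y, hY, -⟩ := exists_isConj (l := l) (extC σ) u hs X
  obtain ⟨Z, hZ, -⟩ := exists_isConj (l := l) (extC σ⁻¹) t ht X
  obtain ⟨X', hX', -⟩ := exists_isConj (l := l) (extC σ) u hs Z
  have hid : ∀ x, IsAlgebraic ℚ x → x = extC σ (extC σ⁻¹ x) := fun x hx => by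
    rw [← extC_mul σ σ⁻¹ hx, mul_inv_cancel, extC_one hx]
  have h3 := three_le_level hl5 hlM
  have hst : u * t = 1 := actsBy_unique (f := (extC σ).comp (extC σ⁻¹)) (g := RingHom.id ℂ)
    (hid _ isAlgebraic_zetaN).symm (hs.comp ht) (actsBy_id (by omega) rfl)
  have hcomp : IsConj (RingHom.id ℂ) (u * t) X X' := (hZ.comp hX').congr hXa fun x hx => hid x hx
  have e : X' = X := isConj_unique (RingHom.id ℂ) 1 (hst ▸ hcomp) (isConj_refl X)
  rw [e] at hX'
  have hσd := hσ.mem_decompositionSubgroup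
  have hYm := mem_intFam_of_isConj hA hσd hXm hY
  have hZm := mem_intFam_of_isConj hA (inv_mem hσd) hXm hZ
  obtain ⟨W, hW, hWc⟩ := exists_heckeFam (l := l) p hpM X
  have hWm := isHeckeFam_mem p hpM hW
    (fun x hx => mem_placeC_of_pow_eq_one hA hp.out.ne_zero hx) hXm
  have hred : ∀ v, redExp hA v ⟨W, hWm⟩ =
      redExp hA v ⟨famScal u Y * Z ^ p, mul_mem (famScal_mem_intFam u hYm) (pow_mem hZm p)⟩ :=
    fun v => by
      rw [redExp_hecke_eq hA hpM hσ hW hY hX' hXm hWm hYm hZm v, ← map_pow, ← map_mul]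
      rfl
  have hinj : Function.Injective (coeffMap (frobenius (ResidueField A) p)) :=
    Fermat.Agent.Igusa.coeffMap_injective (frobenius (ResidueField A) p).injective
  have hYne : ∀ v, redExp hA v ⟨Y, hYm⟩ ≠ 0 := fun v => by
    rw [← twist_one v, ← mul_inv_cancel u, twist_mul, redExp_conj_frob hA hσ hXm hYm hY,
      Ne, map_eq_zero_iff _ hinj]
    exact hne _
  have hZne : ∀ v, redExp hA v ⟨Z, hZm⟩ ≠ 0 := fun v h0 => hne (twist u v) (by
    rw [redExp_conj_frob hA hσ hZm hXm hX', h0, map_zero])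
  have hWne : ∀ v, redExp hA v ⟨W, hWm⟩ ≠ 0 := fun v => by
    rw [redExp_hecke_eq hA hpM hσ hW hY hX' hXm hWm hYm hZm v, redExp_famScal hA _ v hYm]
    exact mul_ne_zero (hYne _) (pow_ne_zero _ (hZne _))
  exact class_eq_of_red_eq hA hl5 hlM hpM hWm _ (hWc χ hX)
    ((hasClass_famScal p hpM _ _ (hasClass_galClass hl5 hlM hXa hX hs hY)).mul
      ((hasClass_galClass hl5 hlM hXa hX ht hZ).pow p)) hWne hred

end Place

/-- The Galois action on `parHom M (ZMod l)`: of finite level, commuting with Hecke and diamond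
operators, unramified at `p ∤ M` with `⟨p⟩ F² - T_p F + p = 0` for a Frobenius element `F`. -/
theorem exists_galois_parHom {M l : ℕ} [NeZero M] [NeZero l] [Fact l.Prime] (hl5 : 5 ≤ l)
    (hlM : l ∣ M) :
    ∃ S : GalQ →* Module.End (ZMod l) (parHom M (ZMod l)),
      GaloisFactorsThroughFiniteLevel S ∧
      ∀ (p : ℕ) [Fact p.Prime] (hpM : ¬ p ∣ M),
        (∀ σ χ, S σ (heckeT M p hpM χ) = heckeT M p hpM (S σ χ)) ∧
        (∀ σ χ, S σ (diamond M p χ) = diamond M p (S σ χ)) ∧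
        ∀ A : ValuationSubring (AlgebraicClosure ℚ), A.LiesOverPrime p →
          (∀ σ ∈ A.inertiaSubgroupIn ℚ, S σ = 1) ∧
          ∀ σ : GalQ, A.IsFrobeniusAt σ p → ∀ χ,
            diamond M p (S σ (S σ χ)) - heckeT M p hpM (S σ χ) + p • χ = 0 := by
  refine ⟨galParHom hl5 hlM, galParHom_finiteLevel hl5 hlM, fun p _ hpM => ?_⟩
  have : NeZero p := ⟨(Fact.out : p.Prime).ne_zero⟩
  refine ⟨fun σ χ => ?_, fun σ χ => ?_, fun A hA => ⟨fun σ hσ => LinearMap.ext fun χ => ?_,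
    fun σ hσ χ => ?_⟩⟩
  · obtain ⟨X, Y, s, hX, hXa, hs, hY, -, hψ⟩ := exists_rep_conj hl5 hlM σ χ
    obtain ⟨W, hW, hWc⟩ := exists_heckeFam (l := l) p hpM X
    obtain ⟨W', hW', hWc'⟩ := exists_heckeFam (l := l) p hpM Y
    have hWa : W ∈ algFam M := isHeckeFam_mem p hpM hW (fun x hx => isAlgebraic_iff_mem_Kb.1
      (isAlgebraic_of_pow_eq_one (Fact.out : p.Prime).ne_zero hx)) hXa
    rw [galParHom_apply, galParHom_apply]
    exact (hasClass_galClass hl5 hlM hWa (hWc χ hX) hs (hY.hecke hpM hW hW')).unique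
      (hWc' _ hψ)
  · obtain ⟨X, Y, s, hX, hXa, hs, hY, -, hψ⟩ := exists_rep_conj hl5 hlM σ χ
    rw [galParHom_apply, galParHom_apply]
    exact (hasClass_galClass hl5 hlM (famScal_mem_intFam _ hXa)
      (hasClass_famScal p hpM X χ hX) hs (hY.famScal _)).unique (hasClass_famScal p hpM Y _ hψ)
  · rw [galParHom_apply, Module.End.one_apply]
    exact galClass_inertia hl5 hlM hA hpM hσ χ
  · have := charP_place hA
    simp only [galParHom_apply]
    rw [heckeT_eq_galClass hl5 hlM hA hpM hσ, ← galClass_mul hl5 hlM σ⁻¹, inv_mul_cancel,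
      galClass_one]
    abel

end Fermat.Agent.DS.G1
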