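import Fermat.Agent.TraceFn.Burnside
import Fermat.Agent.GAL.TwoDimQuadratic
import Mathlib.LinearAlgebra.Matrix.ToLin
import Mathlib.LinearAlgebra.Matrix.GeneralLinearGroup.Defs

/-!
A representation all of whose elements satisfy `g² - t g + d(g) = 0` yields a two-dimensional one
with determinant `d` and trace `t`.
-/

set_option autoImplicit false

noncomputable section

namespace Fermat.Agent.DS.G1

variable {k : Type*} [Field k] [IsAlgClosed k] {G : Type*} [Group G]

section Polar

variable {A : Type*} [Ring A] [Algebra k A]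

omit [IsAlgClosed k] in
/-- If all `g` satisfy monic quadratic relations then so does every element of their span. -/
theorem quad_rel_of_mem_span (r : G →* A) (d t : G → k)
    (hd : ∀ g h, d (g * h) = d g * d h)
    (hrel : ∀ g, r g * r g - t g • r g + d g • (1 : A) = 0) {x : A}
    (hx : x ∈ Submodule.span k (Set.range r)) :
    ∃ τ s : k, x * x = τ • x + s • (1 : A) := by
  let S : Submodule k A := Submodule.span k {(1 : A)}
  have hinv : ∀ g, d g • r g⁻¹ = t g • (1 : A) - r g := by
    intro g
    have h := congrArg (r g⁻¹ * ·) (hrel g)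
    simp only [mul_add, mul_sub, mul_smul_comm, ← mul_assoc, ← map_mul, inv_mul_cancel, map_one,
      one_mul, mul_one, mul_zero] at h
    rw [sub_add_eq_add_sub, sub_eq_zero] at h
    rw [← h]; abel
  have hcross : ∀ g h : G, r g * r h + r h * r g - t h • r g - t g • r h ∈ S := by
    intro g h
    refine Submodule.mem_span_singleton.2 ⟨t (g * h) - t h * t g, ?_⟩
    have e : (d g * d h) • r (g * h)⁻¹ = (t h • (1 : A) - r h) * (t g • (1 : A) - r g) := by
      rw [← hinv, ← hinv, mul_inv_rev, map_mul, smul_mul_smul_comm, mul_comm]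
    rw [← hd, hinv, map_mul, sub_mul, mul_sub, mul_sub, smul_mul_smul_comm, one_mul, smul_mul_assoc,
      one_mul, mul_smul_comm, mul_one] at e
    rw [sub_smul]
    linear_combination (norm := abel) e
  let gen : Set (A × k) := Set.range fun g => (r g, t g)
  have hbil : ∀ p ∈ Submodule.span k gen, ∀ q ∈ Submodule.span k gen,
      p.1 * q.1 + q.1 * p.1 - q.2 • p.1 - p.2 • q.1 ∈ S := by
    intro p hp q hq
    induction hp, hq using Submodule.span_induction₂ with
    | mem_mem a b ha hb =>
      obtain ⟨g, rfl⟩ := ha
      obtain ⟨h, rfl⟩ := hb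
      exact hcross g h
    | zero_left b _ => simp
    | zero_right a _ => simp
    | add_left a b c _ _ _ h1 h2 =>
      convert add_mem h1 h2 using 1
      simp only [Prod.fst_add, Prod.snd_add, add_mul, mul_add, smul_add, add_smul]
      abel
    | add_right a b c _ _ _ h1 h2 =>
      convert add_mem h1 h2 using 1
      simp only [Prod.fst_add, Prod.snd_add, add_mul, mul_add, smul_add, add_smul]
      abel
    | smul_left c a b _ _ h1 =>
      convert S.smul_mem c h1 using 1
      simp only [Prod.smul_fst, Prod.smul_snd, smul_mul_assoc, mul_smul_comm, smul_sub, smul_add,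
        smul_eq_mul, smul_smul, mul_comm b.2 c]
    | smul_right c a b _ _ h1 =>
      convert S.smul_mem c h1 using 1
      simp only [Prod.smul_fst, Prod.smul_snd, smul_mul_assoc, mul_smul_comm, smul_sub, smul_add,
        smul_eq_mul, smul_smul, mul_comm a.2 c]
  have hsq : ∀ p ∈ Submodule.span k gen, p.1 * p.1 - p.2 • p.1 ∈ S := by
    intro p hp
    induction hp using Submodule.span_induction with
    | mem a ha =>
      obtain ⟨g, rfl⟩ := ha
      refine Submodule.mem_span_singleton.2 ⟨-d g, ?_⟩
      show -d g • (1 : A) = r g * r g - t g • r g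
      rw [neg_smul]
      linear_combination (norm := abel) -(hrel g)
    | zero => simp
    | add a b ha hb h1 h2 =>
      convert add_mem (add_mem h1 h2) (hbil a ha b hb) using 1
      simp only [Prod.fst_add, Prod.snd_add, add_mul, mul_add, smul_add, add_smul]
      abel
    | smul c a _ h1 =>
      convert S.smul_mem (c * c) h1 using 1
      simp only [Prod.smul_fst, Prod.smul_snd, smul_mul_assoc, mul_smul_comm, smul_sub, smul_eq_mul,
        smul_smul]
      ring_nf
  obtain ⟨p, hp, rfl⟩ : ∃ p ∈ Submodule.span k gen, p.1 = x := by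
    have : Submodule.span k (Set.range r) = (Submodule.span k gen).map (LinearMap.fst k A k) := by
      rw [Submodule.map_span]
      congr 1
      ext y
      simp [gen]
    rw [this] at hx
    obtain ⟨p, hp, rfl⟩ := hx
    exact ⟨p, hp, rfl⟩
  obtain ⟨s, hs⟩ := Submodule.mem_span_singleton.1 (hsq p hp)
  exact ⟨p.2, s, by rw [hs, add_sub_cancel]⟩

end Polar

variable {V : Type*} [AddCommGroup V] [Module k V] [FiniteDimensional k V]

/-- **Two-dimensional representation from a quadratic relation.** -/
theorem exists_rep_of_quad_rel [Nontrivial V] (r : G →* Module.End k V) (d : G →* kˣ)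
    (hrel : ∀ g, ∃ t : k, r g * r g - t • r g + (d g : k) • (1 : Module.End k V) = 0) :
    ∃ ρ : G →* GL (Fin 2) k, (∀ g, r g = 1 → d g = 1 → ρ g = 1) ∧
      (∀ g, Matrix.det ((ρ g : GL (Fin 2) k) : Matrix (Fin 2) (Fin 2) k) = d g) ∧
      ∀ (g : G) (t : k), r g * r g - t • r g + (d g : k) • (1 : Module.End k V) = 0 →
        Matrix.trace ((ρ g : GL (Fin 2) k) : Matrix (Fin 2) (Fin 2) k) = t := by
  classical
  -- a minimal nonzero invariant subspace
  have hex : ∃ n, ∃ W : Submodule k V, W ≠ ⊥ ∧ (∀ g, ∀ x ∈ W, r g x ∈ W) ∧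
      Module.finrank k W = n := ⟨_, ⊤, top_ne_bot, fun _ _ _ => trivial, rfl⟩
  obtain ⟨W, hW0, hWinv, hWn⟩ := Nat.find_spec hex
  have hWmin : ∀ U : Submodule k V, U ≠ ⊥ → (∀ g, ∀ x ∈ U, r g x ∈ U) →
      Module.finrank k W ≤ Module.finrank k U := fun U h1 h2 => by
    rw [hWn]; exact Nat.find_le ⟨U, h1, h2, rfl⟩
  have : Nontrivial W := Submodule.nontrivial_iff_ne_bot.2 hW0
  let rW : G →* Module.End k W :=
    { toFun := fun g => (r g).restrict (hWinv g)
      map_one' := by ext x; simp
      map_mul' := fun g h => by ext x; simp }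
  have hirr : ∀ U : Submodule k W, (∀ g : G, ∀ x ∈ U, rW g x ∈ U) → U = ⊥ ∨ U = ⊤ := by
    intro U hU
    by_contra! hne
    have h1 : U.map W.subtype ≠ ⊥ := by
      intro h0
      refine hne.1 ((Submodule.map_injective_of_injective W.injective_subtype) ?_)
      rw [h0, Submodule.map_bot]
    have h2 : ∀ g, ∀ x ∈ U.map W.subtype, r g x ∈ U.map W.subtype := by
      rintro g _ ⟨x, hx, rfl⟩
      exact ⟨rW g x, hU g x hx, rfl⟩
    have h3 := hWmin _ h1 h2
    rw [Submodule.finrank_map_subtype_eq] at h3
    exact absurd h3 (not_le.2 (Submodule.finrank_lt hne.2))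
  choose t₀ ht₀ using hrel
  have hrelW : ∀ (g : G) (t : k), r g * r g - t • r g + (d g : k) • (1 : Module.End k V) = 0 →
      rW g * rW g - t • rW g + (d g : k) • (1 : Module.End k W) = 0 := by
    intro g t h
    ext x
    have := congrArg (fun f : Module.End k V => f (x : V)) h
    simpa [rW] using this
  let b := Module.finBasis k W
  let e := algEquivMatrix b
  let M : G →* Matrix (Fin (Module.finrank k W)) (Fin (Module.finrank k W)) k :=
    (e : Module.End k W →* _).comp rW
  have hrelM : ∀ (g : G) (t : k), r g * r g - t • r g + (d g : k) • (1 : Module.End k V) = 0 →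
      M g * M g - t • M g + (d g : k) • 1 = 0 := by
    intro g t h
    have := congrArg e (hrelW g t h)
    simpa [M] using this
  have hM1 : ∀ g, r g = 1 → M g = 1 := by
    intro g hg
    have : rW g = 1 := by ext x; simp [rW, hg]
    simp [M, this]
  have hdim : Module.finrank k W ≤ 2 := by
    by_contra! hlt
    let i : Fin 3 → Fin (Module.finrank k W) := fun j => ⟨j, lt_of_lt_of_le j.2 hlt⟩
    let N : Matrix (Fin (Module.finrank k W)) (Fin (Module.finrank k W)) k :=
      Matrix.single (i 0) (i 1) 1 + Matrix.single (i 1) (i 2) 1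
    have hspan := TraceFn.span_range_eq_top_of_irreducible rW hirr
    obtain ⟨τ, s, hτ⟩ := quad_rel_of_mem_span rW (fun g => (d g : k)) t₀
      (fun g h => by simp) (fun g => hrelW g _ (ht₀ g))
      (x := e.symm N) (hspan ▸ Submodule.mem_top)
    have h := congrArg (fun f => e f (i 0) (i 2)) hτ
    simp only [map_mul, map_add, map_smul, map_one, AlgEquiv.apply_symm_apply] at h
    simp [N, i, Matrix.add_mul, Matrix.mul_add, Matrix.add_apply, Matrix.single_apply,
      Matrix.one_apply, Matrix.mul_apply, Fin.ext_iff] at h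
    rw [Finset.sum_eq_single (i 1) (fun j _ hj => by
      rw [if_neg (fun e => hj (Fin.ext e.symm))]) (by simp)] at h
    simp [i] at h
  have hpos : 0 < Module.finrank k W := Module.finrank_pos
  rcases (show Module.finrank k W = 1 ∨ Module.finrank k W = 2 by omega) with h1 | h2
  · -- a character
    have i0 : Fin (Module.finrank k W) := ⟨0, hpos⟩
    have hsub : ∀ j : Fin (Module.finrank k W), j = i0 := fun j => Fin.ext (by omega)
    let χ : G →* k :=
      { toFun := fun g => M g i0 i0
        map_one' := by simp
        map_mul' := fun g h => by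
          rw [map_mul, Matrix.mul_apply, Finset.sum_eq_single i0 (fun j _ hj => absurd (hsub j) hj)
            (by simp)] }
    let ρ0 : G →* Matrix (Fin 2) (Fin 2) k :=
      { toFun := fun g => Matrix.diagonal ![χ g, (d g : k) * χ g⁻¹]
        map_one' := by ext a c; fin_cases a <;> fin_cases c <;> simp
        map_mul' := fun g h => by
          ext a c
          fin_cases a <;> fin_cases c <;>
            simp [Matrix.mul_apply, mul_inv_rev, map_mul] <;> ring }
    have hinv : ∀ g, χ g * χ g⁻¹ = 1 := fun g => by rw [← map_mul, mul_inv_cancel, map_one]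
    refine ⟨ρ0.toHomUnits, fun g hg e3 => ?_, fun g => ?_, fun g t ht => ?_⟩
    · ext a c
      have e1 : χ g = 1 := by simp [χ, hM1 g hg]
      have e2 : χ g⁻¹ = 1 := by simpa [e1] using hinv g
      fin_cases a <;> fin_cases c <;> simp [ρ0, e1, e2, e3]
    · simp only [MonoidHom.coe_toHomUnits, ρ0, MonoidHom.coe_mk, OneHom.coe_mk,
        Matrix.det_diagonal, Fin.prod_univ_two, Matrix.cons_val_zero, Matrix.cons_val_one]
      linear_combination (d g : k) * hinv g
    · have h := congrArg (fun f => f i0 i0) (hrelM g t ht)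
      simp only [Matrix.add_apply, Matrix.sub_apply, Matrix.smul_apply, Matrix.one_apply_eq,
        Matrix.zero_apply, Matrix.mul_apply] at h
      rw [Finset.sum_eq_single i0 (fun j _ hj => absurd (hsub j) hj) (by simp)] at h
      have hχ : M g i0 i0 = χ g := rfl
      rw [hχ, smul_eq_mul, smul_eq_mul, mul_one] at h
      simp only [MonoidHom.coe_toHomUnits, ρ0, MonoidHom.coe_mk, OneHom.coe_mk,
        Matrix.trace_fin_two, Matrix.diagonal_apply_eq, Matrix.cons_val_zero, Matrix.cons_val_one]
      linear_combination χ g⁻¹ * h + (t - χ g) * hinv g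
  · -- an irreducible plane
    let eq2 : Fin (Module.finrank k W) ≃ Fin 2 := finCongr h2
    let E := Matrix.reindexAlgEquiv k k eq2
    let M2 : G →* Matrix (Fin 2) (Fin 2) k := (E : _ →* _).comp M
    have hrel2 : ∀ (g : G) (t : k), r g * r g - t • r g + (d g : k) • (1 : Module.End k V) = 0 →
        M2 g * M2 g - t • M2 g + (d g : k) • 1 = 0 := by
      intro g t h
      have := congrArg E (hrelM g t h)
      simpa [M2] using this
    have hns : ∀ P : Ideal k, P.IsMaximal → ∃ g, ¬ GAL.ScalarMod P (M2 g) := by
      intro P hP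
      have hP0 : P = ⊥ := (Ideal.eq_bot_or_top P).resolve_right hP.ne_top
      by_contra! hall
      have hsc : ∀ g, ∃ c : k, rW g = c • (1 : Module.End k W) := by
        intro g
        refine ⟨M2 g 0 0, ?_⟩
        apply e.injective
        apply E.injective
        show M2 g = _
        obtain ⟨a, b', c'⟩ := hall g
        rw [hP0, Ideal.mem_bot] at a b' c'
        simp only [map_smul, map_one]
        ext u v
        fin_cases u <;> fin_cases v <;> simp [a, b', sub_eq_zero.1 c']
      obtain ⟨w, hw⟩ := exists_ne (0 : W)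
      rcases hirr (k ∙ w) (fun g x hx => by
        obtain ⟨c, hc⟩ := hsc g
        rw [hc]
        exact Submodule.smul_mem _ c hx) with h | h
      · exact hw (Submodule.span_singleton_eq_bot.1 h)
      · have := finrank_span_singleton (K := k) hw
        rw [h, finrank_top] at this
        omega
    let d' : G →* k := (Units.coeHom k).comp d
    have hdet : ∀ g, (M2 g).det = (d g : k) := fun g =>
      GAL.det_eq_of_quadRel M2 d' (fun g => ⟨_, hrel2 g _ (ht₀ g)⟩) hns g
    refine ⟨M2.toHomUnits, fun g hg _ => ?_, hdet, fun g t ht => ?_⟩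
    · ext : 1
      simp [M2, hM1 g hg]
    · exact GAL.trace_eq_of_rel (M := M2 g) (N := M2 g⁻¹) (by rw [← map_mul, inv_mul_cancel, map_one])
        (hdet g) (hrel2 g t ht)

end Fermat.Agent.DS.G1
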