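import Fermat.Agent.RED.Kernel.WPPoint
import Fermat.Agent.RED.Kernel.WPSeries
import Fermat.Agent.MF.KleinJ

/-!
# The normalised Weierstrass equation of `ℂ / (ℤ + ℤτ)`

With `P = ℘ / (2πi)²` and `P' = ℘' / (2πi)³` one has `P'² = 4 P³ - (E₄/12) P + E₆/216`.
-/

set_option autoImplicit false

noncomputable section

open UpperHalfPlane EisensteinSeries
open scoped PeriodPair Real

namespace Fermat.Agent.DS.G1

open Fermat.Agent.RED.Kernel

theorem tauPair_G {k : ℕ} (hk : 3 ≤ k) (τ : ℍ) :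
    (tauPair τ).G k = 2 * riemannZeta k * ModularForm.E hk τ := by
  have h1 := tsum_eisSummand_eq_riemannZeta_mul_eisensteinSeries hk τ
  have h2 : ModularForm.E hk τ = (1 / 2 : ℂ) * eisensteinSeries (N := 1) 0 k τ := by
    rw [show ModularForm.E hk τ = (1 / 2 : ℂ) • eisensteinSeriesSIF (N := 1) 0 k τ from rfl,
      eisensteinSeriesSIF_apply]
    simp [smul_eq_mul]
  rw [show (2 : ℂ) * riemannZeta k * ModularForm.E hk τ =
      riemannZeta k * eisensteinSeries (N := 1) 0 k τ by rw [h2]; ring, ← h1]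
  let e : (Fin 2 → ℤ) ≃ (tauPair τ).lattice :=
    ((finTwoArrowEquiv ℤ).trans (Equiv.prodComm ℤ ℤ)).trans
      (tauPair τ).latticeEquivProd.symm.toEquiv
  rw [PeriodPair.G, ← e.tsum_eq]
  refine tsum_congr fun v => ?_
  have he : ((e v : (tauPair τ).lattice) : ℂ) = (v 0 : ℂ) * τ + v 1 := by
    rw [show ((e v : (tauPair τ).lattice) : ℂ) =
      (((tauPair τ).latticeEquivProd.symm (v 1, v 0) : (tauPair τ).lattice) : ℂ) from rfl,
      PeriodPair.latticeEquiv_symm_apply]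
    simp [tauPair]
    ring
  rw [he, eisSummand, zpow_neg, zpow_natCast]

theorem riemannZeta_six' : riemannZeta 6 = (π : ℂ) ^ 6 / 945 := by
  have h := riemannZeta_two_mul_nat (k := 3) (by norm_num)
  rw [show bernoulli (2 * 3) = 1 / 42 by decide +kernel] at h
  norm_num at h
  rw [h]
  ring

theorem g₂_tauPair (τ : ℍ) :
    (tauPair τ).g₂ = (2 * π * Complex.I) ^ 4 * (ModularForm.E₄ τ / 12) := by
  rw [PeriodPair.g₂, tauPair_G (by norm_num : 3 ≤ 4) τ, show ((4 : ℕ) : ℂ) = 4 by norm_num,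
    riemannZeta_four, mul_pow, mul_pow,
    show (Complex.I : ℂ) ^ 4 = 1 by rw [show (4 : ℕ) = 2 * 2 from rfl, pow_mul, Complex.I_sq]; norm_num]
  ring

theorem g₃_tauPair (τ : ℍ) :
    (tauPair τ).g₃ = (2 * π * Complex.I) ^ 6 * (-(ModularForm.E₆ τ) / 216) := by
  rw [PeriodPair.g₃, tauPair_G (by norm_num : 3 ≤ 6) τ, show ((6 : ℕ) : ℂ) = 6 by norm_num,
    riemannZeta_six', mul_pow, mul_pow,
    show (Complex.I : ℂ) ^ 6 = -1 by rw [show (6 : ℕ) = 2 * 3 from rfl, pow_mul, Complex.I_sq]; norm_num]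
  ring

theorem wpCurve_tauPair_Δ (τ : ℍ) : (wpCurve (tauPair τ)).Δ ≠ 0 := by
  have h : (wpCurve (tauPair τ)).Δ = (tauPair τ).g₂ ^ 3 - 27 * (tauPair τ).g₃ ^ 2 := by
    simp [WeierstrassCurve.Δ, WeierstrassCurve.b₂, WeierstrassCurve.b₄, WeierstrassCurve.b₆,
      WeierstrassCurve.b₈]
    ring
  rw [h, g₂_tauPair, g₃_tauPair]
  have hd := ModularForm.discriminant_eq_E₄_cube_sub_E₆_sq τ
  intro h0
  refine mul_ne_zero (pow_ne_zero 12 Complex.two_pi_I_ne_zero)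
    (ModularForm.discriminant_ne_zero τ) ?_
  rw [hd]
  linear_combination h0

/-- `℘' / (2πi)³`. -/
def wpdN (τ : ℍ) (z : ℂ) : ℂ := ℘'[tauPair τ] z / (2 * π * Complex.I) ^ 3

theorem wpdN_sq {τ : ℍ} {z : ℂ} (hz : z ∉ (tauPair τ).lattice) :
    wpdN τ z ^ 2 = 4 * wpN τ z ^ 3 - ModularForm.E₄ τ / 12 * wpN τ z + ModularForm.E₆ τ / 216 := by
  have h := (tauPair τ).derivWeierstrassP_sq z hz
  rw [g₂_tauPair, g₃_tauPair] at h
  have hc : (2 * π * Complex.I : ℂ) ≠ 0 := Complex.two_pi_I_ne_zero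
  rw [wpdN, wpN, div_pow, h]
  generalize (2 * π * Complex.I : ℂ) = c at hc
  field_simp
  ring

end Fermat.Agent.DS.G1
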