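import Fermat.Agent.DS.G1.WPSer
import Fermat.Agent.DS.G1.BaseSys
import Mathlib.RingTheory.RootsOfUnity.Complex
import Mathlib.RingTheory.RootsOfUnity.Lemmas
import Mathlib.RingTheory.HahnSeries.Summable

/-!
# Integrality, conjugates and units for the series of `℘` at torsion points
-/

set_option autoImplicit false
set_option linter.unusedSectionVars false

noncomputable section

open UpperHalfPlane HahnSeries
open scoped PeriodPair Real Manifold

namespace Fermat.Agent.DS.G1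

open Fermat.Agent.RED.Kernel Fermat.Agent.Igusa ModularCurve

variable {N : ℕ} [NeZero N]

/-! ### Units of `ℤ[ζ_N, 1/N]` -/

theorem isPrimitiveRoot_zetaN : IsPrimitiveRoot (zetaN N) N :=
  Complex.isPrimitiveRoot_exp N (NeZero.ne N)

theorem zetaN_mem : zetaN N ∈ zetaRing N := Subring.subset_closure (by simp)

theorem inv_natCast_mem : (N : ℂ)⁻¹ ∈ zetaRing N := Subring.subset_closure (by simp)

theorem zetaN_ne_zero : zetaN N ≠ 0 := Complex.exp_ne_zero _

/-- `c` is a unit of `ℤ[ζ_N, 1/N]`. -/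
def IsZUnit (N : ℕ) (c : ℂ) : Prop := c ≠ 0 ∧ c ∈ zetaRing N ∧ c⁻¹ ∈ zetaRing N

theorem IsZUnit.mul {c d : ℂ} (hc : IsZUnit N c) (hd : IsZUnit N d) : IsZUnit N (c * d) :=
  ⟨mul_ne_zero hc.1 hd.1, mul_mem hc.2.1 hd.2.1, by rw [mul_inv]; exact mul_mem hc.2.2 hd.2.2⟩

theorem IsZUnit.inv {c : ℂ} (hc : IsZUnit N c) : IsZUnit N c⁻¹ :=
  ⟨inv_ne_zero hc.1, hc.2.2, by rw [inv_inv]; exact hc.2.1⟩

theorem IsZUnit.div {c d : ℂ} (hc : IsZUnit N c) (hd : IsZUnit N d) : IsZUnit N (c / d) := by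
  rw [div_eq_mul_inv]
  exact hc.mul hd.inv

theorem zetaN_inv_eq : (zetaN N)⁻¹ = zetaN N ^ (N - 1) := by
  refine inv_eq_of_mul_eq_one_right ?_
  rw [← pow_succ', Nat.sub_add_cancel (NeZero.one_le (n := N)), isPrimitiveRoot_zetaN.pow_eq_one]

theorem isZUnit_zetaN_pow (k : ℕ) : IsZUnit N (zetaN N ^ k) :=
  ⟨pow_ne_zero _ zetaN_ne_zero, pow_mem zetaN_mem k, by
    rw [← inv_pow, zetaN_inv_eq, ← pow_mul]
    exact pow_mem zetaN_mem _⟩

theorem isZUnit_one_sub {x : ℂ} (hx : x ^ N = 1) (h1 : x ≠ 1) : IsZUnit N (1 - x) := by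
  obtain ⟨i, hi, rfl⟩ := isPrimitiveRoot_zetaN.eq_pow_of_pow_eq_one hx
  obtain ⟨m, rfl⟩ : ∃ m, N = m + 1 := ⟨N - 1, (Nat.sub_add_cancel (NeZero.one_le (n := N))).symm⟩
  have hprod := (isPrimitiveRoot_zetaN (N := m + 1)).prod_one_sub_pow_eq_order
  obtain ⟨j, rfl⟩ : ∃ j, i = j + 1 := ⟨i - 1, by
    rcases i with _ | i
    · simp at h1
    · simp⟩
  rw [← Finset.mul_prod_erase _ _ (Finset.mem_range.mpr (show j < m by omega))] at hprod
  refine ⟨sub_ne_zero.mpr (Ne.symm h1), sub_mem (one_mem _) (pow_mem zetaN_mem _), ?_⟩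
  have hne : 1 - zetaN (m + 1) ^ (j + 1) ≠ 0 := sub_ne_zero.mpr (Ne.symm h1)
  have : (1 - zetaN (m + 1) ^ (j + 1))⁻¹ = ((m + 1 : ℕ) : ℂ)⁻¹ *
      ∏ k ∈ (Finset.range m).erase j, (1 - zetaN (m + 1) ^ (k + 1)) := by
    refine inv_eq_of_mul_eq_one_right ?_
    rw [mul_left_comm, hprod, Nat.cast_succ]
    exact inv_mul_cancel₀ (Nat.cast_add_one_ne_zero m)
  rw [this]
  exact mul_mem inv_natCast_mem (prod_mem fun k _ => sub_mem (one_mem _) (pow_mem zetaN_mem _))

/-- `ζ^b` for `b` modulo `N`. -/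
def zetaPow (b : ZMod N) : ℂ := zetaN N ^ b.val

theorem zetaPow_natCast (k : ℕ) : zetaPow ((k : ℕ) : ZMod N) = zetaN N ^ k := by
  rw [zetaPow, ZMod.val_natCast, ← pow_eq_pow_mod k isPrimitiveRoot_zetaN.pow_eq_one]

theorem zetaPow_add (b c : ZMod N) : zetaPow (b + c) = zetaPow b * zetaPow c := by
  rw [← ZMod.natCast_zmod_val b, ← ZMod.natCast_zmod_val c, ← Nat.cast_add, zetaPow_natCast,
    zetaPow_natCast, zetaPow_natCast, _root_.pow_add]

theorem zetaPow_eq_one_iff (b : ZMod N) : zetaPow b = 1 ↔ b = 0 := by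
  rw [zetaPow, isPrimitiveRoot_zetaN.pow_eq_one_iff_dvd, ← ZMod.natCast_eq_zero_iff,
    ZMod.natCast_zmod_val]

theorem zetaPow_injective : Function.Injective (zetaPow (N := N)) := fun b c h =>
  ZMod.val_injective N (isPrimitiveRoot_zetaN.pow_inj b.val_lt c.val_lt h)

theorem zetaPow_neg (b : ZMod N) : zetaPow (-b) = (zetaPow b)⁻¹ := by
  refine eq_inv_of_mul_eq_one_left ?_
  rw [← zetaPow_add, neg_add_cancel, zetaPow_eq_one_iff]

theorem isZUnit_zetaPow (b : ZMod N) : IsZUnit N (zetaPow b) := isZUnit_zetaN_pow _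

theorem zetaPow_pow (b : ZMod N) : zetaPow b ^ N = 1 := by
  rw [zetaPow, ← pow_mul, mul_comm, pow_mul, isPrimitiveRoot_zetaN.pow_eq_one, one_pow]

theorem expE_natCast_div (b : ℕ) : expE ((b : ℂ) / N) = zetaN N ^ b := by
  rw [expE, zetaN, ← Complex.exp_nat_mul]
  congr 1
  ring

theorem map_zetaPow {σ : ℂ →+* ℂ} {s : (ZMod N)ˣ} (hσ : ActsBy σ s) (b : ZMod N) :
    σ (zetaPow b) = zetaPow ((s : ZMod N) * b) := by
  rw [zetaPow, map_pow, hσ, ← pow_mul, ← zetaPow_natCast, Nat.cast_mul, ZMod.natCast_zmod_val,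
    ZMod.natCast_zmod_val]

/-! ### The series -/

/-- The series of `P - 1/12` at `v`. -/
def qvPS (v : Fin 2 → ZMod N) : PowerSeries ℂ :=
  PowerSeries.mk fun n => pCoef N (v 0).val (zetaPow (v 1)) n

theorem hasPSum_qvPS {v : Fin 2 → ZMod N} (hv : v ≠ 0) :
    HasPSum N (fun τ => wpVec N v τ - 1 / 12) (qvPS v) := by
  intro τ
  have e : ((((v 1).val : ℤ)) : ℂ) = ((v 1).val : ℂ) := Int.cast_natCast _
  have h := hasSum_pCoef τ (v 0).val_lt ((v 1).val : ℤ) (zetaPow (v 1))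
    (by rw [e, expE_natCast_div]; rfl)
    (by rw [e]; exact fun h => hv ((torsPt_mem_iff v τ).mp h))
  rw [e] at h
  simpa [qvPS, PowerSeries.coeff_mk, wpVec, torsPt] using h

theorem wpVec_sub_mem_expFun {v : Fin 2 → ZMod N} (hv : v ≠ 0) :
    (fun τ => wpVec N v τ - 1 / 12) ∈ expFun N :=
  mem_expFun_of_hasExp (s := ofPowerSeries ℤ ℂ (qvPS v)) (mdiff_of_hasPSum (hasPSum_qvPS hv))
    ⟨0, qvPS v, by simp, by simpa using hasPSum_qvPS hv⟩

/-- `P - 1/12` as a member of `expFun N`. -/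
def wpQ {v : Fin 2 → ZMod N} (hv : v ≠ 0) : expFun N := ⟨_, wpVec_sub_mem_expFun hv⟩

@[simp] theorem coe_wpQ {v : Fin 2 → ZMod N} (hv : v ≠ 0) :
    (wpQ hv : ℍ → ℂ) = fun τ => wpVec N v τ - 1 / 12 := rfl

theorem expan_wpQ {v : Fin 2 → ZMod N} (hv : v ≠ 0) :
    expan N (wpQ hv) = ofPowerSeries ℤ ℂ (qvPS v) :=
  expan_eq ⟨0, qvPS v, by simp, by simpa using hasPSum_qvPS hv⟩

theorem qvPS_neg {v : Fin 2 → ZMod N} (hv : v ≠ 0) : qvPS (-v) = qvPS v := by
  refine (hasPSum_qvPS (neg_ne_zero.mpr hv)).unique (NeZero.pos N) ?_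
  simpa [wpVec_neg] using hasPSum_qvPS hv

theorem gCoef_mem {S : Subring ℂ} {x : ℂ} (hx : x ∈ S) (e n : ℕ) : gCoef e x n ∈ S := by
  unfold gCoef
  split_ifs
  · exact mul_mem (natCast_mem S _) (pow_mem hx _)
  · exact zero_mem _

theorem map_gCoef (σ : ℂ →+* ℂ) (e : ℕ) (x : ℂ) (n : ℕ) :
    σ (gCoef e x n) = gCoef e (σ x) n := by
  unfold gCoef
  split_ifs <;> simp

theorem map_pCoef (σ : ℂ →+* ℂ) (a : ℕ) (x : ℂ) (n : ℕ) :
    σ (pCoef N a x n) = pCoef N a (σ x) n := by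
  simp [pCoef, rowCoef, map_gCoef, apply_ite σ, gSer, map_div₀, map_inv₀, map_ofNat]

theorem coeffMap_qvPS {σ : ℂ →+* ℂ} {s : (ZMod N)ˣ} (hσ : ActsBy σ s) (v : Fin 2 → ZMod N) :
    (qvPS v).map σ = qvPS ![v 0, (s : ZMod N) * v 1] := by
  ext n
  simp [qvPS, map_pCoef, map_zetaPow hσ]

theorem isZUnit_gSer {b : ZMod N} (hb : b ≠ 0) : IsZUnit N (gSer (zetaPow b)) := by
  have h := isZUnit_one_sub (zetaPow_pow b) (fun h => hb ((zetaPow_eq_one_iff b).mp h))
  rw [gSer, sq]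
  exact (isZUnit_zetaPow b).div (h.mul h)

theorem coeff_qvPS_mem {v : Fin 2 → ZMod N} (hv : v ≠ 0) (n : ℕ) :
    PowerSeries.coeff n (qvPS v) ∈ zetaRing N := by
  rw [qvPS, PowerSeries.coeff_mk, pCoef]
  have hx := isZUnit_zetaPow (v 1)
  refine add_mem ?_ (sum_mem fun c _ => ?_)
  · split_ifs with h1 h2
    · refine (isZUnit_gSer fun h => hv ?_).2.1
      funext i
      fin_cases i
      · exact (ZMod.val_eq_zero _).mp h1
      · exact h
    · exact zero_mem _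
    · exact gCoef_mem hx.2.1 _ _
  · exact sub_mem (add_mem (gCoef_mem hx.2.1 _ _) (gCoef_mem hx.2.2 _ _))
      (mul_mem (ofNat_mem (zetaRing N) 2) (gCoef_mem (one_mem _) _ _))

/-! ### The leading coefficient -/

/-- The leading coefficient for `0 ≤ 2a ≤ N`. -/
def leadC (N a : ℕ) (x : ℂ) : ℂ := if a = 0 then gSer x else if 2 * a = N then x + x⁻¹ else x

theorem rowCoef_low {a n : ℕ} (x : ℂ) {c : ℕ} (ha : 2 * a ≤ N) (hn : n ≤ a) (hc : c < n) :
    rowCoef N a x c n = if c = 0 ∧ n = a ∧ 2 * a = N then x⁻¹ else 0 := by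
  have hN := NeZero.pos N
  have hk : N ≤ N * (c + 1) := Nat.le_mul_of_pos_right N (Nat.add_one_pos c)
  rw [rowCoef, gCoef_eq_zero_of_lt x (show n < N * (c + 1) + a by omega),
    gCoef_eq_zero_of_lt (1 : ℂ) (show n < N * (c + 1) by omega)]
  simp only [zero_add, mul_zero, sub_zero]
  split_ifs with h
  · obtain ⟨rfl, rfl, h⟩ := h
    rw [show N * (0 + 1) - n = n by omega, gCoef, if_pos dvd_rfl, Nat.div_self (by omega)]
    simp
  · refine gCoef_eq_zero_of_lt _ ?_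
    rcases c with _ | c
    · simp only [true_and, not_and_or] at h
      omega
    · have : 2 * N ≤ N * (c + 1 + 1) := by
        rw [mul_comm 2 N]
        exact Nat.mul_le_mul_left N (by omega)
      omega

theorem pCoef_low {a n : ℕ} (x : ℂ) (ha : 2 * a ≤ N) (hn : n ≤ a) :
    pCoef N a x n = if n = a then leadC N a x else 0 := by
  rw [pCoef, Finset.sum_congr rfl fun c hc => rowCoef_low x ha hn (Finset.mem_range.mp hc)]
  rcases eq_or_ne a 0 with rfl | ha0
  · obtain rfl := Nat.le_zero.mp hn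
    simp [leadC]
  rcases eq_or_ne n a with rfl | hne
  · rw [if_pos rfl, if_neg ha0, leadC, if_neg ha0, gCoef, if_pos dvd_rfl,
      Nat.div_self (Nat.pos_of_ne_zero ha0)]
    by_cases h : 2 * n = N
    · simp [h, Finset.sum_ite_eq', Nat.pos_of_ne_zero ha0]
    · simp [h]
  · rw [if_neg hne, if_neg ha0, gCoef_eq_zero_of_lt _ (by omega)]
    simp [hne]

theorem leadC_unit_of_lt {a a' : ℕ} (h : a < a') (ha' : 2 * a' ≤ N) {b : ZMod N}
    (hb : a = 0 → b ≠ 0) : IsZUnit N (leadC N a (zetaPow b)) := by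
  unfold leadC
  split_ifs with h1 h2
  · exact isZUnit_gSer (hb h1)
  · omega
  · exact isZUnit_zetaPow b

theorem IsZUnit.neg {c : ℂ} (hc : IsZUnit N c) : IsZUnit N (-c) :=
  ⟨neg_ne_zero.mpr hc.1, neg_mem hc.2.1, by rw [inv_neg]; exact neg_mem hc.2.2⟩

theorem isZUnit_zetaPow_sub {b c : ZMod N} (h : b ≠ c) :
    IsZUnit N (zetaPow b - zetaPow c) := by
  have e : zetaPow b - zetaPow c = zetaPow b * (1 - zetaPow (c - b)) := by
    rw [mul_sub, mul_one, ← zetaPow_add, add_sub_cancel]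
  rw [e]
  exact (isZUnit_zetaPow b).mul (isZUnit_one_sub (zetaPow_pow _)
    fun h1 => h (sub_eq_zero.mp ((zetaPow_eq_one_iff _).mp h1)).symm)

theorem isZUnit_leadC_sub {a : ℕ} {b c : ZMod N} (hbc : b ≠ c)
    (hneg : a = 0 ∨ 2 * a = N → b ≠ -c) (h0 : a = 0 → b ≠ 0 ∧ c ≠ 0) :
    IsZUnit N (leadC N a (zetaPow b) - leadC N a (zetaPow c)) := by
  have h1 : ∀ {d e : ZMod N}, d ≠ -e → IsZUnit N (1 - zetaPow d * zetaPow e) := fun {d e} h => by
    rw [← zetaPow_add]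
    exact isZUnit_one_sub (zetaPow_pow _)
      fun h1 => h (eq_neg_of_add_eq_zero_left ((zetaPow_eq_one_iff _).mp h1))
  have hb := zetaPow_pow b
  unfold leadC
  split_ifs with ha h2
  · have hx := isZUnit_one_sub (zetaPow_pow b) fun h => (h0 ha).1 ((zetaPow_eq_one_iff b).mp h)
    have hy := isZUnit_one_sub (zetaPow_pow c) fun h => (h0 ha).2 ((zetaPow_eq_one_iff c).mp h)
    have e : gSer (zetaPow b) - gSer (zetaPow c) = (zetaPow b - zetaPow c) *
        (1 - zetaPow b * zetaPow c) / ((1 - zetaPow b) * (1 - zetaPow b) *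
          ((1 - zetaPow c) * (1 - zetaPow c))) := by
      have := hx.1
      have := hy.1
      unfold gSer
      field_simp
      ring
    rw [e]
    exact ((isZUnit_zetaPow_sub hbc).mul (h1 (hneg (.inl ha)))).div ((hx.mul hx).mul (hy.mul hy))
  · have e : zetaPow b + (zetaPow b)⁻¹ - (zetaPow c + (zetaPow c)⁻¹) = (zetaPow b - zetaPow c) *
        (-(1 - zetaPow b * zetaPow c) / (zetaPow b * zetaPow c)) := by
      have := (isZUnit_zetaPow b).1
      have := (isZUnit_zetaPow c).1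
      field_simp
      ring
    rw [e]
    exact (isZUnit_zetaPow_sub hbc).mul ((h1 (hneg (.inr h2))).neg.div
      ((isZUnit_zetaPow b).mul (isZUnit_zetaPow c)))
  · exact isZUnit_zetaPow_sub hbc

theorem val_neg_add_val {a : ZMod N} (ha : a ≠ 0) : (-a).val + a.val = N := by
  have : NeZero a := ⟨ha⟩
  rw [ZMod.val_neg_of_ne_zero, Nat.sub_add_cancel a.val_lt.le]

/-- A series with unit lowest coefficient is invertible over `ℤ[ζ_N, 1/N]`. -/
theorem exists_mul_eq_one {S : Subring ℂ} {s : LaurentSeries ℂ} (hs : s ∈ serIn S) {k : ℤ}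
    (hlt : ∀ n < k, s.coeff n = 0) (h0 : s.coeff k ≠ 0) (hinv : (s.coeff k)⁻¹ ∈ S) :
    ∃ u ∈ serIn S, s * u = 1 := by
  obtain ⟨t, rfl⟩ := hs
  simp only [coeffMap_coeff, Subring.subtype_apply] at hlt h0 hinv
  have hk0 : t.coeff k ≠ 0 := fun h => h0 (by simp [h])
  have ht : t ≠ 0 := fun h => hk0 (by simp [h])
  have hord : t.order = k := by
    refine le_antisymm (order_le_of_coeff_ne_zero hk0) ((le_order_iff_forall ht).mpr fun n hn => ?_)
    exact Subtype.ext (by simpa using hlt n hn)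
  have hu : IsUnit t := by
    rw [HahnSeries.isUnit_iff, leadingCoeff_eq, hord]
    exact IsUnit.of_mul_eq_one ⟨_, hinv⟩ (Subtype.ext (mul_inv_cancel₀ h0))
  obtain ⟨u, hu'⟩ := hu.exists_right_inv
  exact ⟨coeffMap S.subtype u, ⟨u, rfl⟩, by rw [← map_mul, hu', map_one]⟩

theorem ofPowerSeries_qvPS_mem {v : Fin 2 → ZMod N} (hv : v ≠ 0) :
    ofPowerSeries ℤ ℂ (qvPS v) ∈ serIn (zetaRing N) := by
  refine mem_serIn.mpr fun n => ?_
  rcases lt_or_ge n 0 with hn | hn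
  · rw [ofPowerSeries_coeff_of_neg _ hn]
    exact zero_mem _
  · lift n to ℕ using hn
    rw [ofPowerSeries_apply_coeff]
    exact coeff_qvPS_mem hv n

theorem qvPS_unitDiff {v w : Fin 2 → ZMod N} (hv : v ≠ 0) (hw : w ≠ 0) (hne : v ≠ w)
    (hne' : v ≠ -w) : UnitDiff (zetaRing N) (ofPowerSeries ℤ ℂ (qvPS v))
      (ofPowerSeries ℤ ℂ (qvPS w)) := by
  have red : ∀ x : Fin 2 → ZMod N, x ≠ 0 →
      ∃ y, (y = x ∨ y = -x) ∧ y ≠ 0 ∧ 2 * (y 0).val ≤ N ∧ qvPS y = qvPS x := by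
    intro x hx
    by_cases h : 2 * (x 0).val ≤ N
    · exact ⟨x, .inl rfl, hx, h, rfl⟩
    · refine ⟨-x, .inr rfl, neg_ne_zero.mpr hx, ?_, qvPS_neg hx⟩
      have h0 : x 0 ≠ 0 := fun h0 => h (by simp [h0])
      have := val_neg_add_val h0
      rw [Pi.neg_apply]
      omega
  obtain ⟨v', hv1, hv0, hav, ev⟩ := red v hv
  obtain ⟨w', hw1, hw0, haw, ew⟩ := red w hw
  rw [← ev, ← ew]
  have hne1 : v' ≠ w' ∧ v' ≠ -w' := by
    rcases hv1 with rfl | rfl <;> rcases hw1 with rfl | rfl <;>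
      simp [neg_eq_iff_eq_neg, hne, hne']
  clear hv1 hw1 ev ew hne hne' red hv hw v w
  have hb0 : ∀ x : Fin 2 → ZMod N, x ≠ 0 → (x 0).val = 0 → x 1 ≠ 0 := fun x hx h h1 => hx (by
    funext i
    fin_cases i
    · exact (ZMod.val_eq_zero _).mp h
    · exact h1)
  set k := min (v' 0).val (w' 0).val with hk
  have hc : ∀ n : ℕ, n ≤ k →
      (ofPowerSeries ℤ ℂ (qvPS v') - ofPowerSeries ℤ ℂ (qvPS w')).coeff n =
        (if n = (v' 0).val then leadC N (v' 0).val (zetaPow (v' 1)) else 0) -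
        (if n = (w' 0).val then leadC N (w' 0).val (zetaPow (w' 1)) else 0) := fun n hn => by
    rw [coeff_sub, ofPowerSeries_apply_coeff, ofPowerSeries_apply_coeff, qvPS, qvPS,
      PowerSeries.coeff_mk, PowerSeries.coeff_mk, pCoef_low _ hav (by omega),
      pCoef_low _ haw (by omega)]
  have hlead : IsZUnit N
      ((ofPowerSeries ℤ ℂ (qvPS v') - ofPowerSeries ℤ ℂ (qvPS w')).coeff k) := by
    rw [hc k le_rfl]
    rcases lt_trichotomy (v' 0).val (w' 0).val with h | h | h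
    · rw [if_pos (by omega), if_neg (by omega), sub_zero]
      exact leadC_unit_of_lt h haw (hb0 v' hv0)
    · have e0 : v' 0 = w' 0 := ZMod.val_injective N h
      rw [if_pos (by omega), if_pos (by omega), ← h]
      refine isZUnit_leadC_sub (fun hb => hne1.1 ?_) (fun hz hb => hne1.2 ?_)
        fun hz => ⟨hb0 v' hv0 hz, hb0 w' hw0 (by omega)⟩
      · funext i
        fin_cases i
        · exact e0
        · exact hb
      · funext i
        fin_cases i
        · show v' 0 = -w' 0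
          rw [← e0]
          rcases hz with hz | hz
          · simp [(ZMod.val_eq_zero _).mp hz]
          · rw [eq_neg_iff_add_eq_zero, ← ZMod.natCast_zmod_val (v' 0), ← Nat.cast_add,
              show (v' 0).val + (v' 0).val = N by omega, ZMod.natCast_self]
        · exact hb
    · rw [if_neg (by omega), if_pos (by omega), zero_sub]
      exact (leadC_unit_of_lt h hav (hb0 w' hw0)).neg
  refine exists_mul_eq_one (sub_mem (ofPowerSeries_qvPS_mem hv0) (ofPowerSeries_qvPS_mem hw0))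
    (k := (k : ℤ)) (fun n hn => ?_) hlead.1 hlead.2.2
  rcases lt_or_ge n 0 with h | h
  · rw [coeff_sub, ofPowerSeries_coeff_of_neg _ h, ofPowerSeries_coeff_of_neg _ h, sub_zero]
  · lift n to ℕ using h
    rw [hc n (by omega), if_neg (by omega), if_neg (by omega), sub_zero]

end Fermat.Agent.DS.G1
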