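import Fermat.Agent.DS.G1.WPEisenstein
import Fermat.Agent.DS.G1.PrimVec

/-!
# The values of `℘` at the points of order dividing `N`
-/

set_option autoImplicit false

noncomputable section

open UpperHalfPlane
open scoped PeriodPair Real MatrixGroups

namespace Fermat.Agent.DS.G1

open Fermat.Agent.RED.Kernel

variable (N : ℕ)

/-- The point `(aτ + b) / N` for a vector `(a, b)` modulo `N`. -/
def torsPt (v : Fin 2 → ZMod N) (τ : ℍ) : ℂ :=
  ((v 0).val * (τ : ℂ) + (v 1).val) / N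

/-- `℘ / (2πi)²` at `torsPt`. -/
def wpVec (v : Fin 2 → ZMod N) (τ : ℍ) : ℂ := wpN τ (torsPt N v τ)

/-- `℘' / (2πi)³` at `torsPt`. -/
def wpdVec (v : Fin 2 → ZMod N) (τ : ℍ) : ℂ := wpdN τ (torsPt N v τ)

/-- `4P³ - (E₄/12) P + E₆/216`, the square of `P'`. -/
def wpW (v : Fin 2 → ZMod N) (τ : ℍ) : ℂ :=
  4 * wpVec N v τ ^ 3 - ModularForm.E₄ τ / 12 * wpVec N v τ + ModularForm.E₆ τ / 216

/-- `6P² - E₄/24`, the second derivative. -/
def wpA (v : Fin 2 → ZMod N) (τ : ℍ) : ℂ := 6 * wpVec N v τ ^ 2 - ModularForm.E₄ τ / 24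

/-- `P(z) - P(2z)`. -/
def wpD (v : Fin 2 → ZMod N) (τ : ℍ) : ℂ := wpVec N v τ - wpVec N (v + v) τ

variable {N}

theorem wpN_congr {τ : ℍ} {z w : ℂ} (h : z - w ∈ (tauPair τ).lattice) : wpN τ z = wpN τ w := by
  rw [wpN, wpN, show z = w + (⟨z - w, h⟩ : (tauPair τ).lattice) by simp,
    PeriodPair.weierstrassP_add_coe]

theorem wpN_neg (τ : ℍ) (z : ℂ) : wpN τ (-z) = wpN τ z := by
  rw [wpN, wpN, PeriodPair.weierstrassP_neg]

section

variable [NeZero N]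

theorem torsPt_congr (v : Fin 2 → ZMod N) (τ : ℍ) {A B : ℤ} (hA : (A : ZMod N) = v 0)
    (hB : (B : ZMod N) = v 1) : ((A : ℂ) * τ + B) / N - torsPt N v τ ∈ (tauPair τ).lattice := by
  obtain ⟨a, ha⟩ : (N : ℤ) ∣ A - (v 0).val := by
    rw [← ZMod.intCast_zmod_eq_zero_iff_dvd]
    simp [hA]
  obtain ⟨b, hb⟩ : (N : ℤ) ∣ B - (v 1).val := by
    rw [← ZMod.intCast_zmod_eq_zero_iff_dvd]
    simp [hB]
  refine mem_tauPair_lattice.mpr ⟨b, a, ?_⟩
  have hN : (N : ℂ) ≠ 0 := Nat.cast_ne_zero.mpr (NeZero.ne N)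
  have ha' : (A : ℂ) = (v 0).val + N * a := by
    exact_mod_cast (eq_add_of_sub_eq' ha)
  have hb' : (B : ℂ) = (v 1).val + N * b := by
    exact_mod_cast (eq_add_of_sub_eq' hb)
  rw [torsPt, ha', hb']
  field_simp
  ring

theorem torsPt_mem_iff (v : Fin 2 → ZMod N) (τ : ℍ) :
    torsPt N v τ ∈ (tauPair τ).lattice ↔ v = 0 := by
  refine ⟨fun h => ?_, fun h => by simp [h, torsPt]⟩
  obtain ⟨m, n, hmn⟩ := mem_tauPair_lattice.mp h
  have hN : (N : ℂ) ≠ 0 := Nat.cast_ne_zero.mpr (NeZero.ne N)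
  rw [torsPt, eq_div_iff hN] at hmn
  obtain ⟨a, ha⟩ : ∃ a, a = (v 0).val := ⟨_, rfl⟩
  obtain ⟨b, hb⟩ : ∃ b, b = (v 1).val := ⟨_, rfl⟩
  rw [← ha, ← hb] at hmn
  have him : (n : ℝ) * N = a := by
    have := congrArg Complex.im hmn
    simp at this
    have h2 : ((n : ℝ) * N - a) * τ.im = 0 := by linear_combination this
    exact sub_eq_zero.mp ((mul_eq_zero.mp h2).resolve_right τ.im_ne_zero)
  have hn : (n : ℤ) * N = (a : ℤ) := by exact_mod_cast him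
  have hre : (m : ℂ) * N = b := by
    have : ((n : ℂ) * N) = a := by exact_mod_cast hn
    linear_combination hmn - (τ : ℂ) * this
  have hm : (m : ℤ) * N = (b : ℤ) := by exact_mod_cast hre
  funext i
  fin_cases i
  · simpa [ha] using (congrArg (Int.cast : ℤ → ZMod N) hn).symm
  · simpa [hb] using (congrArg (Int.cast : ℤ → ZMod N) hm).symm

variable (N) in
/-- The points of order dividing `N` on `wpCurve`. -/
def torsHom (τ : ℍ) :
    (Fin 2 → ZMod N) →+ (wpCurve (tauPair τ)).toAffine.Point where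
  toFun v := wpPoint (tauPair τ) (wpCurve_tauPair_Δ τ) (torsPt N v τ)
  map_zero' := wpPoint_of_mem _ _ ((torsPt_mem_iff 0 τ).mpr rfl)
  map_add' v w := by
    have h := torsPt_congr (v + w) τ (A := (v 0).val + (w 0).val) (B := (v 1).val + (w 1).val)
      (by simp) (by simp)
    rw [← wpPoint_add, ← wpPoint_add_lattice _ _ (torsPt N (v + w) τ) h]
    congr 1
    simp only [torsPt]
    push_cast
    ring

theorem torsHom_eq_some {v : Fin 2 → ZMod N} (hv : v ≠ 0) (τ : ℍ) :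
    ∃ h, torsHom N τ v = .some ((2 * π * Complex.I) ^ 2 * wpVec N v τ)
      ((2 * π * Complex.I) ^ 3 * wpdVec N v τ / 2) h := by
  have e2 : (2 * π * Complex.I : ℂ) ^ 2 * wpVec N v τ = ℘[tauPair τ] (torsPt N v τ) :=
    mul_div_cancel₀ _ (pow_ne_zero 2 Complex.two_pi_I_ne_zero)
  have e3 : (2 * π * Complex.I : ℂ) ^ 3 * wpdVec N v τ = ℘'[tauPair τ] (torsPt N v τ) :=
    mul_div_cancel₀ _ (pow_ne_zero 3 Complex.two_pi_I_ne_zero)
  rw [e2, e3]
  exact wpPoint_of_notMem _ (wpCurve_tauPair_Δ τ) (fun h => hv ((torsPt_mem_iff v τ).mp h))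

theorem torsHom_injective (τ : ℍ) : Function.Injective (torsHom N τ) := by
  rw [injective_iff_map_eq_zero]
  exact fun v hv => (torsPt_mem_iff v τ).mp ((wpPoint_eq_zero_iff _ (wpCurve_tauPair_Δ τ)).mp hv)

theorem wpdVec_sq {v : Fin 2 → ZMod N} (hv : v ≠ 0) (τ : ℍ) :
    wpdVec N v τ ^ 2 = wpW N v τ :=
  wpdN_sq fun h => hv ((torsPt_mem_iff v τ).mp h)

theorem wpVec_neg (v : Fin 2 → ZMod N) (τ : ℍ) : wpVec N (-v) τ = wpVec N v τ := by
  rw [wpVec, wpVec, ← wpN_neg τ (torsPt N v τ)]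
  refine (wpN_congr ?_).symm
  have h := torsPt_congr (-v) τ (A := -((v 0).val : ℤ)) (B := -((v 1).val : ℤ))
    (by simp) (by simp)
  convert! h using 2
  simp only [torsPt]
  push_cast
  ring

/-- `℘` separates points up to sign. -/
theorem wpVec_eq_iff {v w : Fin 2 → ZMod N} (hv : v ≠ 0) (hw : w ≠ 0) (τ : ℍ) :
    wpVec N v τ = wpVec N w τ ↔ v = w ∨ v = -w := by
  refine ⟨fun h => ?_, ?_⟩
  · obtain ⟨h1, e1⟩ := torsHom_eq_some hv τ
    obtain ⟨h2, e2⟩ := torsHom_eq_some hw τ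
    rcases WeierstrassCurve.Affine.Y_eq_of_X_eq h1.1 h2.1 (by rw [h]) with hy | hy
    · refine Or.inl (torsHom_injective τ ?_)
      rw [e1, e2, WeierstrassCurve.Affine.Point.some.injEq]
      exact ⟨by rw [h], hy⟩
    · refine Or.inr (torsHom_injective τ ?_)
      rw [map_neg, e1, e2, WeierstrassCurve.Affine.Point.neg_some,
        WeierstrassCurve.Affine.Point.some.injEq]
      exact ⟨by rw [h], hy⟩
  · rintro (rfl | rfl)
    · rfl
    · rw [wpVec_neg]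

theorem wpdVec_ne_zero {v : Fin 2 → ZMod N} (hv : v + v ≠ 0) (τ : ℍ) : wpdVec N v τ ≠ 0 := by
  intro h
  have hv0 : v ≠ 0 := fun h0 => hv (by simp [h0])
  obtain ⟨h1, e1⟩ := torsHom_eq_some hv0 τ
  refine hv (torsHom_injective τ ?_)
  rw [map_add, map_zero, e1]
  refine WeierstrassCurve.Affine.Point.add_self_of_Y_eq ?_
  simp [WeierstrassCurve.Affine.negY, h]

theorem wpW_ne_zero {v : Fin 2 → ZMod N} (hv : v + v ≠ 0) (τ : ℍ) : wpW N v τ ≠ 0 := by
  rw [← wpdVec_sq (fun h0 => hv (by simp [h0])) τ]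
  exact pow_ne_zero 2 (wpdVec_ne_zero hv τ)

theorem slope_torsHom {v : Fin 2 → ZMod N} (hv : v + v ≠ 0) (τ : ℍ) :
    (wpCurve (tauPair τ)).toAffine.slope ((2 * π * Complex.I) ^ 2 * wpVec N v τ)
      ((2 * π * Complex.I) ^ 2 * wpVec N v τ) ((2 * π * Complex.I) ^ 3 * wpdVec N v τ / 2)
      ((2 * π * Complex.I) ^ 3 * wpdVec N v τ / 2) =
      2 * π * Complex.I * (wpA N v τ / (2 * wpdVec N v τ)) := by
  have hd := wpdVec_ne_zero hv τ
  have hc : (2 * π * Complex.I : ℂ) ≠ 0 := Complex.two_pi_I_ne_zero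
  rw [WeierstrassCurve.Affine.slope_of_Y_ne rfl]
  · simp only [WeierstrassCurve.Affine.negY, g₂_tauPair, wpA, zero_mul, mul_zero, sub_zero,
      add_zero, sub_neg_eq_add, add_halves]
    generalize (2 * π * Complex.I : ℂ) = c at hc
    field_simp
    ring
  · simp only [WeierstrassCurve.Affine.negY, ne_eq]
    intro h
    refine mul_ne_zero (pow_ne_zero 3 hc) hd ?_
    linear_combination h

/-- The duplication formula, and the ordinate of the double. -/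
theorem wp_double {v : Fin 2 → ZMod N} (hv : v + v ≠ 0) (τ : ℍ) :
    wpVec N (v + v) τ = (wpA N v τ / (2 * wpdVec N v τ)) ^ 2 - 2 * wpVec N v τ ∧
      wpdVec N (v + v) τ = wpA N v τ * wpD N v τ / wpdVec N v τ - wpdVec N v τ := by
  have hv0 : v ≠ 0 := fun h0 => hv (by simp [h0])
  have hd := wpdVec_ne_zero hv τ
  have hc : (2 * π * Complex.I : ℂ) ≠ 0 := Complex.two_pi_I_ne_zero
  obtain ⟨h1, e1⟩ := torsHom_eq_some hv0 τ
  obtain ⟨h2, e2⟩ := torsHom_eq_some hv τ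
  rw [map_add, e1, WeierstrassCurve.Affine.Point.add_self_of_Y_ne (by
    simp only [WeierstrassCurve.Affine.negY, ne_eq]
    intro h
    refine mul_ne_zero (pow_ne_zero 3 hc) hd ?_
    linear_combination h), WeierstrassCurve.Affine.Point.some.injEq, slope_torsHom hv τ] at e2
  obtain ⟨ex, ey⟩ := e2
  have hx : wpVec N (v + v) τ = (wpA N v τ / (2 * wpdVec N v τ)) ^ 2 - 2 * wpVec N v τ := by
    apply mul_left_cancel₀ (pow_ne_zero 2 hc)
    rw [← ex, WeierstrassCurve.Affine.addX]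
    ring
  refine ⟨hx, mul_left_cancel₀ (pow_ne_zero 3 hc) ?_⟩
  simp only [WeierstrassCurve.Affine.addY, WeierstrassCurve.Affine.negAddY,
    WeierstrassCurve.Affine.addX, WeierstrassCurve.Affine.negY, zero_mul, sub_zero,
    add_zero] at ey
  rw [wpD, hx]
  linear_combination -2 * ey

theorem wpD_ne_zero {v : Fin 2 → ZMod N} (hv : v + v ≠ 0) (hv3 : v + v + v ≠ 0) (τ : ℍ) :
    wpD N v τ ≠ 0 := by
  intro h
  rcases (wpVec_eq_iff (fun h0 => hv (by simp [h0])) hv τ).mp (sub_eq_zero.mp h) with e | e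
  · exact hv (by rw [left_eq_add] at e; simp [e])
  · exact hv3 (eq_neg_iff_add_eq_zero.mp e ▸ by abel)

/-- At a point of order `4`: `A D = W`. -/
theorem wpA_mul_wpD_four {v : Fin 2 → ZMod N} (hv : v + v ≠ 0) (h4 : v + v + (v + v) = 0)
    (τ : ℍ) : wpA N v τ * wpD N v τ = wpW N v τ := by
  have h0 : wpdVec N (v + v) τ = 0 := by
    obtain ⟨h2, e2⟩ := torsHom_eq_some hv τ
    have e := congrArg (torsHom N τ) (eq_neg_of_add_eq_zero_left h4)
    rw [map_neg, e2, WeierstrassCurve.Affine.Point.neg_some,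
      WeierstrassCurve.Affine.Point.some.injEq] at e
    have e' := e.2
    simp only [WeierstrassCurve.Affine.negY] at e'
    have : (2 * π * Complex.I : ℂ) ^ 3 * wpdVec N (v + v) τ = 0 := by linear_combination e'
    exact (mul_eq_zero.mp this).resolve_left (pow_ne_zero 3 Complex.two_pi_I_ne_zero)
  have h := (wp_double hv τ).2
  have hd := wpdVec_ne_zero hv τ
  rw [h0] at h
  rw [← wpdVec_sq (fun h0 => hv (by simp [h0])) τ]
  field_simp at h
  linear_combination -h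

/-- At a point of order `5`: `A D - W = D³`. -/
theorem wpA_mul_wpD_five {v : Fin 2 → ZMod N} (hv : v + v ≠ 0) (hv3 : v + v + v ≠ 0)
    (h5 : v + v + (v + v) + v = 0) (τ : ℍ) :
    wpA N v τ * wpD N v τ - wpW N v τ = wpD N v τ ^ 3 := by
  have hv0 : v ≠ 0 := fun h0 => hv (by simp [h0])
  have hD := wpD_ne_zero hv hv3 τ
  have hd := wpdVec_ne_zero hv τ
  have hc : (2 * π * Complex.I : ℂ) ≠ 0 := Complex.two_pi_I_ne_zero
  have hx : (2 * π * Complex.I : ℂ) ^ 2 * wpVec N v τ ≠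
      (2 * π * Complex.I : ℂ) ^ 2 * wpVec N (v + v) τ := fun h =>
    hD (sub_eq_zero.mpr (mul_left_cancel₀ (pow_ne_zero 2 hc) h))
  obtain ⟨h1, e1⟩ := torsHom_eq_some hv0 τ
  obtain ⟨h2, e2⟩ := torsHom_eq_some hv τ
  have e := congrArg (torsHom N τ) (show v + (v + v) = -(v + v) from
    eq_neg_of_add_eq_zero_left (by rw [← h5]; abel))
  rw [map_add _ v (v + v), map_neg, e1, e2, WeierstrassCurve.Affine.Point.neg_some,
    WeierstrassCurve.Affine.Point.add_of_X_ne hx, WeierstrassCurve.Affine.Point.some.injEq,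
    WeierstrassCurve.Affine.slope_of_X_ne hx, (wp_double hv τ).2] at e
  obtain ⟨P, hP⟩ : ∃ P, P = wpVec N v τ := ⟨_, rfl⟩
  obtain ⟨Q, hQ⟩ : ∃ Q, Q = wpVec N (v + v) τ := ⟨_, rfl⟩
  obtain ⟨A, hA⟩ : ∃ A, A = wpA N v τ := ⟨_, rfl⟩
  obtain ⟨d, hd'⟩ : ∃ d, d = wpdVec N v τ := ⟨_, rfl⟩
  obtain ⟨D, hDdef⟩ : ∃ D, D = wpD N v τ := ⟨_, rfl⟩
  obtain ⟨c, hc'⟩ : ∃ c : ℂ, c = 2 * π * Complex.I := ⟨_, rfl⟩
  have hPQ : D = P - Q := by rw [hDdef, hP, hQ]; rfl
  have hQv := (wp_double hv τ).1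
  rw [← hQ, ← hA, ← hd', ← hP] at hQv
  have ex := e.1
  rw [← hP, ← hQ, ← hA, ← hd', ← hDdef, ← hc', WeierstrassCurve.Affine.addX] at ex
  rw [← hDdef] at hD
  rw [← hd'] at hd
  rw [← hc'] at hc
  rw [← wpdVec_sq hv0 τ, ← hA, ← hDdef, ← hd']
  have hm : (c ^ 3 * d / 2 - c ^ 3 * (A * D / d - d) / 2) / (c ^ 2 * P - c ^ 2 * Q) =
      c * ((2 * d ^ 2 - A * D) / (2 * d * D)) := by
    rw [show c ^ 2 * P - c ^ 2 * Q = c ^ 2 * D by rw [hPQ]; ring]
    field_simp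
    ring
  rw [hm] at ex
  have h1' : ((2 * d ^ 2 - A * D) / (2 * d * D)) ^ 2 = P + 2 * Q := by
    apply mul_left_cancel₀ (pow_ne_zero 2 hc)
    linear_combination ex
  field_simp at h1' hQv
  refine mul_left_cancel₀ (pow_ne_zero 2 hd) ?_
  linear_combination (-1 / 4 : ℂ) * h1' - d ^ 2 * D ^ 2 * hPQ - D ^ 2 / 4 * hQv

/-- Weight `2`: `P_v(γτ) = (cτ + d)² P_{vγ}(τ)`. -/
theorem wpN_smul (γ : SL(2, ℤ)) (τ : ℍ) (z : ℂ) :
    wpN (γ • τ) (z / denom γ τ) = denom γ τ ^ 2 * wpN τ z := by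
  have hj := denom_ne_zero γ τ
  have hjv : denom γ τ = (γ 1 0 : ℂ) * τ + (γ 1 1 : ℂ) := ModularGroup.denom_apply γ τ
  have hdet : γ 0 0 * γ 1 1 - γ 0 1 * γ 1 0 = 1 := by
    rw [← Matrix.det_fin_two]; exact γ.det_coe
  let e : ℤ × ℤ ≃ ℤ × ℤ :=
    { toFun := fun p => (p.1 * γ 0 0 + p.2 * γ 1 0, p.1 * γ 0 1 + p.2 * γ 1 1)
      invFun := fun p => (p.1 * γ 1 1 - p.2 * γ 1 0, -p.1 * γ 0 1 + p.2 * γ 0 0)
      left_inv := fun p => by
        ext
        · linear_combination p.1 * hdet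
        · linear_combination p.2 * hdet
      right_inv := fun p => by
        ext
        · linear_combination p.1 * hdet
        · linear_combination p.2 * hdet }
  have h1 := hasSum_wp_prod (γ • τ) (z / denom γ τ)
  have h2 := (e.hasSum_iff.mpr (hasSum_wp_prod τ z)).mul_left (denom γ τ ^ 2)
  have hcoe : ((γ • τ : ℍ) : ℂ) = ((γ 0 0 : ℂ) * τ + (γ 0 1 : ℂ)) / denom γ τ := by
    rw [hjv, UpperHalfPlane.coe_specialLinearGroup_apply]
    simp
  have h3 : ℘[tauPair (γ • τ)] (z / denom γ τ) = denom γ τ ^ 2 * ℘[tauPair τ] z := by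
    refine h1.unique (h2.congr_fun fun p => ?_)
    have ea : ∀ w : ℂ, w / denom γ τ + p.1 * ((γ • τ : ℍ) : ℂ) + p.2 =
        (w + (e p).1 * τ + (e p).2) / denom γ τ := fun w => by
      rw [hcoe]
      simp only [e, Equiv.coe_fn_mk]
      field_simp
      push_cast [hjv]
      ring
    rw [ea z, show (p.1 : ℂ) * ((γ • τ : ℍ) : ℂ) + p.2 =
      0 / denom γ τ + p.1 * ((γ • τ : ℍ) : ℂ) + p.2 by simp, ea 0]
    simp only [Function.comp_apply, zero_add, div_pow, one_div_div]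
    ring
  rw [wpN, wpN, h3]
  ring

theorem wpVec_smul (γ : SL(2, ℤ)) (v : Fin 2 → ZMod N) (τ : ℍ) :
    wpVec N v (γ • τ) = denom γ τ ^ 2 *
      wpVec N (fun i => v 0 * ((γ 0 i : ℤ) : ZMod N) + v 1 * ((γ 1 i : ℤ) : ZMod N)) τ := by
  have hj := denom_ne_zero γ τ
  have hjv : denom γ τ = (γ 1 0 : ℂ) * τ + (γ 1 1 : ℂ) := ModularGroup.denom_apply γ τ
  have hN : (N : ℂ) ≠ 0 := Nat.cast_ne_zero.mpr (NeZero.ne N)
  have hcoe : ((γ • τ : ℍ) : ℂ) = ((γ 0 0 : ℂ) * τ + (γ 0 1 : ℂ)) / denom γ τ := by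
    rw [hjv, UpperHalfPlane.coe_specialLinearGroup_apply]
    simp
  have hz : torsPt N v (γ • τ) =
      (((((v 0).val : ℤ) * γ 0 0 + ((v 1).val : ℤ) * γ 1 0 : ℤ) : ℂ) * τ +
        ((((v 0).val : ℤ) * γ 0 1 + ((v 1).val : ℤ) * γ 1 1 : ℤ) : ℂ)) / N / denom γ τ := by
    rw [torsPt, hcoe]
    field_simp
    push_cast [hjv]
    ring
  rw [wpVec, hz, wpN_smul, wpVec,
    wpN_congr (torsPt_congr (fun i => v 0 * ((γ 0 i : ℤ) : ZMod N) + v 1 * ((γ 1 i : ℤ) : ZMod N))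
      τ (by simp) (by simp))]

theorem wpVec_rowMul (γ : SL(2, ℤ)) (v : PrimVec N) (τ : ℍ) :
    wpVec N v.1 (γ • τ) = denom γ τ ^ 2 * wpVec N (rowMul v γ).1 τ := by
  rw [wpVec_smul γ v.1 τ, funext (rowMul_apply v γ)]

end

end Fermat.Agent.DS.G1
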