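import Fermat.Agent.DS.G1.WPFun
import Fermat.Agent.Igusa.HasExp
import Mathlib.Analysis.Complex.LocallyUniformLimit

/-!
# The series of `℘ / (2πi)²` at a torsion point, in `exp (2πiτ/N)`
-/

set_option autoImplicit false

noncomputable section

open UpperHalfPlane
open scoped PeriodPair Real Manifold

namespace Fermat.Agent.DS.G1

open Fermat.Agent.RED.Kernel Fermat.Agent.Igusa

local notation "𝕢" => Function.Periodic.qParam

/-- A function with a power series in `exp (2πiτ/h)` is holomorphic. -/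
theorem mdiff_of_hasPSum {h : ℕ} {f : ℍ → ℂ} {p : PowerSeries ℂ} (hp : HasPSum h f p) :
    MDiff f := by
  rw [UpperHalfPlane.mdifferentiable_iff]
  intro z hz
  have hz' : 0 < z.im := hz
  refine DifferentiableAt.differentiableWithinAt ?_
  set U : Set ℂ := {w | z.im / 2 < w.im}
  have hU : IsOpen U := isOpen_lt continuous_const Complex.continuous_im
  let τ₀ : ℍ := ⟨(z.im / 2 : ℝ) * Complex.I, by simpa using half_pos hz'⟩
  have hsum : Summable fun n => ‖PowerSeries.coeff n p * 𝕢 (h : ℝ) τ₀ ^ n‖ :=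
    summable_norm_iff.mpr (hp τ₀).summable
  have hd : DifferentiableOn ℂ
      (fun w => ∑' n, PowerSeries.coeff n p * 𝕢 (h : ℝ) w ^ n) U := by
    refine Complex.differentiableOn_tsum_of_summable_norm hsum (fun n => ?_) hU fun n w hw => ?_
    · unfold Function.Periodic.qParam
      fun_prop
    · rw [norm_mul, norm_mul, norm_pow, norm_pow, Function.Periodic.norm_qParam,
        Function.Periodic.norm_qParam]
      refine mul_le_mul_of_nonneg_left (pow_le_pow_left₀ (Real.exp_pos _).le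
        (Real.exp_le_exp.mpr ?_) n) (norm_nonneg _)
      have him : (τ₀ : ℂ).im = z.im / 2 := by simp [τ₀]
      rw [him]
      have hwU : z.im / 2 < w.im := hw
      gcongr ?_ / _
      nlinarith [Real.pi_pos]
  have hmem : z ∈ U := half_lt_self hz'
  refine (hd.differentiableAt (hU.mem_nhds hmem)).congr_of_eventuallyEq ?_
  filter_upwards [isOpen_upperHalfPlaneSet.mem_nhds hz] with w hw
  simp only [Function.comp_apply, ofComplex_apply_of_im_pos hw]
  exact ((hp ⟨w, hw⟩).tsum_eq).symm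

/-- The coefficients of `g(u^e x)`, `g = u / (1 - u)²`. -/
def gCoef (e : ℕ) (x : ℂ) (n : ℕ) : ℂ := if e ∣ n then ((n / e : ℕ) : ℂ) * x ^ (n / e) else 0

theorem hasSum_gCoef {e : ℕ} (he : e ≠ 0) {x u : ℂ} (hx : ‖x‖ = 1) (hu : ‖u‖ < 1) :
    HasSum (fun n => gCoef e x n * u ^ n) (gSer (u ^ e * x)) := by
  have hn : ‖u ^ e * x‖ < 1 := by
    rw [norm_mul, norm_pow, hx, mul_one]
    exact pow_lt_one₀ (norm_nonneg _) hu he
  refine ((mul_right_injective₀ he).hasSum_iff fun n hn => ?_).mp ?_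
  · rw [gCoef, if_neg fun ⟨k, hk⟩ => hn ⟨k, hk.symm⟩, zero_mul]
  · refine (hasSum_coe_mul_geometric_of_norm_lt_one hn).congr_fun fun k => ?_
    simp only [Function.comp_apply, gCoef, dvd_mul_right, if_true,
      Nat.mul_div_cancel_left k (Nat.pos_of_ne_zero he), mul_pow, pow_mul]
    ring

theorem gCoef_eq_zero_of_lt {e n : ℕ} (x : ℂ) (h : n < e) : gCoef e x n = 0 := by
  unfold gCoef
  split_ifs
  · simp [Nat.div_eq_of_lt h]
  · rfl

theorem norm_gCoef_le (e : ℕ) {x : ℂ} (hx : ‖x‖ = 1) (n : ℕ) : ‖gCoef e x n‖ ≤ n := by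
  unfold gCoef
  split_ifs
  · rw [norm_mul, norm_pow, hx, one_pow, mul_one, Complex.norm_natCast]
    exact_mod_cast Nat.div_le_self n e
  · simp

variable (N : ℕ)

/-- The `n`-th coefficient of the `c`-th term. -/
def rowCoef (a : ℕ) (x : ℂ) (c n : ℕ) : ℂ :=
  gCoef (N * (c + 1) + a) x n + gCoef (N * (c + 1) - a) x⁻¹ n - 2 * gCoef (N * (c + 1)) 1 n

/-- The coefficients of the series of `P - 1/12` at `(aτ + b)/N`, with `x = ζ^b`. -/
def pCoef (a : ℕ) (x : ℂ) (n : ℕ) : ℂ :=
  (if a = 0 then (if n = 0 then gSer x else 0) else gCoef a x n) +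
    ∑ c ∈ Finset.range n, rowCoef N a x c n

variable {N}

theorem rowCoef_eq_zero {a : ℕ} (ha : a < N) (x : ℂ) {c n : ℕ} (h : n ≤ c) :
    rowCoef N a x c n = 0 := by
  have h1 : c < N * (c + 1) - a := by
    have : c ≤ N * c := Nat.le_mul_of_pos_left _ (by omega)
    rw [mul_add, mul_one]
    omega
  rw [rowCoef, gCoef_eq_zero_of_lt _ (by omega), gCoef_eq_zero_of_lt _ (by omega),
    gCoef_eq_zero_of_lt _ (by omega)]
  ring

theorem norm_rowCoef_le {a : ℕ} {x : ℂ} (hx : ‖x‖ = 1) (c n : ℕ) :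
    ‖rowCoef N a x c n‖ ≤ 4 * n := by
  refine (norm_sub_le _ _).trans ?_
  rw [norm_mul, Complex.norm_two]
  have h1 := norm_gCoef_le (N * (c + 1) + a) hx n
  have h2 := norm_gCoef_le (N * (c + 1) - a) (x := x⁻¹) (by rw [norm_inv, hx, inv_one]) n
  have h3 := norm_gCoef_le (N * (c + 1)) (x := (1 : ℂ)) norm_one n
  linarith [norm_add_le (gCoef (N * (c + 1) + a) x n) (gCoef (N * (c + 1) - a) x⁻¹ n)]

theorem expE_mul_natCast_div [NeZero N] (τ : ℍ) (e : ℕ) :
    expE ((e : ℂ) * τ / N) = 𝕢 (N : ℝ) τ ^ e := by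
  rw [expE, Function.Periodic.qParam, ← Complex.exp_nat_mul]
  congr 1
  push_cast
  ring

theorem hasSum_pCoef [NeZero N] (τ : ℍ) {a : ℕ} (ha : a < N) (b : ℤ) (x : ℂ)
    (hxb : x = expE ((b : ℂ) / N))
    (hz : ((a : ℂ) * τ + b) / N ∉ (tauPair τ).lattice) :
    HasSum (fun n => pCoef N a x n * 𝕢 (N : ℝ) τ ^ n)
      (wpN τ (((a : ℂ) * τ + b) / N) - 1 / 12) := by
  have hN : (N : ℂ) ≠ 0 := Nat.cast_ne_zero.mpr (NeZero.ne N)
  set u : ℂ := 𝕢 (N : ℝ) τ with hu_def
  have hu : ‖u‖ < 1 := by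
    rw [hu_def, Function.Periodic.norm_qParam, Real.exp_lt_one_iff]
    have h1 := τ.im_pos
    have h2 : (0 : ℝ) < N := Nat.cast_pos.mpr (NeZero.pos N)
    rw [div_lt_iff₀ h2, zero_mul]
    simp only [neg_mul, Left.neg_neg_iff]
    positivity
  have hx : ‖x‖ = 1 := by
    rw [hxb, norm_expE]
    simp [Complex.div_natCast_im]
  have hlead : HasSum
      (fun n => (if a = 0 then (if n = 0 then gSer x else 0) else gCoef a x n) * u ^ n)
      (gSer (expE (((a : ℂ) * τ + b) / N))) := by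
    rw [add_div, expE_add, ← hxb, expE_mul_natCast_div, ← hu_def]
    rcases eq_or_ne a 0 with rfl | ha0
    · simp only [if_true, pow_zero, one_mul]
      refine (hasSum_ite_eq (0 : ℕ) (gSer x)).congr_fun fun n => ?_
      rcases eq_or_ne n 0 with rfl | hn <;> simp [*]
    · simp only [if_neg ha0]
      exact hasSum_gCoef ha0 hx hu
  let F : ℕ × ℕ → ℂ := fun p => rowCoef N a x p.2 p.1 * u ^ p.1
  have hF : Summable F := by
    refine Summable.of_norm ((summable_prod_of_nonneg fun _ => norm_nonneg _).mpr ⟨fun n => ?_, ?_⟩)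
    · refine summable_of_ne_finset_zero (s := Finset.range n) fun c hc => ?_
      simp [F, rowCoef_eq_zero ha x (not_lt.mp (by simpa using hc))]
    · refine Summable.of_nonneg_of_le (fun n => tsum_nonneg fun _ => norm_nonneg _) (fun n => ?_)
        ((summable_norm_pow_mul_geometric_of_norm_lt_one 2 hu).mul_left 4)
      rw [tsum_eq_sum (s := Finset.range n) fun c hc => by
        simp [F, rowCoef_eq_zero ha x (not_lt.mp (by simpa using hc))]]
      refine (Finset.sum_le_sum (g := fun _ => 4 * (n : ℝ) * ‖u‖ ^ n) fun c _ => ?_).trans ?_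
      · simp only [F, norm_mul, norm_pow]
        exact mul_le_mul_of_nonneg_right (norm_rowCoef_le hx c n) (by positivity)
      · simp
        ring_nf
        rfl
  have hcols : HasSum (fun n => (∑ c ∈ Finset.range n, rowCoef N a x c n) * u ^ n) (∑' p, F p) := by
    refine hF.hasSum.prod_fiberwise fun n => ?_
    rw [Finset.sum_mul]
    exact hasSum_sum_of_ne_finset_zero fun c hc => by
      simp [F, rowCoef_eq_zero ha x (not_lt.mp (by simpa using hc))]
  have hrows : HasSum (wpTerm (((a : ℂ) * τ + b) / N) τ) (∑' p, F p) := by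
    refine ((Equiv.prodComm ℕ ℕ).hasSum_iff.mpr hF.hasSum).prod_fiberwise fun c => ?_
    have hc : a ≤ N * (c + 1) := by
      have := Nat.le_mul_of_pos_right N (Nat.add_one_pos c)
      omega
    have e1 : expE ((c + 1 : ℂ) * τ + ((a : ℂ) * τ + b) / N) = u ^ (N * (c + 1) + a) * x := by
      rw [show (c + 1 : ℂ) * τ + ((a : ℂ) * τ + b) / N =
          ((N * (c + 1) + a : ℕ) : ℂ) * τ / N + (b : ℂ) / N by push_cast; field_simp; ring,
        expE_add, expE_mul_natCast_div, ← hxb]
    have e2 : expE ((c + 1 : ℂ) * τ - ((a : ℂ) * τ + b) / N) = u ^ (N * (c + 1) - a) * x⁻¹ := by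
      rw [show (c + 1 : ℂ) * τ - ((a : ℂ) * τ + b) / N =
          ((N * (c + 1) - a : ℕ) : ℂ) * τ / N + -((b : ℂ) / N) by
            push_cast [Nat.cast_sub hc]; field_simp; ring,
        expE_add, expE_mul_natCast_div, expE_neg, ← hxb]
    have e3 : expE ((c + 1 : ℂ) * τ) = u ^ (N * (c + 1)) * 1 := by
      rw [show (c + 1 : ℂ) * τ = ((N * (c + 1) : ℕ) : ℂ) * τ / N by push_cast; field_simp,
        expE_mul_natCast_div, mul_one]
    have hN' := NeZero.pos N
    have h := ((hasSum_gCoef (e := N * (c + 1) + a) (by positivity) hx hu).add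
      (hasSum_gCoef (e := N * (c + 1) - a)
        (by have := Nat.le_mul_of_pos_right N (Nat.add_one_pos c); omega)
        (x := x⁻¹) (by rw [norm_inv, hx, inv_one]) hu)).sub
      ((hasSum_gCoef (e := N * (c + 1)) (by positivity) norm_one hu).mul_left 2)
    rw [← e1, ← e2, ← e3] at h
    refine h.congr_fun fun n => ?_
    simp only [F, Function.comp_apply, Equiv.prodComm_apply, Prod.swap, rowCoef]
    ring
  have hv := hrows.unique (hasSum_wpTerm hz)
  have h := hlead.add hcols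
  rw [hv] at h
  rw [show wpN τ (((a : ℂ) * τ + b) / N) - 1 / 12 = gSer (expE (((a : ℂ) * τ + b) / N)) +
    (wpN τ (((a : ℂ) * τ + b) / N) - (gSer (expE (((a : ℂ) * τ + b) / N)) + 1 / 12)) by ring]
  exact h.congr_fun fun n => by rw [pCoef]; ring

end Fermat.Agent.DS.G1
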